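import Fermat.Agent.EllFrob.DetCyc
import Fermat.Agent.Chebotarev.Density
import Fermat.Prelude.Def_FLTPrelim_ModularRep

set_option autoImplicit false
set_option linter.all false

/-!
An irreducible mod five representation with cyclotomic determinant contains `-1` in the image of
the Galois group of `ℚ(√-3)`; primes with such a Frobenius.
-/

noncomputable section

namespace FLTAgent.S52

open WeierstrassCurve FLTAgent.Local FLTAgent.Torsion FLTAgent.Attach FLTAgent.Chebotarev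
open scoped WeierstrassCurve.Affine Pointwise
open WeierstrassCurve.Affine.Point (galoisRepModuleEnd galoisRepModuleEnd_apply IsGaloisStable)

local notation "Ω" => AlgebraicClosure ℚ

/-- two by two matrices modulo five -/
abbrev M5 : Type := Matrix (Fin 2) (Fin 2) (ZMod 5)

instance fact_five : Fact (Nat.Prime 5) := ⟨by norm_num⟩

lemma charpoly_two (A : M5) : A * A = A.trace • A - A.det • 1 := by
  ext i j
  fin_cases i <;> fin_cases j <;>
    simp [Matrix.mul_apply, Fin.sum_univ_two, Matrix.trace_fin_two, Matrix.det_fin_two] <;> ring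

lemma pow_four_or_twelve (A : M5) (hd : A.det = 2)
    (ht : A.trace = 0 ∨ A.trace = 1 ∨ A.trace = 4) : A ^ 4 = -1 ∨ A ^ 12 = -1 := by
  have h := charpoly_two A
  rw [hd] at h
  rcases ht with t | t | t <;> rw [t] at h
  · left
    rw [show A ^ 4 = (A * A) * (A * A) by noncomm_ring, h]
    simp only [sub_mul, mul_sub, Matrix.smul_mul, Matrix.mul_smul, one_mul, mul_one, h]
    match_scalars <;> decide
  all_goals
    right
    have h3 : A * A * A = (A * A) * A := rfl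
    rw [show A ^ 12 = ((A * A * A) * (A * A * A)) * ((A * A * A) * (A * A * A)) by noncomm_ring, h]
    simp only [sub_mul, mul_sub, Matrix.smul_mul, Matrix.mul_smul, one_mul, mul_one, h, smul_sub,
      smul_smul]
    match_scalars <;> decide

lemma neg_one_of_det_one (K : M5) (hd : K.det = 1)
    (ht : K.trace = 0 ∨ K.trace = 1 ∨ K.trace = 3) : ∃ n : ℕ, K ^ n = -1 := by
  have h := charpoly_two K
  rw [hd, one_smul] at h
  rcases ht with t | t | t <;> rw [t] at h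
  · exact ⟨2, by rw [pow_two, h, zero_smul, zero_sub]⟩
  · exact ⟨3, by
      rw [show K ^ 3 = K * K * K by noncomm_ring, h, one_smul, sub_mul, one_mul, h, one_smul,
        sub_sub_cancel_left]⟩
  · refine ⟨5, ?_⟩
    rw [show K ^ 5 = K * K * (K * K) * K by noncomm_ring, h]
    simp only [sub_mul, mul_sub, Matrix.smul_mul, Matrix.mul_smul, one_mul, mul_one, h, smul_sub,
      smul_smul]
    match_scalars <;> decide

/-- trace of a commutator with a diagonal matrix -/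
lemma comm_trace {G : Type} [Group G] (R : G →* M5) {x a : G} {p0 q0 : ZMod 5}
    (ha : R a = Matrix.diagonal ![p0, q0]) :
    (R (x * a * x⁻¹ * a⁻¹)).det = 1 ∧
    (R (x * a * x⁻¹ * a⁻¹)).trace * ((R x).det * (p0 * q0)) =
      2 * (R x 0 0 * R x 1 1) * (p0 * q0) - R x 0 1 * R x 1 0 * (p0 ^ 2 + q0 ^ 2) := by
  have hinv : ∀ g : G, (R g).det • R g⁻¹ = (R g).adjugate := fun g => by
    have h1 : R g * R g⁻¹ = 1 := by rw [← map_mul, mul_inv_cancel, map_one]
    calc (R g).det • R g⁻¹ = ((R g).adjugate * R g) * R g⁻¹ := by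
          rw [Matrix.adjugate_mul, Matrix.smul_mul, one_mul]
      _ = _ := by rw [mul_assoc, h1, mul_one]
  constructor
  · let f : G →* ZMod 5 := (Matrix.detMonoidHom).comp R
    show f (x * a * x⁻¹ * a⁻¹) = 1
    rw [map_mul, map_mul, map_mul]
    calc f x * f a * f x⁻¹ * f a⁻¹ = (f x * f x⁻¹) * (f a * f a⁻¹) := by ring
      _ = 1 := by rw [← map_mul, ← map_mul, mul_inv_cancel, mul_inv_cancel, map_one, mul_one]
  · have e : ((R x).det * (R a).det) • R (x * a * x⁻¹ * a⁻¹) =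
        R x * R a * (R x).adjugate * (R a).adjugate := by
      rw [map_mul, map_mul, map_mul, ← hinv, ← hinv]
      simp only [Matrix.smul_mul, Matrix.mul_smul, smul_smul, mul_comm]
    have e2 := congrArg Matrix.trace e
    rw [Matrix.trace_smul, smul_eq_mul, ha] at e2
    rw [show (Matrix.diagonal ![p0, q0] : M5).det = p0 * q0 by simp] at e2
    rw [mul_comm, e2]
    rw [Matrix.adjugate_fin_two, Matrix.adjugate_fin_two]
    simp [Matrix.trace_fin_two, Matrix.mul_apply, Fin.sum_univ_two]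
    ring

lemma exists_comm_neg_one {G : Type} [Group G] (R : G →* M5) {x a : G} {p0 q0 : ZMod 5}
    (ha : R a = Matrix.diagonal ![p0, q0])
    (hpq : (p0 = 1 ∧ q0 = 2) ∨ (p0 = 3 ∧ q0 = 4))
    (hq : R x 0 1 ≠ 0) (hr : R x 1 0 ≠ 0) (hD : (R x).det ≠ 0) :
    ∃ (k : G) (n : ℕ), (∃ b, k = x * b * x⁻¹ * b⁻¹) ∧ R (k ^ n) = -1 := by
  have ha2 : R (a * a) = Matrix.diagonal ![p0 * p0, q0 * q0] := by
    rw [map_mul, ha, Matrix.diagonal_mul_diagonal]
    congr 1; funext i; fin_cases i <;> rfl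
  obtain ⟨d1, t1⟩ := comm_trace R (x := x) ha
  obtain ⟨d2, t2⟩ := comm_trace R (x := x) ha2
  rw [Matrix.det_fin_two] at hD t1 t2
  have key : ∀ p q r s T1 T2 : ZMod 5, q * r ≠ 0 → p * s - q * r ≠ 0 →
      T1 * ((p * s - q * r) * (p0 * q0)) = 2 * (p * s) * (p0 * q0) - q * r * (p0 ^ 2 + q0 ^ 2) →
      T2 * ((p * s - q * r) * (p0 * p0 * (q0 * q0))) =
        2 * (p * s) * (p0 * p0 * (q0 * q0)) - q * r * ((p0 * p0) ^ 2 + (q0 * q0) ^ 2) →
      (T1 = 0 ∨ T1 = 1 ∨ T1 = 3) ∨ (T2 = 0 ∨ T2 = 1 ∨ T2 = 3) := by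
    have h : ∀ A B T1 T2 p0 q0 : ZMod 5, ((p0 = 1 ∧ q0 = 2) ∨ (p0 = 3 ∧ q0 = 4)) →
        B ≠ 0 → A - B ≠ 0 →
        T1 * ((A - B) * (p0 * q0)) = 2 * A * (p0 * q0) - B * (p0 ^ 2 + q0 ^ 2) →
        T2 * ((A - B) * (p0 * p0 * (q0 * q0))) =
          2 * A * (p0 * p0 * (q0 * q0)) - B * ((p0 * p0) ^ 2 + (q0 * q0) ^ 2) →
        (T1 = 0 ∨ T1 = 1 ∨ T1 = 3) ∨ (T2 = 0 ∨ T2 = 1 ∨ T2 = 3) := by
      intro A B T1 T2 p0 q0 hpq
      rcases hpq with ⟨rfl, rfl⟩ | ⟨rfl, rfl⟩ <;> (revert A B T1 T2; decide)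
    exact fun p q r s T1 T2 a b c d => h (p * s) (q * r) T1 T2 p0 q0 hpq a b c d
  rcases key _ _ _ _ _ _ (mul_ne_zero hq hr) hD t1 t2 with h | h
  · obtain ⟨n, hn⟩ := neg_one_of_det_one _ d1 h
    exact ⟨_, n, ⟨a, rfl⟩, by rw [map_pow, hn]⟩
  · obtain ⟨n, hn⟩ := neg_one_of_det_one _ d2 h
    exact ⟨_, n, ⟨a * a, rfl⟩, by rw [map_pow, hn]⟩

/-- conjugate of a matrix representation -/
def conjHom {G : Type} [Group G] (R : G →* M5) (P : M5) (hP : IsUnit P.det) : G →* M5 where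
  toFun g := P⁻¹ * R g * P
  map_one' := by rw [map_one, mul_one, Matrix.nonsing_inv_mul _ hP]
  map_mul' g h := by
    calc P⁻¹ * R (g * h) * P = P⁻¹ * R g * (P * P⁻¹) * R h * P := by
          rw [Matrix.mul_nonsing_inv _ hP, mul_one, map_mul, ← mul_assoc]
      _ = _ := by simp only [mul_assoc]

lemma exists_eigen (A : M5) {lam : ZMod 5} (h : (A - lam • (1 : M5)).det = 0) :
    ∃ v : Fin 2 → ZMod 5, v ≠ 0 ∧ A.mulVec v = lam • v := by
  obtain ⟨v, hv, e⟩ := Matrix.exists_mulVec_eq_zero_iff.2 h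
  refine ⟨v, hv, ?_⟩
  rwa [Matrix.sub_mulVec, Matrix.smul_mulVec, Matrix.one_mulVec, sub_eq_zero] at e

/-- the group theory -/
theorem exists_neg_one {G : Type} [Group G] (R : G →* M5) (χ : G → ZMod 3)
    (hχ : ∀ g h, χ (g * h) = χ g * χ h) (hχ1 : χ 1 = 1)
    (hirr : ∀ v : Fin 2 → ZMod 5, v ≠ 0 → ∃ g, ∀ c : ZMod 5, (R g).mulVec v ≠ c • v)
    (g0 : G) (hg0 : (R g0).det = 2) : ∃ k : G, R k = -1 ∧ χ k = 1 := by
  have hχpow : ∀ g (n : ℕ), χ (g ^ n) = χ g ^ n := fun g n => by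
    induction n with
    | zero => rw [pow_zero, pow_zero, hχ1]
    | succ n ih => rw [pow_succ, pow_succ, hχ, ih]
  have hχne : ∀ g, χ g ≠ 0 := fun g e => by
    have := hχ g g⁻¹
    rw [mul_inv_cancel, hχ1, e, zero_mul] at this
    exact one_ne_zero this
  by_cases ht : (R g0).trace = 0 ∨ (R g0).trace = 1 ∨ (R g0).trace = 4
  · have h2 : ∀ c : ZMod 3, c ≠ 0 → c ^ 4 = 1 ∧ c ^ 12 = 1 := by decide
    rcases pow_four_or_twelve _ hg0 ht with h | h
    · exact ⟨g0 ^ 4, by rw [map_pow, h], by rw [hχpow, (h2 _ (hχne g0)).1]⟩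
    · exact ⟨g0 ^ 12, by rw [map_pow, h], by rw [hχpow, (h2 _ (hχne g0)).2]⟩
  · obtain ⟨l1, l2, hl, e1, e2⟩ : ∃ l1 l2 : ZMod 5, ((l1 = 1 ∧ l2 = 2) ∨ (l1 = 3 ∧ l2 = 4)) ∧
        (R g0 - l1 • (1 : M5)).det = 0 ∧ (R g0 - l2 • (1 : M5)).det = 0 := by
      have hd : ∀ l : ZMod 5, (R g0 - l • (1 : M5)).det = l ^ 2 - (R g0).trace * l + 2 := fun l => by
        rw [← hg0]
        simp [Matrix.det_fin_two, Matrix.trace_fin_two]
        ring
      have hcase : ∀ t : ZMod 5, ¬ (t = 0 ∨ t = 1 ∨ t = 4) → ∃ l1 l2 : ZMod 5,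
          ((l1 = 1 ∧ l2 = 2) ∨ (l1 = 3 ∧ l2 = 4)) ∧
          l1 ^ 2 - t * l1 + 2 = 0 ∧ l2 ^ 2 - t * l2 + 2 = 0 := by decide
      obtain ⟨l1, l2, hl, a, b⟩ := hcase _ ht
      exact ⟨l1, l2, hl, (hd l1).trans a, (hd l2).trans b⟩
    have hne : l2 - l1 ≠ 0 := by rcases hl with ⟨rfl, rfl⟩ | ⟨rfl, rfl⟩ <;> decide
    obtain ⟨v1, hv1, ev1⟩ := exists_eigen _ e1
    obtain ⟨v2, hv2, ev2⟩ := exists_eigen _ e2
    let P : M5 := Matrix.of fun i j => ![v1 i, v2 i] j
    have hPv : ∀ w : Fin 2 → ZMod 5, P.mulVec w = w 0 • v1 + w 1 • v2 := fun w => by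
      funext i; simp [P, Matrix.mulVec, dotProduct, Fin.sum_univ_two]; ring
    have hP : IsUnit P.det := by
      refine isUnit_iff_ne_zero.2 fun e => ?_
      obtain ⟨w, hw, ew⟩ := Matrix.exists_mulVec_eq_zero_iff.2 e
      rw [hPv] at ew
      have h2 := congrArg (fun z => (R g0).mulVec z - l1 • z) ew
      simp only [Matrix.mulVec_add, Matrix.mulVec_smul, ev1, ev2, Matrix.mulVec_zero, smul_zero,
        sub_zero] at h2
      have h3 : (w 1 * (l2 - l1)) • v2 = 0 := by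
        rw [← h2]; simp only [smul_add, smul_smul]; module
      have hw1 : w 1 = 0 := by
        rcases smul_eq_zero.1 h3 with h | h
        · exact (mul_eq_zero.1 h).resolve_right hne
        · exact absurd h hv2
      rw [hw1, zero_smul, add_zero] at ew
      have hw0 : w 0 = 0 := (smul_eq_zero.1 ew).resolve_right hv1
      exact hw (by funext i; fin_cases i <;> assumption)
    let R' := conjHom R P hP
    have hR' : ∀ g, P * R' g = R g * P := fun g => by
      show P * (P⁻¹ * R g * P) = _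
      rw [← mul_assoc, ← mul_assoc, Matrix.mul_nonsing_inv _ hP, one_mul]
    have ha : R' g0 = Matrix.diagonal ![l1, l2] := by
      have h1 : R g0 * P = P * Matrix.diagonal ![l1, l2] := by
        ext i j
        rw [Matrix.mul_diagonal]
        fin_cases j
        · have := congrFun ev1 i
          simp [Matrix.mulVec, dotProduct, Fin.sum_univ_two] at this
          simp [Matrix.mul_apply, Fin.sum_univ_two, P]
          linear_combination this
        · have := congrFun ev2 i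
          simp [Matrix.mulVec, dotProduct, Fin.sum_univ_two] at this
          simp [Matrix.mul_apply, Fin.sum_univ_two, P]
          linear_combination this
      show P⁻¹ * R g0 * P = _
      rw [mul_assoc, h1, ← mul_assoc, Matrix.nonsing_inv_mul _ hP, one_mul]
    have hdet : ∀ g, (R' g).det ≠ 0 := fun g e => by
      have := congrArg Matrix.det (show R' g * R' g⁻¹ = 1 by rw [← map_mul, mul_inv_cancel, map_one])
      rw [Matrix.det_mul, e, zero_mul, Matrix.det_one] at this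
      exact zero_ne_one this
    have hcol : ∀ w : Fin 2 → ZMod 5, w ≠ 0 → ∃ g, ∀ c : ZMod 5, (R' g).mulVec w ≠ c • w := by
      intro w hw
      obtain ⟨g, hg⟩ := hirr (P.mulVec w) (fun e => by
        have := congrArg (P⁻¹).mulVec e
        rw [Matrix.mulVec_mulVec, Matrix.nonsing_inv_mul _ hP, Matrix.one_mulVec,
          Matrix.mulVec_zero] at this
        exact hw this)
      refine ⟨g, fun c e => hg c ?_⟩
      rw [Matrix.mulVec_mulVec, ← hR', ← Matrix.mulVec_mulVec, e, Matrix.mulVec_smul]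
    obtain ⟨x, hx⟩ : ∃ x, R' x 1 0 ≠ 0 := by
      obtain ⟨g, hg⟩ := hcol ![1, 0] (by simp)
      refine ⟨g, fun e => hg (R' g 0 0) ?_⟩
      funext i; fin_cases i <;> simp [Matrix.mulVec, dotProduct, Fin.sum_univ_two, e]
    obtain ⟨y, hy⟩ : ∃ y, R' y 0 1 ≠ 0 := by
      obtain ⟨g, hg⟩ := hcol ![0, 1] (by simp)
      refine ⟨g, fun e => hg (R' g 1 1) ?_⟩
      funext i; fin_cases i <;> simp [Matrix.mulVec, dotProduct, Fin.sum_univ_two, e]
    obtain ⟨z, hz1, hz2⟩ : ∃ z, R' z 0 1 ≠ 0 ∧ R' z 1 0 ≠ 0 := by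
      by_cases h1 : R' x 0 1 = 0
      · by_cases h2 : R' y 1 0 = 0
        · refine ⟨x * y, ?_, ?_⟩ <;>
            rw [map_mul, Matrix.mul_apply, Fin.sum_univ_two]
          · rw [h1, zero_mul, add_zero]
            refine mul_ne_zero (fun e => hdet x ?_) hy
            rw [Matrix.det_fin_two, e, h1, zero_mul, zero_mul, sub_zero]
          · rw [h2, mul_zero, add_zero]
            refine mul_ne_zero hx (fun e => hdet y ?_)
            rw [Matrix.det_fin_two, e, h2, mul_zero, zero_mul, sub_zero]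
        · exact ⟨y, hy, h2⟩
      · exact ⟨x, h1, hx⟩
    obtain ⟨k, n, ⟨b, hk⟩, hkn⟩ := exists_comm_neg_one R' ha hl hz1 hz2 (hdet z)
    refine ⟨k ^ n, ?_, ?_⟩
    · have := hR' (k ^ n)
      rw [hkn, mul_neg, mul_one] at this
      calc R (k ^ n) = R (k ^ n) * P * P⁻¹ := by
            rw [mul_assoc, Matrix.mul_nonsing_inv _ hP, mul_one]
        _ = -1 := by rw [← this, neg_mul, Matrix.mul_nonsing_inv _ hP]
    · rw [hχpow, hk, hχ, hχ, hχ,
        show χ z * χ b * χ z⁻¹ * χ b⁻¹ = (χ z * χ z⁻¹) * (χ b * χ b⁻¹) by ring,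
        ← hχ, ← hχ, mul_inv_cancel, mul_inv_cancel, hχ1, mul_one, one_pow]

/-- `-1` is in the image of the Galois group of the field of cube roots of unity -/
theorem exists_galois_neg {W : WeierstrassCurve ℤ} (hΔ : W.Δ ≠ 0)
    (h5 : W.ModRepIsIrreducible 5) :
    ∃ σ : Ω ≃ₐ[ℚ] Ω, (∀ x : Tors W 5, σ • x = -x) ∧ cyc 3 σ = 1 := by
  classical
  obtain ⟨hfin, hrank⟩ := finrank_tors hΔ 5
  let b := Module.finBasisOfFinrankEq (ZMod 5) (Tors W 5) hrank
  let R : (Ω ≃ₐ[ℚ] Ω) →* M5 := MonoidHom.comp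
    (LinearMap.toMatrixAlgEquiv b).toMonoidHom
    (galoisRepModuleEnd ℚ (K := Ω) (W.map (Int.castRingHom ℚ)) 5)
  have hR : ∀ σ (x : Tors W 5), (R σ).mulVec (b.repr x) = b.repr (σ • x) := fun σ x =>
    LinearMap.toMatrix_mulVec_repr b b _ x
  have hdet : ∀ σ, (R σ).det = cyc 5 σ := fun σ => by
    rw [← FLTAgent.EllFrob.repDet_eq_cyc hΔ 5]
    exact LinearMap.det_toMatrix b _
  obtain ⟨A, g0, hA, hg⟩ := FLTAgent.Alg.exists_place_frobenius 2 Nat.prime_two
  have hg0 : (R g0).det = 2 := by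
    rw [hdet, cyc_frobenius Nat.prime_two (by norm_num) hA hg]; rfl
  have hirr : ∀ v : Fin 2 → ZMod 5, v ≠ 0 → ∃ g, ∀ c : ZMod 5, (R g).mulVec v ≠ c • v := by
    intro v hv
    by_contra hcon
    push Not at hcon
    let x := b.equivFun.symm v
    have hxv : (b.repr x : Fin 2 → ZMod 5) = v := b.equivFun.apply_symm_apply v
    have hx : x ≠ 0 := fun e => hv (by rw [← hxv, e]; simp)
    have hst : IsGaloisStable ℚ (Submodule.span (ZMod 5) {x}) := by
      intro σ y hy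
      obtain ⟨a, rfl⟩ := Submodule.mem_span_singleton.1 hy
      obtain ⟨c, hc⟩ := hcon σ
      have : σ • x = c • x := b.equivFun.injective (by
        rw [map_smul b.equivFun c x]
        show (b.repr (σ • x) : Fin 2 → ZMod 5) = c • (b.repr x : Fin 2 → ZMod 5)
        rw [← hR, hxv, hc])
      rw [smul_zmod_smul, this, smul_smul]
      exact Submodule.mem_span_singleton.2 ⟨a * c, rfl⟩
    rcases h5.2 _ hst with h | h
    · exact hx ((Submodule.span_singleton_eq_bot).1 h)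
    · have h1 : Module.finrank (ZMod 5) (Submodule.span (ZMod 5) {x}) = 1 :=
        finrank_span_singleton hx
      rw [h] at h1
      have h2 : Module.finrank (ZMod 5) (⊤ : Submodule (ZMod 5) (Tors W 5)) = 2 := by
        rw [finrank_top]; exact hrank
      omega
  obtain ⟨σ, hσ, hσ3⟩ := exists_neg_one R (cyc 3) (cyc_mul 3) (cyc_one 3) hirr g0 hg0
  refine ⟨σ, fun x => b.equivFun.injective ?_, hσ3⟩
  rw [map_neg]
  show (b.repr (σ • x) : Fin 2 → ZMod 5) = -(b.repr x : Fin 2 → ZMod 5)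
  rw [← hR, hσ, Matrix.neg_mulVec, Matrix.one_mulVec]

lemma eq_of_involution {G : Type} [Group G] {s y : G} (hsq : s * s = 1)
    (h : Subgroup.zpowers y = Subgroup.zpowers s) : y = s := by
  obtain ⟨n, hn⟩ := Subgroup.mem_zpowers_iff.1 (h ▸ Subgroup.mem_zpowers y)
  rcases Int.even_or_odd n with ⟨k, rfl⟩ | ⟨k, rfl⟩
  · rw [zpow_add, ← (Commute.refl s).mul_zpow, hsq, one_zpow] at hn
    have h2 := h ▸ Subgroup.mem_zpowers s
    rw [← hn, Subgroup.zpowers_one_eq_bot, Subgroup.mem_bot] at h2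
    rw [← hn, h2]
  · rw [zpow_add, zpow_one, two_mul, zpow_add, ← (Commute.refl s).mul_zpow, hsq, one_zpow,
      one_mul] at hn
    exact hn.symm

lemma agree_of_restrict (M : IntermediateField ℚ Ω) [Normal ℚ M] (f f' : Ω ≃ₐ[ℚ] Ω)
    (h : AlgEquiv.restrictNormalHom M f = AlgEquiv.restrictNormalHom M f') {z : Ω} (hz : z ∈ M) :
    f z = f' z := by
  have h1 : ((AlgEquiv.restrictNormalHom M f ⟨z, hz⟩ : M) : Ω) = f z :=
    AlgEquiv.restrictNormal_commutes f M ⟨z, hz⟩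
  have h2 : ((AlgEquiv.restrictNormalHom M f' ⟨z, hz⟩ : M) : Ω) = f' z :=
    AlgEquiv.restrictNormal_commutes f' M ⟨z, hz⟩
  rw [← h1, ← h2, h]

/-- a Frobenius element with the same effect as an involution on a finite set -/
theorem exists_frobenius_eq (σ : Ω ≃ₐ[ℚ] Ω) (S0 : Set Ω) [Finite S0]
    (hinv : ∀ (g : Ω ≃ₐ[ℚ] Ω), ∀ s ∈ S0, σ (σ (g s)) = g s) (S : Finset ℕ) :
    ∃ (r : ℕ) (A : ValuationSubring Ω) (τ : Ω ≃ₐ[ℚ] Ω), r.Prime ∧ r ∉ S ∧ A.LiesOverPrime r ∧
      A.IsFrobeniusAt τ r ∧ ∀ s ∈ S0, τ s = σ s := by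
  haveI := FLTAgent.Common.isAlgebraic_qbar
  haveI : IsGalois ℚ Ω := FLTAgent.Alg.qb_isGalois
  let E := IntermediateField.adjoin ℚ S0
  haveI : FiniteDimensional ℚ E :=
    IntermediateField.finiteDimensional_adjoin fun z _ => Algebra.IsIntegral.isIntegral z
  let M := IntermediateField.normalClosure ℚ E Ω
  haveI : Normal ℚ M := normalClosure.normal ℚ E Ω
  have hle : M ≤ IntermediateField.fixedField (Subgroup.zpowers (σ * σ)) := by
    rw [show M = ⨆ g : Ω ≃ₐ[ℚ] Ω, E.map (g : Ω →ₐ[ℚ] Ω) from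
      IntermediateField.normalClosure_def'' E]
    refine iSup_le fun g => ?_
    rw [IntermediateField.adjoin_map, IntermediateField.adjoin_le_iff]
    rintro _ ⟨s, hs, rfl⟩ ⟨h, n, rfl⟩
    show ((σ * σ) ^ n) • g s = g s
    exact MulAction.mem_stabilizer_iff.1 (Subgroup.zpow_mem _
      (MulAction.mem_stabilizer_iff.2 (hinv g s hs)) n)
  have hsq : AlgEquiv.restrictNormalHom M σ * AlgEquiv.restrictNormalHom M σ = 1 := by
    rw [← map_mul]
    refine AlgEquiv.ext fun z => Subtype.ext ?_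
    have h1 := AlgEquiv.restrictNormal_commutes (σ * σ) M z
    exact h1.trans (hle z.2 ⟨σ * σ, Subgroup.mem_zpowers _⟩)
  obtain ⟨p, x, hpS, hx⟩ := exists_frobRes_conj_gen M (AlgEquiv.restrictNormalHom M σ) S
  obtain ⟨g, hg⟩ := AlgEquiv.restrictNormalHom_surjective (F := ℚ) (K₁ := M) Ω x⁻¹
  have hkey : AlgEquiv.restrictNormalHom M (g * frobAt p * g⁻¹) =
      AlgEquiv.restrictNormalHom M σ := by
    rw [map_mul, map_mul, map_inv, hg, inv_inv]
    exact eq_of_involution hsq hx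
  refine ⟨p, g • placeAt p, g * frobAt p * g⁻¹, p.2, hpS,
    liesOverPrime_smul g (placeAt_liesOver p), isFrobeniusAt_conj (isFrobeniusAt_frobAt p) g,
    fun z hz => ?_⟩
  have hzM : z ∈ M := E.le_normalClosure (IntermediateField.subset_adjoin ℚ S0 hz)
  exact agree_of_restrict M _ σ hkey hzM

lemma xcoord_ycoord_ext {W : WeierstrassCurve ℤ} (σ τ : Ω ≃ₐ[ℚ] Ω) (Q : QPoint W)
    (hx : σ (xcoord Q) = τ (xcoord Q)) (hy : σ (ycoord Q) = τ (ycoord Q)) : σ • Q = τ • Q := by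
  rcases Q with _ | ⟨a, c, hns⟩
  · rfl
  · rw [Affine.Point.algEquiv_smul_def, Affine.Point.algEquiv_smul_def, Affine.Point.map_some,
      Affine.Point.map_some, Affine.Point.some.injEq]
    exact ⟨hx, hy⟩

/-- a Frobenius element acting as `-1` -/
theorem exists_frobenius_neg {W : WeierstrassCurve ℤ} (hΔ : W.Δ ≠ 0)
    (h5 : W.ModRepIsIrreducible 5) (S : Finset ℕ) :
    ∃ (r : ℕ) (A : ValuationSubring Ω) (τ : Ω ≃ₐ[ℚ] Ω), r.Prime ∧ r ∉ S ∧ A.LiesOverPrime r ∧
      A.IsFrobeniusAt τ r ∧ (∀ x : Tors W 5, τ • x = -x) ∧ cyc 3 τ = 1 := by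
  classical
  obtain ⟨σ, hσ, hσ3⟩ := exists_galois_neg hΔ h5
  haveI := isElliptic_curveBar hΔ
  haveI : Finite (Tors W 5) := finite_torsionBy (curveBar W) 5 (by norm_num)
  let S0 : Set Ω := (Set.range (fun x : Tors W 5 => xcoord (x : QPoint W)) ∪
    Set.range (fun x : Tors W 5 => ycoord (x : QPoint W))) ∪ {z | z ^ 3 = 1}
  have hroots : ({z : Ω | z ^ 3 = 1}).Finite := by
    refine ((Polynomial.nthRoots 3 (1 : Ω)).toFinset.finite_toSet).subset fun z hz => ?_
    rw [Finset.mem_coe, Multiset.mem_toFinset, Polynomial.mem_nthRoots (by norm_num)]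
    exact hz
  haveI : Finite S0 :=
    (((Set.finite_range _).union (Set.finite_range _)).union hroots).to_subtype
  have hinv : ∀ (g : Ω ≃ₐ[ℚ] Ω), ∀ s ∈ S0, σ (σ (g s)) = g s := by
    rintro g s ((⟨x, rfl⟩ | ⟨x, rfl⟩) | hs)
    · show σ (σ (g (xcoord (x : QPoint W)))) = g (xcoord (x : QPoint W))
      rw [← (xcoord_smul g _).1, ← (xcoord_smul σ _).1, ← (xcoord_smul σ _).1, ← coe_smul, ← coe_smul, ← coe_smul,
        hσ, hσ, neg_neg]
    · show σ (σ (g (ycoord (x : QPoint W)))) = g (ycoord (x : QPoint W))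
      rw [← (xcoord_smul g _).2, ← (xcoord_smul σ _).2, ← (xcoord_smul σ _).2, ← coe_smul, ← coe_smul, ← coe_smul,
        hσ, hσ, neg_neg]
    · have hgs : (g s) ^ 3 = 1 := by
        rw [← map_pow, show s ^ 3 = 1 from hs, map_one]
      have h1 : σ (g s) = g s := by
        rw [cyc_spec σ hgs, hσ3]
        simp [ZMod.val_one]
      rw [h1, h1]
  obtain ⟨r, A, τ, hr, hS, hA, hF, hag⟩ := exists_frobenius_eq σ S0 hinv S
  refine ⟨r, A, τ, hr, hS, hA, hF, fun t => ?_, ?_⟩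
  · rw [← hσ t]
    apply Subtype.ext
    rw [coe_smul, coe_smul]
    exact xcoord_ycoord_ext τ σ _ (hag _ (Or.inl (Or.inl ⟨t, rfl⟩)))
      (hag _ (Or.inl (Or.inr ⟨t, rfl⟩)))
  · refine cyc_unique _ 1 fun z hz => ?_
    rw [hag z (Or.inr hz), cyc_spec σ hz, hσ3]

end FLTAgent.S52
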