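import Fermat.Agent.S52.Level
import Fermat.Agent.Torsion.Reducible

set_option autoImplicit false
set_option linter.all false

/-!
The short model of an integral curve.
-/

noncomputable section

namespace FLTAgent.S52

open WeierstrassCurve FLTAgent.Local FLTAgent.Torsion

local notation "Ω" => AlgebraicClosure ℚ

/-- the change of variables to the short model -/
def shortVC (W : WeierstrassCurve ℤ) : VariableChange Ω where
  u := (Units.mk0 (6 : Ω) (by norm_num))⁻¹
  r := -((W.b₂ : Ω) / 12)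
  s := -((W.a₁ : Ω) / 2)
  t := (W.a₁ : Ω) * W.b₂ / 24 - (W.a₃ : Ω) / 2

lemma shortVC_smul (W : WeierstrassCurve ℤ) :
    shortVC W • curveBar W = lvlCurve (9 * (W.c₄ : Ω)) (27 * (W.c₆ : Ω)) := by
  have hu : ((((shortVC W).u)⁻¹ : Ωˣ) : Ω) = 6 := by simp [shortVC]
  rw [curveBar_eq]
  ext <;> simp only [variableChange_def, hu] <;> simp only [lvlCurve, WeierstrassCurve.map, shortVC, c₄, c₆, b₂, b₄,
    b₆, eq_intCast, Int.cast_add, Int.cast_sub, Int.cast_mul, Int.cast_neg, Int.cast_pow,
    Int.cast_ofNat] <;> ring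

/-- to the short model -/
def shortPt (W : WeierstrassCurve ℤ) :
    QPoint W →+ (lvlCurve (9 * (W.c₄ : Ω)) (27 * (W.c₆ : Ω))).toAffine.Point :=
  vcPt (shortVC W) (shortVC_smul W)

lemma shortPt_injective (W : WeierstrassCurve ℤ) : Function.Injective (shortPt W) :=
  vcPt_injective _ _

lemma some_congr {K : Type*} [Field K] {V : WeierstrassCurve K} {x y x' y' : K}
    (h : V.toAffine.Nonsingular x y) (h' : V.toAffine.Nonsingular x' y') (ex : x = x')
    (ey : y = y') : Affine.Point.some x y h = Affine.Point.some x' y' h' := by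
  subst ex; subst ey; rfl

lemma shortPt_smul_some (W : WeierstrassCurve ℤ) (σ : Ω ≃ₐ[ℚ] Ω) (P : QPoint W) {x y : Ω}
    {h : (lvlCurve (9 * (W.c₄ : Ω)) (27 * (W.c₆ : Ω))).toAffine.Nonsingular x y}
    (hP : shortPt W P = .some x y h) :
    ∃ h', shortPt W (σ • P) = .some (σ x) (σ y) h' := by
  rcases P with _ | ⟨a, b, hab⟩
  · exact absurd hP.symm (by rw [← Affine.Point.zero_def, map_zero]; exact Affine.Point.some_ne_zero h)
  have hP' : Affine.Point.some (vcX (shortVC W) a) (vcY (shortVC W) a b)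
      ((vc_nonsingular (shortVC_smul W) a b).2 hab) = Affine.Point.some x y h := hP
  simp only [Affine.Point.some.injEq] at hP'
  obtain ⟨rfl, rfl⟩ := hP'
  have e1 : σ (vcX (shortVC W) a) = vcX (shortVC W) (σ a) := by
    simp [vcX, shortVC, map_ofNat]
  have e2 : σ (vcY (shortVC W) a b) = vcY (shortVC W) (σ a) (σ b) := by
    simp [vcY, shortVC, map_ofNat]
  have hns : (curveBar W).toAffine.Nonsingular (σ a) (σ b) :=
    ((W.map (Int.castRingHom ℚ)).toAffine.baseChange_nonsingular σ.toAlgHom.injective a b).2 hab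
  have hn' : (lvlCurve (9 * (W.c₄ : Ω)) (27 * (W.c₆ : Ω))).toAffine.Nonsingular
      (σ (vcX (shortVC W) a)) (σ (vcY (shortVC W) a b)) := by
    rw [e1, e2]; exact (vc_nonsingular (shortVC_smul W) _ _).2 hns
  exact ⟨hn', some_congr _ _ e1.symm e2.symm⟩

end FLTAgent.S52
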