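import Fermat.Agent.EllFrob.DetCyc
import Fermat.Agent.Torsion.Reducible
import Fermat.Prelude.Def_FLTPrelim_ModularRep
import Fermat.Prelude.Def_FLTPrelim_Modularity

set_option autoImplicit false
set_option linter.all false

/-!
Irreducibility modulo three from a Frobenius element at a non-split node.
-/

noncomputable section

namespace FLTAgent.S52

open WeierstrassCurve FLTAgent.Local FLTAgent.Torsion FLTAgent.Attach IsLocalRing
open scoped WeierstrassCurve.Affine Pointwise
open WeierstrassCurve.Affine.Point (galoisRepModuleEnd galoisRepModuleEnd_apply IsGaloisStable)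

local notation "Ω" => AlgebraicClosure ℚ

/-- a stable line of a semistable curve carries a trivial character, on it or on the quotient -/
theorem fixLine_or_fixQuot {W : WeierstrassCurve ℤ} (hΔ : W.Δ ≠ 0)
    (hss : ∀ q : ℕ, q.Prime → SemistableAt W q) {p : ℕ} [Fact p.Prime] (hp3 : 3 ≤ p)
    (N : Submodule (ZMod p) (Tors W p)) (hN : IsGaloisStable ℚ N)
    (hN1 : Module.finrank (ZMod p) N = 1) : fixLine N = ⊤ ∨ fixQuot hN = ⊤ := by
  classical
  have hp : p.Prime := Fact.out
  have := isElliptic_curveBar hΔ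
  have hp2 : p ≠ 2 := by omega
  obtain ⟨hfin, hrank⟩ := finrank_tors hΔ p
  have hNb : N ≠ ⊥ := fun e => by rw [e, finrank_bot] at hN1; exact zero_ne_one hN1
  obtain ⟨P₀, hP₀N, hP₀⟩ := N.exists_mem_ne_zero_of_ne_bot hNb
  have hspan : ∀ y ∈ N, ∃ c : ZMod p, c • P₀ = y := fun y hy => by
    obtain ⟨c, hc⟩ := exists_smul_eq_of_finrank_eq_one hN1
      (show (⟨P₀, hP₀N⟩ : N) ≠ 0 from fun e => hP₀ (congrArg Subtype.val e)) ⟨y, hy⟩
    exact ⟨c, congrArg Subtype.val hc⟩
  have hline : ∀ σ : Ω ≃ₐ[ℚ] Ω, ∃ m : ℕ, σ • (P₀ : QPoint W) = m • (P₀ : QPoint W) := by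
    intro σ
    obtain ⟨c, hc⟩ := hspan _ (hN σ _ hP₀N)
    rw [zmod_smul_eq] at hc
    exact ⟨c.val, by rw [← coe_smul, ← hc]; rfl⟩
  have hfix_of : ∀ σ, σ • P₀ = P₀ → σ ∈ fixLine N := by
    intro σ hσ x hx
    obtain ⟨c, rfl⟩ := hspan x hx
    rw [smul_zmod_smul, hσ]
  have hmax : ∀ S : Submodule (ZMod p) (Tors W p), N ≤ S → S ≠ ⊤ → S ≤ N := by
    intro S hle hS
    have h2 : Module.finrank (ZMod p) S < 2 := hrank ▸ Submodule.finrank_lt hS
    exact (Submodule.eq_of_le_of_finrank_le hle (by omega)).ge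
  haveI := fixLine_normal hN
  haveI := fixQuot_normal hN
  obtain ⟨L, hL, hLtriv⟩ := FLTAgent.EllFrob.exists_torsion_field hΔ p hp.ne_zero
  haveI := hL
  have hLfix : ∀ σ ∈ L.fixingSubgroup, ∀ x : Tors W p, σ • x = x := fun σ hσ x => by
    have := hLtriv σ 1 (fun z hz => (IntermediateField.mem_fixingSubgroup_iff L σ).mp hσ z hz) x
    rwa [one_smul] at this
  have hL1 : L.fixingSubgroup ≤ fixLine N := fun σ hσ x _ => hLfix σ hσ x
  have hL2 : L.fixingSubgroup ≤ fixQuot hN := fun σ hσ x => by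
    rw [hLfix σ hσ x, sub_self]; exact N.zero_mem
  have haway : ∀ q : ℕ, q.Prime → q ≠ p → ∀ V : ValuationSubring Ω,
      V.LiesOverPrime q → V.inertiaSubgroupIn ℚ ≤ fixLine N ⊓ fixQuot hN := by
    intro q hq hqp V hV σ hσ
    have h1 : σ • P₀ = P₀ := Subtype.ext
      (inertia_fix_stable_line hV hq (hss q hq) hp hp2 hqp hσ (nsmul_tors P₀) (hline σ))
    refine Subgroup.mem_inf.mpr ⟨hfix_of σ h1, fun x => ?_⟩
    by_contra hx
    set y := σ • x - x with hy
    have hyfix : σ • y = y := Subtype.ext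
      (inertia_unipotent hV hq (hss q hq) hp hp2 hqp hσ (nsmul_tors x))
    let F : Submodule (ZMod p) (Tors W p) :=
      { carrier := {z | σ • z = z}
        add_mem' := fun {a b} (ha : σ • a = a) (hb : σ • b = b) => by
          show σ • (a + b) = a + b
          rw [smul_add, ha, hb]
        zero_mem' := smul_zero _
        smul_mem' := fun c z (hz : σ • z = z) => by
          show σ • (c • z) = c • z
          rw [smul_zmod_smul, hz] }
    have hle : N ≤ F := fun z hz => hfix_of σ h1 z hz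
    have hyF : y ∈ F := hyfix
    have hF : F = ⊤ := by_contra fun h => hx (hmax F hle h hyF)
    have hxF : σ • x = x := (hF ▸ Submodule.mem_top : x ∈ F)
    exact hx (by rw [hy, hxF, sub_self]; exact N.zero_mem)
  obtain ⟨V₀, -, hV₀, -⟩ := FLTAgent.Alg.exists_place_frobenius p hp
  have hatp : V₀.inertiaSubgroupIn ℚ ≤ fixLine N ∨ V₀.inertiaSubgroupIn ℚ ≤ fixQuot hN := by
    let ι : Tors W p →+ QPoint W := (Submodule.subtype _).toAddMonoidHom
    let E0 : Submodule (ZMod p) (Tors W p) :=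
      AddSubgroup.toZModSubmodule p ((zeroComp W V₀).comap ι)
    let E1 : Submodule (ZMod p) (Tors W p) :=
      AddSubgroup.toZModSubmodule p ((redKernel W V₀).comap ι)
    have hscal : ∀ σ : Ω ≃ₐ[ℚ] Ω, ∀ M : Submodule (ZMod p) (Tors W p), P₀ ∉ M → σ • P₀ - P₀ ∈ M →
        σ • P₀ = P₀ := by
      intro σ M hM hσM
      obtain ⟨c, hc⟩ := hspan _ (hN σ _ hP₀N)
      rw [← hc]
      by_contra hne
      have hc1 : c - 1 ≠ 0 := fun e => hne (by rw [sub_eq_zero.mp e, one_smul])
      apply hM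
      rw [← hc] at hσM
      have h3 := M.smul_mem (c - 1)⁻¹ hσM
      rwa [show c • P₀ - P₀ = (c - 1) • P₀ by rw [sub_smul, one_smul], smul_smul,
        inv_mul_cancel₀ hc1, one_smul] at h3
    by_cases h0 : P₀ ∈ E0
    · by_cases h1 : P₀ ∈ E1
      · right
        intro σ hσ
        have hNE1 : N ≤ E1 := fun z hz => by
          obtain ⟨c, rfl⟩ := hspan z hz
          exact E1.smul_mem c h1
        have hE1 : E1 ≤ N := hmax E1 hNE1 (by
          intro htop
          obtain ⟨x, hx, hxnot⟩ := exists_torsion_not_mem_redKernel hΔ hV₀ hp hp3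
            (nsmul_tors P₀) (fun e => hP₀ (Subtype.ext e)) hline
          exact hxnot (show mkTors x hx ∈ E1 from htop ▸ Submodule.mem_top))
        intro x
        by_cases hx0 : x ∈ E0
        · exact hE1 (show σ • x - x ∈ E1 from inertia_sub_mem_redKernel hσ hx0)
        · have hE0 : E0 ≤ N := hmax E0 (fun z hz => by
            obtain ⟨c, rfl⟩ := hspan z hz
            exact E0.smul_mem c h0) (fun htop => hx0 (htop ▸ Submodule.mem_top))
          exact hE0 (show σ • x - x ∈ E0 from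
            inertia_sub_mem_zeroComp hV₀ hp (hss p hp) hp hp2 hσ (nsmul_tors x))
      · left
        intro σ hσ
        exact hfix_of σ (hscal σ E1 h1 (inertia_sub_mem_redKernel hσ h0))
    · left
      intro σ hσ
      exact hfix_of σ (hscal σ E0 h0
        (inertia_sub_mem_zeroComp hV₀ hp (hss p hp) hp hp2 hσ (nsmul_tors P₀)))
  rcases hatp with hline' | hquot
  · exact Or.inl (FLTAgent.Common.eq_top_of_inertia_le L _ hL1 (fun q hq V hV => by
      rcases eq_or_ne q p with rfl | hqp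
      · exact FLTAgent.Common.inertia_le_of_inertia_le hq hV₀ hV hline'
      · exact (haway q hq hqp V hV).trans inf_le_left))
  · exact Or.inr (FLTAgent.Common.eq_top_of_inertia_le L _ hL2 (fun q hq V hV => by
      rcases eq_or_ne q p with rfl | hqp
      · exact FLTAgent.Common.inertia_le_of_inertia_le hq hV₀ hV hquot
      · exact (haway q hq hqp V hV).trans inf_le_right))

/-- determinant one together with a trivial sub or quotient is unipotent -/
lemma unipotent_of_det {p : ℕ} [Fact p.Prime] {V : Type*} [AddCommGroup V] [Module (ZMod p) V]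
    [Module.Finite (ZMod p) V] (hrank : Module.finrank (ZMod p) V = 2) (f : V →ₗ[ZMod p] V)
    (hdet : LinearMap.det f = 1) {N : Submodule (ZMod p) V} (hN1 : Module.finrank (ZMod p) N = 1)
    (hfN : ∀ x ∈ N, f x ∈ N) (h : (∀ x ∈ N, f x = x) ∨ ∀ x, f x - x ∈ N) (x : V) :
    f (f x - x) = f x - x := by
  have hNb : N ≠ ⊥ := fun e => by rw [e, finrank_bot] at hN1; exact zero_ne_one hN1
  obtain ⟨v, hvN, hv⟩ := N.exists_mem_ne_zero_of_ne_bot hNb
  have hspan : ∀ y ∈ N, ∃ c : ZMod p, c • v = y := fun y hy => by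
    obtain ⟨c, hc⟩ := exists_smul_eq_of_finrank_eq_one hN1
      (show (⟨v, hvN⟩ : N) ≠ 0 from fun e => hv (congrArg Subtype.val e)) ⟨y, hy⟩
    exact ⟨c, congrArg Subtype.val hc⟩
  obtain ⟨d, hd⟩ := hspan _ (hfN v hvN)
  obtain ⟨w, hw⟩ : ∃ w, w ∉ N := by
    by_contra hcon
    push Not at hcon
    have := (Submodule.eq_top_iff'.2 hcon : N = ⊤)
    rw [this, finrank_top, hrank] at hN1
    omega
  have hli : LinearIndependent (ZMod p) ![v, w] := by
    rw [LinearIndependent.pair_iff]
    intro s t hst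
    have ht : t = 0 := by
      by_contra ht
      apply hw
      have : w = -(t⁻¹ * s) • v := by
        rw [eq_neg_of_add_eq_zero_right hst |> fun e => (show t⁻¹ • (t • w) = w by
          rw [smul_smul, inv_mul_cancel₀ ht, one_smul]).symm.trans (congrArg _ e)]
        rw [smul_neg, smul_smul, neg_smul]
      rw [this]
      exact N.smul_mem _ hvN
    refine ⟨?_, ht⟩
    rw [ht, zero_smul, add_zero] at hst
    exact (smul_eq_zero.1 hst).resolve_right hv
  let b := basisOfLinearIndependentOfCardEqFinrank hli (by rw [hrank]; simp)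
  have hb : ∀ i, b i = ![v, w] i := fun i => by simp [b]
  obtain ⟨a, c, hac⟩ : ∃ a c : ZMod p, a • v + c • w = f w := by
    refine ⟨b.repr (f w) 0, b.repr (f w) 1, ?_⟩
    conv_rhs => rw [← b.sum_repr (f w)]
    simp [Fin.sum_univ_two, hb]
  have hdc : d * c = 1 := by
    rw [← hdet, ← LinearMap.det_toMatrix b, Matrix.det_fin_two]
    have e0 : f (b 0) = d • b 0 := by simp [hb, hd]
    have e1 : f (b 1) = a • b 0 + c • b 1 := by simp [hb, hac]
    simp [LinearMap.toMatrix_apply, e0, e1]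
  have hd1 : d = 1 ∧ c = 1 := by
    rcases h with h | h
    · have : d = 1 := by
        have e := hd.trans (h v hvN)
        rw [← sub_eq_zero]
        refine (smul_eq_zero.1 ?_).resolve_right hv
        rw [sub_smul, e, one_smul, sub_self]
      exact ⟨this, by rw [← hdc, this, one_mul]⟩
    · have : c = 1 := by
        obtain ⟨e, he⟩ := hspan _ (h w)
        have h0 : (a - e) • v + (c - 1) • w = 0 := by
          rw [sub_smul, sub_smul, he, ← hac, one_smul]; abel
        exact sub_eq_zero.1 ((LinearIndependent.pair_iff.1 hli) _ _ h0).2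
      exact ⟨by rw [← hdc, this, mul_one], this⟩
  obtain ⟨rfl, rfl⟩ := hd1
  rw [one_smul] at hd hac
  have hmem : ∀ y, f y - y ∈ Submodule.span (ZMod p) {v} := by
    intro y
    have hy := b.sum_repr y
    rw [Fin.sum_univ_two, hb, hb] at hy
    simp only [Matrix.cons_val_zero, Matrix.cons_val_one] at hy
    rw [← hy, map_add, map_smul, map_smul, ← hd, ← hac, smul_add, smul_smul]
    exact Submodule.mem_span_singleton.2 ⟨b.repr y 1 * a, by abel⟩
  obtain ⟨e, he⟩ := Submodule.mem_span_singleton.1 (hmem x)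
  rw [← he, map_smul, ← hd]

/-- the polynomial identity behind the residual three-torsion -/
lemma short_identities {R : Type*} [CommRing R] (V : WeierstrassCurve R) (x y : R) :
    (108 * (2 * y + V.a₁ * x + V.a₃)) ^ 2 -
        ((36 * x + 3 * V.b₂) ^ 3 - 27 * V.c₄ * (36 * x + 3 * V.b₂) - 54 * V.c₆) =
      46656 * (y ^ 2 + V.a₁ * x * y + V.a₃ * y - (x ^ 3 + V.a₂ * x ^ 2 + V.a₄ * x + V.a₆)) ∧
    3 * (36 * x + 3 * V.b₂) ^ 4 - 162 * V.c₄ * (36 * x + 3 * V.b₂) ^ 2
        - 648 * V.c₆ * (36 * x + 3 * V.b₂) - 729 * V.c₄ ^ 2 =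
      1679616 * (3 * x ^ 4 + V.b₂ * x ^ 3 + 3 * V.b₄ * x ^ 2 + 3 * V.b₆ * x + V.b₈) ∧
    3 * (36 * x + 3 * V.b₂) ^ 2 - 27 * V.c₄ =
      1296 * (3 * x ^ 2 + 2 * V.a₂ * x + V.a₄ - V.a₁ * y) + 6 * V.a₁ * (108 * (2 * y + V.a₁ * x + V.a₃)) := by
  refine ⟨?_, ?_, ?_⟩ <;> simp only [c₄, c₆, b₂, b₄, b₆, b₈] <;> ring

/-- residues of a nonsingular point of order three -/
lemma residual_three {k : Type*} [Field k] (h2 : (2 : k) ≠ 0) (h3 : (3 : k) ≠ 0)
    (V : WeierstrassCurve k) {c x y : k} (hc : c ≠ 0) (hc4 : 9 * V.c₄ = c ^ 2)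
    (hc6 : 27 * V.c₆ = c ^ 3) (hns : V.toAffine.Nonsingular x y)
    (hψ : 3 * x ^ 4 + V.b₂ * x ^ 3 + 3 * V.b₄ * x ^ 2 + 3 * V.b₆ * x + V.b₈ = 0) :
    (27 * (2 * y + V.a₁ * x + V.a₃) / c) ^ 2 = c := by
  obtain ⟨I1, I2, I3⟩ := short_identities V x y
  rw [Affine.nonsingular_iff, Affine.equation_iff] at hns
  obtain ⟨heq, hgrad⟩ := hns
  set X := 36 * x + 3 * V.b₂ with hX
  set P := 2 * y + V.a₁ * x + V.a₃ with hP
  have e1 : (108 * P) ^ 2 = (X + c) ^ 2 * (X - 2 * c) := by
    linear_combination I1 + 46656 * heq - 3 * X * hc4 - 2 * hc6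
  have e2 : 3 * ((X + c) ^ 3 * (X - 3 * c)) = 0 := by
    linear_combination I2 + 1679616 * hψ + (18 * X ^ 2 + 9 * (9 * V.c₄ + c ^ 2)) * hc4 + 24 * X * hc6
  have h108 : (108 : k) ≠ 0 := by
    rw [show (108 : k) = 2 ^ 2 * 3 ^ 3 by norm_num]
    exact mul_ne_zero (pow_ne_zero _ h2) (pow_ne_zero _ h3)
  have hX3 : X = 3 * c := by
    rcases mul_eq_zero.1 ((mul_eq_zero.1 e2).resolve_left h3) with h | h
    · exfalso
      have hXc : X = -c := eq_neg_of_add_eq_zero_left (pow_eq_zero_iff three_ne_zero |>.1 h)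
      have hP0 : P = 0 := by
        rw [hXc] at e1
        have : (108 * P) ^ 2 = 0 := by rw [e1]; ring
        exact (mul_eq_zero.1 (pow_eq_zero_iff two_ne_zero |>.1 this)).resolve_left h108
      have h4 : 3 * x ^ 2 + 2 * V.a₂ * x + V.a₄ - V.a₁ * y = 0 := by
        have h1296 : (1296 : k) ≠ 0 := by
          rw [show (1296 : k) = 2 ^ 4 * 3 ^ 4 by norm_num]
          exact mul_ne_zero (pow_ne_zero _ h2) (pow_ne_zero _ h3)
        refine (mul_eq_zero.1 ?_).resolve_left h1296
        rw [hXc, hP0] at I3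
        linear_combination -I3 - 3 * hc4
      rcases hgrad with g | g
      · exact g (by linear_combination -h4)
      · exact g (by linear_combination hP0)
    · exact sub_eq_zero.1 h
  rw [hX3] at e1
  rw [div_pow, div_eq_iff (pow_ne_zero 2 hc)]
  have h16 : (16 : k) ≠ 0 := by
    rw [show (16 : k) = 2 ^ 4 by norm_num]; exact pow_ne_zero _ h2
  refine mul_left_cancel₀ h16 ?_
  linear_combination e1

lemma residue_frob {A : ValuationSubring Ω} {τ : Ω ≃ₐ[ℚ] Ω} {r : ℕ} (hF : A.IsFrobeniusAt τ r)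
    (x : A) :
    residue A ⟨τ x, FLTAgent.Chebotarev.frob_apply_mem hF x.2⟩ = residue A x ^ r := by
  have h := FLTAgent.Chebotarev.frob_sub_pow_mem hF x.2
  rw [← map_pow, ← sub_eq_zero, ← map_sub, residue_eq_zero_iff,
    ← ValuationSubring.coe_mem_nonunits_iff]
  simpa using h

/-- irreducibility modulo three -/
theorem irreducible_three {W : WeierstrassCurve ℤ} (hΔ : W.Δ ≠ 0) (hW : W.IsSemistableModel)
    {r : ℕ} (hr : r.Prime) (h2 : r ≠ 2) (h3 : r ≠ 3) {A : ValuationSubring Ω}
    (hA : A.LiesOverPrime r) {τ : Ω ≃ₐ[ℚ] Ω} (hF : A.IsFrobeniusAt τ r) (hτ3 : cyc 3 τ = 1)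
    {c : ResidueField A} (hc : c ≠ 0) (hc4 : 9 * (W.c₄ : ResidueField A) = c ^ 2)
    (hc6 : 27 * (W.c₆ : ResidueField A) = c ^ 3)
    (hns : ∀ y : ResidueField A, y ^ r = y → y ^ 2 ≠ c) : W.ModRepIsIrreducible 3 := by
  classical
  by_contra hred
  haveI : Fact (Nat.Prime 3) := ⟨Nat.prime_three⟩
  haveI : Fact r.Prime := ⟨hr⟩
  haveI hcp : CharP (ResidueField A) r := FLTAgent.Chebotarev.charP_residue hr hA
  haveI := isElliptic_curveBar hΔ
  obtain ⟨hfin, hrank⟩ := finrank_tors hΔ 3
  have hnontriv : Nontrivial (Tors W 3) :=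
    Module.nontrivial_of_finrank_pos (R := ZMod 3) (by rw [hrank]; norm_num)
  obtain ⟨N, hN, hNb, hNt⟩ : ∃ N : Submodule (ZMod 3) (Tors W 3),
      IsGaloisStable ℚ N ∧ N ≠ ⊥ ∧ N ≠ ⊤ := by
    by_contra hcon
    push Not at hcon
    exact hred ⟨hnontriv, fun N hN => (em (N = ⊥)).imp id (hcon N hN)⟩
  have hN1 : Module.finrank (ZMod 3) N = 1 := by
    have h1 : 0 < Module.finrank (ZMod 3) N := by
      rw [Module.finrank_pos_iff]
      exact Submodule.nontrivial_iff_ne_bot.mpr hNb
    have h2 : Module.finrank (ZMod 3) N < 2 := hrank ▸ Submodule.finrank_lt hNt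
    omega
  set f := galoisRepModuleEnd ℚ (K := Ω) (W.map (Int.castRingHom ℚ)) 3 τ with hf
  have hdet : LinearMap.det f = 1 := by
    have := congrFun (FLTAgent.EllFrob.repDet_eq_cyc hΔ 3) τ
    rwa [hτ3] at this
  have huni : ∀ x : Tors W 3, τ • (τ • x - x) = τ • x - x := by
    refine fun x => unipotent_of_det hrank f hdet hN1 (fun y hy => hN τ y hy) ?_ x
    rcases fixLine_or_fixQuot hΔ (fun q hq => hW q hq) le_rfl N hN hN1 with h | h
    · exact Or.inl fun y hy => (h ▸ Subgroup.mem_top τ : τ ∈ fixLine N) y hy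
    · exact Or.inr fun y => (h ▸ Subgroup.mem_top τ : τ ∈ fixQuot hN) y
  have hr3' : ¬ r ∣ 3 := fun h => h3 ((Nat.prime_dvd_prime_iff_eq hr Nat.prime_three).1 h)
  -- the zero component meets the three-torsion
  obtain ⟨Q, hQ0, hQne⟩ : ∃ Q : Tors W 3, (Q : QPoint W) ∈ zeroComp W A ∧ Q ≠ 0 := by
    obtain ⟨P, hP⟩ := exists_ne (0 : Tors W 3)
    by_cases hP0 : (P : QPoint W) ∈ zeroComp W A
    · exact ⟨P, hP0, hP⟩
    obtain ⟨Q, hQ⟩ : ∃ Q : Tors W 3, Q ∉ Submodule.span (ZMod 3) {P} := by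
      by_contra hcon
      push Not at hcon
      have h1 : Module.finrank (ZMod 3) (Submodule.span (ZMod 3) {P}) = 1 := finrank_span_singleton hP
      rw [Submodule.eq_top_iff'.2 hcon, finrank_top, hrank] at h1
      omega
    obtain ⟨m, hm⟩ := exists_nsmul_sub_mem_zeroComp hA hr (hW r hr) hΔ Nat.prime_three (by norm_num)
      (nsmul_tors P) (nsmul_tors Q) hP0
    refine ⟨Q - m • P, by simpa using hm, fun e => hQ ?_⟩
    rw [sub_eq_zero.1 e]
    exact nsmul_mem (Submodule.mem_span_singleton_self P) m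
  -- residues of a point of the zero component
  have haff : ∀ T : Tors W 3, (T : QPoint W) ∈ zeroComp W A → T ≠ 0 →
      ∃ (x y : A) (h : (curveBar W).toAffine.Nonsingular (x : Ω) (y : Ω)),
        (T : QPoint W) = Affine.Point.some (x : Ω) (y : Ω) h ∧
        (W.map (Int.castRingHom (ResidueField A))).toAffine.Nonsingular (residue A x) (residue A y) := by
    intro T hT hT0
    rcases hT with e | ⟨x, y, h, e, hx | ⟨hx, hy, hns⟩⟩
    · exact absurd (Subtype.ext e) hT0
    · exact absurd (Subtype.ext (redKernel_torsion_eq_zero hA hr hr3'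
        ((mem_redKernel W A).2 (Or.inr ⟨x, y, h, e, hx⟩)) (nsmul_tors T))) hT0
    · exact ⟨⟨x, hx⟩, ⟨y, hy⟩, h, e, hns⟩
  have hsmul : ∀ T : Tors W 3, (T : QPoint W) ∈ zeroComp W A →
      ((τ • T : Tors W 3) : QPoint W) ∈ zeroComp W A := by
    intro T hT
    rcases eq_or_ne T 0 with rfl | hT0
    · rw [smul_zero]; exact (zeroComp W A).zero_mem
    obtain ⟨x, y, h, e, hns'⟩ := haff T hT hT0
    rw [coe_smul, e, Affine.Point.algEquiv_smul_def, Affine.Point.map_some, mem_zeroComp]
    refine Or.inr ⟨_, _, _, rfl, Or.inr ⟨FLTAgent.Chebotarev.frob_apply_mem hF x.2,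
      FLTAgent.Chebotarev.frob_apply_mem hF y.2, ?_⟩⟩
    show (W.map (Int.castRingHom (ResidueField A))).toAffine.Nonsingular
      (residue A ⟨τ x, _⟩) (residue A ⟨τ y, _⟩)
    rw [residue_frob hF, residue_frob hF]
    have h' := ((W.map (Int.castRingHom (ResidueField A))).toAffine.map_nonsingular
      (frobenius (ResidueField A) r).injective (residue A x) (residue A y)).2 hns'
    have hm : (W.map (Int.castRingHom (ResidueField A))).map (frobenius (ResidueField A) r) =
        W.map (Int.castRingHom (ResidueField A)) := by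
      rw [WeierstrassCurve.map_map]
      congr 1
      exact RingHom.ext_int _ _
    have h'' : ((W.map (Int.castRingHom (ResidueField A))).map
        (frobenius (ResidueField A) r)).toAffine.Nonsingular
        (frobenius (ResidueField A) r (residue A x)) (frobenius (ResidueField A) r (residue A y)) := h'
    rw [hm, frobenius_def, frobenius_def] at h''
    exact h''
  obtain ⟨T, hT, hT0, hTfix⟩ : ∃ T : Tors W 3,
      (T : QPoint W) ∈ zeroComp W A ∧ T ≠ 0 ∧ τ • T = T := by
    by_cases h : τ • Q = Q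
    · exact ⟨Q, hQ0, hQne, h⟩
    · refine ⟨τ • Q - Q, ?_, sub_ne_zero.2 h, huni Q⟩
      rw [Submodule.coe_sub]
      exact (zeroComp W A).sub_mem (hsmul Q hQ0) hQ0
  obtain ⟨x, y, h, e, hns'⟩ := haff T hT hT0
  have hfix := congrArg (fun T : Tors W 3 => (T : QPoint W)) hTfix
  simp only [coe_smul, e, Affine.Point.algEquiv_smul_def, Affine.Point.map_some,
    Affine.Point.some.injEq] at hfix
  have hx : residue A x ^ r = residue A x := by
    rw [← residue_frob hF x]; exact congrArg _ (Subtype.ext hfix.1)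
  have hy : residue A y ^ r = residue A y := by
    rw [← residue_frob hF y]; exact congrArg _ (Subtype.ext hfix.2)
  set V := W.map (Int.castRingHom (ResidueField A)) with hV
  have hψ : 3 * residue A x ^ 4 + V.b₂ * residue A x ^ 3 + 3 * V.b₄ * residue A x ^ 2
      + 3 * V.b₆ * residue A x + V.b₈ = 0 := by
    have h3t : 3 • Affine.Point.some (W' := (curveBar W).toAffine) (x : Ω) (y : Ω) h = 0 := by
      rw [← e]; exact nsmul_tors T
    have h0 := (nsmul_eq_zero_iff (W := curveBar W) h 3).1 h3t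
    rw [WeierstrassCurve.ΨSq_ofNat] at h0
    simp [show ¬ Even 3 by decide, WeierstrassCurve.preΨ'_three, WeierstrassCurve.Ψ₃] at h0
    rw [curveBar_eq] at h0
    simp only [map_b₂, map_b₄, map_b₆, map_b₈, eq_intCast] at h0
    have hA0 : 3 * x ^ 4 + (W.b₂ : A) * x ^ 3 + 3 * (W.b₄ : A) * x ^ 2 + 3 * (W.b₆ : A) * x
        + (W.b₈ : A) = 0 := by
      apply A.subtype_injective
      simp only [map_add, map_mul, map_pow, map_intCast, map_zero, map_ofNat]
      exact h0
    have := congrArg (residue A) hA0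
    simp only [map_add, map_mul, map_pow, map_intCast, map_zero, map_ofNat] at this
    simpa [hV] using this
  have two : (2 : ResidueField A) ≠ 0 := by
    rw [show (2 : ResidueField A) = ((2 : ℕ) : ResidueField A) by norm_num, Ne,
      CharP.cast_eq_zero_iff (ResidueField A) r]
    exact fun h => h2 ((Nat.prime_dvd_prime_iff_eq hr Nat.prime_two).1 h)
  have three : (3 : ResidueField A) ≠ 0 := by
    rw [show (3 : ResidueField A) = ((3 : ℕ) : ResidueField A) by norm_num, Ne,
      CharP.cast_eq_zero_iff (ResidueField A) r]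
    exact hr3'
  have hkey := residual_three two three V hc (by simpa [hV] using hc4) (by simpa [hV] using hc6)
    hns' hψ
  refine hns _ ?_ hkey
  have hcr : c ^ r = c := by
    have h6 : c = 3 * (W.c₆ : ResidueField A) / (W.c₄ : ResidueField A) := by
      have h40 : (W.c₄ : ResidueField A) ≠ 0 := fun e => by
        rw [e, mul_zero] at hc4; exact pow_ne_zero 2 hc hc4.symm
      rw [eq_div_iff h40]
      refine mul_left_cancel₀ (pow_ne_zero 2 three) ?_
      linear_combination c * hc4 - hc6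
    rw [h6, ← frobenius_def, map_div₀, map_mul, map_intCast, map_intCast, map_ofNat]
  rw [← frobenius_def, map_div₀, map_mul, map_add, map_add, map_mul, map_mul, map_ofNat, map_ofNat]
  simp only [hV, WeierstrassCurve.map, eq_intCast, map_intCast]
  simp only [frobenius_def, hx, hy, hcr]

end FLTAgent.S52
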