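import Fermat.Agent.S52.Cusp
import Fermat.Agent.S52.MinusOne

set_option autoImplicit false
set_option linter.all false

/-!
An integral semistable member of the family reducing to the cusp at a prime where the node is
not split.
-/

noncomputable section

namespace FLTAgent.S52

open Polynomial WeierstrassCurve FLTAgent.Local FLTAgent.Torsion FLTAgent.Attach IsLocalRing

local notation "Ω" => AlgebraicClosure ℚ

/-- clear denominators -/
lemma exists_clear (P : ℚ[X]) :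
    ∃ (b : ℕ) (Q : ℤ[X]), b ≠ 0 ∧ Q.map (Int.castRingHom ℚ) = Polynomial.C (b : ℚ) * P := by
  obtain ⟨⟨m, hm⟩, e⟩ : ∃ b : nonZeroDivisors ℤ,
      (IsLocalization.integerNormalization (nonZeroDivisors ℤ) P).map (algebraMap ℤ ℚ) =
        (b : ℤ) • P := by
    obtain ⟨b, h1, h2⟩ := IsLocalization.integerNormalization_spec (nonZeroDivisors ℤ) P
    exact ⟨⟨b, h1⟩, h2⟩
  have hm0 : m ≠ 0 := nonZeroDivisors.ne_zero hm
  refine ⟨m.natAbs, Polynomial.C m.sign * IsLocalization.integerNormalization (nonZeroDivisors ℤ) P,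
    Int.natAbs_ne_zero.2 hm0, ?_⟩
  rw [Polynomial.map_mul, map_C, ← algebraMap_int_eq, e, zsmul_eq_mul, ← mul_assoc]
  congr 1
  rw [show ((m : ℤ) : ℚ[X]) = Polynomial.C ((m : ℤ) : ℚ) from (map_intCast (Polynomial.C (R := ℚ)) m).symm,
    ← map_mul]
  congr 1
  rw [algebraMap_int_eq, eq_intCast, ← Int.cast_mul, Int.sign_mul_self_eq_natAbs, Int.cast_natCast]

lemma eval_clear {P : ℚ[X]} {b : ℕ} {Q : ℤ[X]}
    (e : Q.map (Int.castRingHom ℚ) = Polynomial.C (b : ℚ) * P) (n : ℤ) :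
    ((Q.eval n : ℤ) : ℚ) = b * P.eval (n : ℚ) := by
  have := congrArg (Polynomial.eval (n : ℚ)) e
  rw [eval_mul, eval_C, eval_map, ← eq_intCast (Int.castRingHom ℚ) n, eval₂_at_apply] at this
  simpa using this

/-- integrality of values at suitable multiples -/
lemma exists_value {P : ℚ[X]} {b : ℕ} (hb : b ≠ 0) {Q : ℤ[X]}
    (e : Q.map (Int.castRingHom ℚ) = Polynomial.C (b : ℚ) * P) (M n : ℤ) :
    ∃ z : ℤ, P.eval ((b * M * n : ℤ) : ℚ) = P.eval 0 + M * z := by
  obtain ⟨k, hk⟩ := sub_dvd_eval_sub (b * M * n : ℤ) 0 Q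
  refine ⟨n * k, ?_⟩
  have h1 := eval_clear e (b * M * n)
  have h0 := eval_clear e 0
  rw [sub_zero] at hk
  have h2 := congrArg (fun z : ℤ => (z : ℚ)) hk
  push_cast at h1 h0 h2 ⊢
  rw [h1, h0] at h2
  apply mul_left_cancel₀ (Nat.cast_ne_zero.2 hb : (b : ℚ) ≠ 0)
  linear_combination h2

/-- a nonzero algebraic number is a unit away from finitely many primes -/
lemma exists_unit_bound {x : Ω} (hx : x ≠ 0) :
    ∃ N : ℕ, N ≠ 0 ∧ ∀ (A : ValuationSubring Ω) (r : ℕ), r.Prime → A.LiesOverPrime r → ¬ r ∣ N →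
      x ∈ A ∧ x⁻¹ ∈ A := by
  haveI := FLTAgent.Alg.qb_isAlgebraic
  have key : ∀ y : Ω, ∃ d : ℤ, d ≠ 0 ∧ IsIntegral ℤ (d • y) := fun y =>
    ((IsFractionRing.isAlgebraic_iff ℤ ℚ Ω).2 (Algebra.IsAlgebraic.isAlgebraic y)).exists_integral_multiple
  obtain ⟨d1, h1, i1⟩ := key x
  obtain ⟨d2, h2, i2⟩ := key x⁻¹
  refine ⟨(d1 * d2).natAbs, Int.natAbs_ne_zero.2 (mul_ne_zero h1 h2), fun A r hr hA hd => ?_⟩
  have mem : ∀ (d : ℤ) (y : Ω), ¬ (r : ℤ) ∣ d → IsIntegral ℤ (d • y) → y ∈ A := by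
    intro d y hdr hi
    have h := (A.valuation_le_one_iff _).2 (FLTAgent.Chebotarev.coe_mem_valuationSubring (A := A) hi)
    rw [zsmul_eq_mul, map_mul, val_int_eq_one hA hr hdr, one_mul] at h
    exact (A.valuation_le_one_iff _).1 h
  exact ⟨mem d1 x (fun h => hd (Int.natCast_dvd.1 (h.mul_right d2))) i1,
    mem d2 x⁻¹ (fun h => hd (Int.natCast_dvd.1 (h.mul_left d1))) i2⟩

variable {A : ValuationSubring Ω} {r : ℕ}

/-- reduction of a value -/
lemma residue_value [CharP (ResidueField A) r] {P : ℚ[X]} {b : ℕ} {Q : ℤ[X]}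
    (e : Q.map (Int.castRingHom ℚ) = Polynomial.C (b : ℚ) * P) (hb : ¬ r ∣ b)
    {x w : A} (hw : aeval (x : Ω) P = (w : Ω)) {n z : ℤ}
    (hx : residue A x = (n : ResidueField A)) (hz : P.eval (n : ℚ) = (z : ℚ)) :
    residue A w = (z : ResidueField A) := by
  have hQ : Q.eval n = b * z := by
    have := eval_clear e n
    rw [hz] at this
    exact_mod_cast this
  have h1 : eval₂ (Int.castRingHom A) x Q = (b : A) * w := by
    apply A.subtype_injective
    rw [hom_eval₂, map_mul, map_natCast]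
    show eval₂ _ (x : Ω) Q = (b : Ω) * (w : Ω)
    rw [← hw, RingHom.eq_intCast' (A.subtype.comp (Int.castRingHom A))]
    have := congrArg (aeval (x : Ω)) e
    rw [map_mul, aeval_C, map_natCast, aeval_def, eval₂_map,
      RingHom.eq_intCast' ((algebraMap ℚ Ω).comp (Int.castRingHom ℚ))] at this
    exact this
  have h2 := congrArg (residue A) h1
  rw [hom_eval₂, RingHom.eq_intCast' ((residue A).comp (Int.castRingHom A)), map_mul, map_natCast,
    hx, ← eq_intCast (Int.castRingHom (ResidueField A)) n, eval₂_at_apply, hQ, eq_intCast] at h2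
  push_cast at h2
  refine (mul_left_cancel₀ ?_ h2).symm
  rw [Ne, CharP.cast_eq_zero_iff (ResidueField A) r]
  exact hb

/-- fixed residues are integers -/
lemma exists_int_residue [CharP (ResidueField A) r] (hr : r.Prime) {τ : Ω ≃ₐ[ℚ] Ω}
    (hF : A.IsFrobeniusAt τ r) {x : A} (hx : τ x = x) :
    residue A x ^ r = residue A x ∧ ∃ n : ℤ, residue A x = (n : ResidueField A) := by
  haveI : Fact r.Prime := ⟨hr⟩
  have h1 : residue A x ^ r = residue A x := by
    have h := FLTAgent.Chebotarev.frob_sub_pow_mem hF x.2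
    rw [hx] at h
    have h2 : residue A (x - x ^ r) = 0 := by
      rw [residue_eq_zero_iff, ← ValuationSubring.coe_mem_nonunits_iff]
      simpa using h
    rw [map_sub, map_pow, sub_eq_zero] at h2
    exact h2.symm
  obtain ⟨n, hn⟩ := (mem_bot_iff_intCast r (ResidueField A)).1
    ((Subfield.mem_bot_iff_pow_eq_self (ResidueField A) r).2 h1)
  exact ⟨h1, n, hn.symm⟩

/-- a negated square root of `-3 c` makes `c` a nonsquare -/
lemma nonsquare [CharP (ResidueField A) r] (hr : r.Prime) (h2 : r ≠ 2) (h3 : r ≠ 3)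
    {τ : Ω ≃ₐ[ℚ] Ω} (hF : A.IsFrobeniusAt τ r) (hτ3 : cyc 3 τ = 1) {c m : A}
    (hc : residue A c ≠ 0) (hm : (m : Ω) ^ 2 = -3 * (c : Ω)) (hτm : τ m = -m)
    {y : ResidueField A} (hy : y ^ r = y) : y ^ 2 ≠ residue A c := by
  intro hyc
  haveI : NeZero (3 : ℕ) := ⟨by norm_num⟩
  obtain ⟨om, hom⟩ := HasEnoughRootsOfUnity.exists_primitiveRoot Ω 3
  have hommem : om ∈ A := root_mem (by norm_num) hom.pow_eq_one
  let w : A := 2 * ⟨om, hommem⟩ + 1
  have hτom : τ om = om := by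
    rw [cyc_spec τ hom.pow_eq_one, hτ3]
    exact pow_one _
  have hτw : τ (w : Ω) = w := by
    show τ (2 * om + 1) = 2 * om + 1
    rw [map_add, map_mul, map_ofNat, map_one, hτom]
  have hw2 : w ^ 2 = -3 := by
    apply Subtype.ext
    show (2 * om + 1) ^ 2 = -3
    have h := hom.geom_sum_eq_zero (by norm_num)
    simp only [Finset.sum_range_succ, Finset.sum_range_zero, pow_zero, pow_one, zero_add] at h
    linear_combination 4 * h
  have hw : residue A w ^ r = residue A w := (exists_int_residue hr hF hτw).1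
  have hmm : residue A m ^ 2 = -3 * residue A c := by
    have : m ^ 2 = -3 * c := Subtype.ext hm
    rw [← map_pow, this, map_mul, map_neg, map_ofNat]
  have hmr : residue A m ^ r = -residue A m := by
    have h := FLTAgent.Chebotarev.frob_sub_pow_mem hF m.2
    rw [hτm] at h
    have h4 : residue A (-m - m ^ r) = 0 := by
      rw [residue_eq_zero_iff, ← ValuationSubring.coe_mem_nonunits_iff]
      simpa using h
    rw [map_sub, map_neg, map_pow, sub_eq_zero] at h4
    exact h4.symm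
  have h30 : (3 : ResidueField A) ≠ 0 := by
    rw [show (3 : ResidueField A) = ((3 : ℕ) : ResidueField A) by norm_num, Ne,
      CharP.cast_eq_zero_iff (ResidueField A) r]
    exact fun h => h3 ((Nat.prime_dvd_prime_iff_eq hr Nat.prime_three).1 h)
  have h20 : (2 : ResidueField A) ≠ 0 := by
    rw [show (2 : ResidueField A) = ((2 : ℕ) : ResidueField A) by norm_num, Ne,
      CharP.cast_eq_zero_iff (ResidueField A) r]
    exact fun h => h2 ((Nat.prime_dvd_prime_iff_eq hr Nat.prime_two).1 h)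
  have hm0 : residue A m ≠ 0 := fun e => by
    rw [e, zero_pow two_ne_zero] at hmm
    exact mul_ne_zero (neg_ne_zero.2 h30) hc hmm.symm
  have hsq : residue A m ^ 2 = (residue A w * y) ^ 2 := by
    rw [mul_pow, hyc, hmm, ← map_pow (residue A) w, hw2, map_neg, map_ofNat]
  have hfix : residue A m ^ r = residue A m := by
    rcases sq_eq_sq_iff_eq_or_eq_neg.1 hsq with e | e <;> rw [e]
    · rw [mul_pow, hw, hy]
    · rw [(hr.odd_of_ne_two h2).neg_pow, mul_pow, hw, hy]
  rw [hfix] at hmr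
  exact hm0 ((mul_eq_zero.1 (show (2 : ResidueField A) * residue A m = 0 by
    linear_combination hmr)).resolve_left h20)

/-- invariants and discriminant -/
lemma forms_disc {W W' : WeierstrassCurve ℤ} {s : ℚ} (hH : (famH W).eval s = 9 * W'.c₄)
    (hT : (famT W).eval s = 27 * W'.c₆) :
    (famH W ^ 3 - famT W ^ 2).eval s = 729 * 1728 * W'.Δ := by
  rw [eval_sub, eval_pow, eval_pow, hH, hT]
  have h := congrArg (fun z : ℤ => (z : ℚ)) W'.c_relation
  push_cast at h
  linear_combination -729 * h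

lemma fam_coprime {W : WeierstrassCurve ℤ} (B : Base W) :
    IsCoprime (famH W) (famH W ^ 3 - famT W ^ 2) := by
  refine (Polynomial.isCoprime_iff_aeval_ne_zero_of_isAlgClosed (k := ℚ) Ω _ _).2 fun s => ?_
  by_contra hcon
  push Not at hcon
  obtain ⟨h1, h2⟩ := hcon
  have eH : aeval s (famH W) = kH (B.uP.eval s) (B.vP.eval s) := by
    simp only [← coe_evalRingHom, ← map_kH]
    rw [coe_evalRingHom, B.forms.1, eval_map]
    rfl
  have eT : aeval s (famT W) = kT (B.uP.eval s) (B.vP.eval s) := by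
    simp only [← coe_evalRingHom, ← map_kT]
    rw [coe_evalRingHom, B.forms.2, eval_map]
    rfl
  rw [map_sub, map_pow, map_pow, eH, eT, klein_relation] at h2
  rw [eH] at h1
  set a := B.uP.eval s with ha
  set b := B.vP.eval s with hb
  have hf : kf a b = 0 := pow_eq_zero_iff (n := 5) (by norm_num) |>.1
    ((mul_eq_zero.1 h2).resolve_left (by norm_num))
  have hzero : a = 0 ∧ b = 0 := by
    by_cases ha0 : a = 0
    · refine ⟨ha0, ?_⟩
      rw [ha0] at h1
      simpa [kH] using h1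
    · exfalso
      have hsc : b = a * (b / a) := by field_simp
      rw [hsc, kH_smul] at h1
      rw [hsc, show kf a (a * (b / a)) = a ^ 12 * kf 1 (b / a) by simp only [kf]; ring] at hf
      exact no_common_zero ((mul_eq_zero.1 hf).resolve_left (pow_ne_zero _ ha0))
        ((mul_eq_zero.1 h1).resolve_left (pow_ne_zero _ ha0))
  have hu : B.u + s * kfv B.u B.v = 0 := by
    have := hzero.1; rw [ha] at this; rw [Base.uP, lineU, eval_add, eval_mul, eval_C, eval_X, eval_C] at this; exact this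
  have hv : B.v - s * kfu B.u B.v = 0 := by
    have := hzero.2; rw [hb] at this; rw [Base.vP, lineV, eval_add, eval_mul, eval_C, eval_X, eval_C] at this; linear_combination this
  apply mul_ne_zero (show (-12 : Ω) ≠ 0 by norm_num) B.hf
  rw [← det_line]
  linear_combination (-kfu B.u B.v) * hu - kfv B.u B.v * hv

/-- the switch model -/
theorem exists_switch_model {W : WeierstrassCurve ℤ} (hΔ : W.Δ ≠ 0) (hW : W.IsSemistableModel)
    (h5 : W.ModRepIsIrreducible 5) :
    ∃ (W' : WeierstrassCurve ℤ) (r : ℕ) (A : ValuationSubring Ω) (τ : Ω ≃ₐ[ℚ] Ω),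
      W'.Δ ≠ 0 ∧ W'.IsSemistableModel ∧
      (∃ s : ℚ, (famH W).eval s = 9 * W'.c₄ ∧ (famT W).eval s = 27 * W'.c₆) ∧
      r.Prime ∧ r ≠ 2 ∧ r ≠ 3 ∧ A.LiesOverPrime r ∧ A.IsFrobeniusAt τ r ∧ cyc 3 τ = 1 ∧
      (r : ℤ) ∣ W'.Δ ∧
      ∃ c : ResidueField A, c ≠ 0 ∧ 9 * (W'.c₄ : ResidueField A) = c ^ 2 ∧
        27 * (W'.c₆ : ResidueField A) = c ^ 3 ∧ ∀ y : ResidueField A, y ^ r = y → y ^ 2 ≠ c := by
  classical
  obtain ⟨B⟩ := nonempty_base hΔ
  obtain ⟨s0, c0, m0, hc0, hm0, hH0, hT0, hτ0⟩ := B.exists_cusp hΔ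
  obtain ⟨a, b, hab⟩ := fam_coprime B
  obtain ⟨dH, QH, hdH, eH⟩ := exists_clear (famH W)
  obtain ⟨dT, QT, hdT, eT⟩ := exists_clear (famT W)
  obtain ⟨da, Qa, hda, ea⟩ := exists_clear a
  obtain ⟨db, Qb, hdb, eb⟩ := exists_clear b
  obtain ⟨N1, hN1, hs0⟩ : ∃ N : ℕ, N ≠ 0 ∧ ∀ (A : ValuationSubring Ω) (r : ℕ), r.Prime →
      A.LiesOverPrime r → ¬ r ∣ N → s0 ∈ A := by
    rcases eq_or_ne s0 0 with h | h
    · exact ⟨1, one_ne_zero, fun A _ _ _ _ => h ▸ A.zero_mem⟩
    · obtain ⟨N, hN, hN'⟩ := exists_unit_bound h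
      exact ⟨N, hN, fun A r hr hA hd => (hN' A r hr hA hd).1⟩
  obtain ⟨N2, hN2, hc0A⟩ := exists_unit_bound hc0
  have hm00 : m0 ≠ 0 := fun e => mul_ne_zero (by norm_num : (-3 : Ω) ≠ 0) hc0
    (by rw [← hm0, e, zero_pow two_ne_zero])
  obtain ⟨N3, hN3, hm0A⟩ := exists_unit_bound hm00
  set R0 : ℕ := da * db with hR0
  set D : ℕ := dH * dT * 46656 * R0 with hD
  set bad : ℕ := 30 * N1 * N2 * N3 * D with hbad
  have hR00 : R0 ≠ 0 := mul_ne_zero hda hdb
  have hD0 : D ≠ 0 := mul_ne_zero (mul_ne_zero (mul_ne_zero hdH hdT) (by norm_num)) hR00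
  have hbad0 : bad ≠ 0 :=
    mul_ne_zero (mul_ne_zero (mul_ne_zero (mul_ne_zero (by norm_num) hN1) hN2) hN3) hD0
  obtain ⟨r, A, τ, hr, hrS, hA, hF, hneg, hτ3⟩ := exists_frobenius_neg hΔ h5 bad.primeFactors
  have hrbad : ¬ r ∣ bad := fun h => hrS (Nat.mem_primeFactors.2 ⟨hr, h, hbad0⟩)
  have hdiv : ∀ d : ℕ, d ∣ bad → ¬ r ∣ d := fun d hd h => hrbad (h.trans hd)
  have hr2 : r ≠ 2 := fun h => hdiv 2 (by rw [hbad]; exact Dvd.intro (15 * N1 * N2 * N3 * D) (by ring)) (h ▸ dvd_rfl)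
  have hr3 : r ≠ 3 := fun h => hdiv 3 (by rw [hbad]; exact Dvd.intro (10 * N1 * N2 * N3 * D) (by ring)) (h ▸ dvd_rfl)
  have hrD : ¬ r ∣ D := hdiv D (Dvd.intro_left _ hbad.symm)
  have hrH : ¬ r ∣ dH := fun h => hrD (h.trans ⟨dT * 46656 * R0, by rw [hD]; ring⟩)
  have hrT : ¬ r ∣ dT := fun h => hrD (h.trans ⟨dH * 46656 * R0, by rw [hD]; ring⟩)
  haveI hcp : CharP (ResidueField A) r := FLTAgent.Chebotarev.charP_residue hr hA
  obtain ⟨hs, hcc, hmm⟩ := hτ0 τ hneg
  let sA : A := ⟨s0, hs0 A r hr hA (hdiv N1 ⟨30 * N2 * N3 * D, by rw [hbad]; ring⟩)⟩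
  obtain ⟨hcm, hcim⟩ := hc0A A r hr hA (hdiv N2 ⟨30 * N1 * N3 * D, by rw [hbad]; ring⟩)
  let cA : A := ⟨c0, hcm⟩
  let mA : A := ⟨m0, (hm0A A r hr hA (hdiv N3 ⟨30 * N1 * N2 * D, by rw [hbad]; ring⟩)).1⟩
  have hcres : residue A cA ≠ 0 := by
    intro e
    have h1 : cA * ⟨c0⁻¹, hcim⟩ = 1 := Subtype.ext (mul_inv_cancel₀ hc0)
    have := congrArg (residue A) h1
    rw [map_mul, e, zero_mul, map_one] at this
    exact zero_ne_one this
  obtain ⟨-, t, ht⟩ := exists_int_residue hr hF (x := sA) hs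
  -- the parameter
  obtain ⟨n0, hn0⟩ : ∃ n0 : ℤ, ((D * n0 : ℤ) : ResidueField A) = residue A sA := by
    obtain ⟨x, y, hxy⟩ := (hr.coprime_iff_not_dvd.2 hrD).isCoprime
    refine ⟨y * t, ?_⟩
    have := congrArg (fun z : ℤ => (z : ResidueField A)) hxy
    push_cast at this ⊢
    rw [CharP.cast_eq_zero (ResidueField A) r, mul_zero, zero_add] at this
    rw [ht]
    linear_combination (t : ResidueField A) * this
  have hpoly : famH W ^ 3 - famT W ^ 2 ≠ 0 := by
    intro e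
    have := congrArg (Polynomial.eval 0) e
    rw [forms_disc (W := W) (W' := W) (lineH_eval_zero _ _).1 (lineH_eval_zero _ _).2, eval_zero] at this
    exact hΔ (by exact_mod_cast (mul_eq_zero.1 this).resolve_left (by norm_num))
  obtain ⟨j, hj⟩ : ∃ j : ℤ, (famH W ^ 3 - famT W ^ 2).eval ((D * (n0 + r * j) : ℤ) : ℚ) ≠ 0 := by
    by_contra hcon
    push Not at hcon
    have hinj : Function.Injective fun j : ℤ => ((D * (n0 + r * j) : ℤ) : ℚ) := by
      intro j j' h
      have h' : (D : ℤ) * (n0 + r * j) = D * (n0 + r * j') := Int.cast_injective h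
      have h'' := mul_left_cancel₀ (Nat.cast_ne_zero.2 hD0 : (D : ℤ) ≠ 0) h'
      exact mul_left_cancel₀ (Nat.cast_ne_zero.2 hr.ne_zero : (r : ℤ) ≠ 0) (by linarith)
    exact hpoly (eq_zero_of_infinite_isRoot _ ((Set.infinite_range_of_injective hinj).mono (by
      rintro _ ⟨j, rfl⟩; exact hcon j)))
  set n : ℤ := n0 + r * j with hn
  set s : ℤ := D * n with hsdef
  have hsres : residue A sA = (s : ResidueField A) := by
    rw [← hn0, hsdef, hn]
    push_cast
    rw [CharP.cast_eq_zero (ResidueField A) r]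
    ring
  obtain ⟨zH, hzH⟩ := exists_value hdH eH (dT * 46656 * R0) n
  obtain ⟨zT, hzT⟩ := exists_value hdT eT (dH * 46656 * R0) n
  rw [show (dH : ℤ) * (dT * 46656 * R0) * n = s by rw [hsdef, hD]; push_cast; ring,
    show (famH W).eval 0 = 9 * W.c₄ from (lineH_eval_zero _ _).1] at hzH
  rw [show (dT : ℤ) * (dH * 46656 * R0) * n = s by rw [hsdef, hD]; push_cast; ring,
    show (famT W).eval 0 = 27 * W.c₆ from (lineH_eval_zero _ _).2] at hzT
  let W' : WeierstrassCurve ℤ :=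
    ⟨W.a₁, W.a₂, W.a₃, W.a₄ - R0 * (108 * dT * zH),
      W.a₆ - R0 * (2 * dH * zT + 9 * W.b₂ * dT * zH)⟩
  have hc4 : (W'.c₄ : ℤ) = W.c₄ + 5184 * (R0 * dT * zH) := by
    simp only [W', c₄, b₂, b₄]; ring
  have hc6 : (W'.c₆ : ℤ) = W.c₆ + 1728 * (R0 * dH * zT) := by
    simp only [W', c₆, b₂, b₄, b₆]; ring
  have hH : (famH W).eval (s : ℚ) = 9 * W'.c₄ := by
    rw [hzH, hc4]; push_cast; ring
  have hT : (famT W).eval (s : ℚ) = 27 * W'.c₆ := by
    rw [hzT, hc6]; push_cast; ring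
  have hΔ' : W'.Δ ≠ 0 := fun e => hj (by rw [forms_disc hH hT, e]; simp)
  have hss : W'.IsSemistableModel := by
    intro p hp hpΔ hpc
    -- a common prime divides `R0`
    have hpR : (p : ℤ) ∣ R0 := by
      have h := congrArg (Polynomial.eval (s : ℚ)) hab
      rw [eval_add, eval_mul, eval_mul, hH, forms_disc hH hT, eval_one] at h
      have h1 := eval_clear ea s
      have h2 := eval_clear eb s
      have h3 : Qa.eval s * db * (9 * W'.c₄) + Qb.eval s * da * (729 * 1728 * W'.Δ) = (R0 : ℤ) := by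
        have : (((Qa.eval s * db * (9 * W'.c₄) + Qb.eval s * da * (729 * 1728 * W'.Δ) : ℤ)) : ℚ) =
            ((R0 : ℤ) : ℚ) := by
          push_cast [hR0]
          rw [h1, h2]
          linear_combination ((da : ℚ) * db) * h
        exact_mod_cast this
      rw [← h3]
      exact dvd_add (Dvd.dvd.mul_left (hpc.mul_left _) _) (Dvd.dvd.mul_left (hpΔ.mul_left _) _)
    have hR : ((R0 : ℤ) : ZMod p) = 0 := (ZMod.intCast_zmod_eq_zero_iff_dvd _ _).2 hpR
    have hmap : W'.map (Int.castRingHom (ZMod p)) = W.map (Int.castRingHom (ZMod p)) := by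
      ext <;> simp only [W', WeierstrassCurve.map, eq_intCast, Int.cast_sub, Int.cast_mul, hR,
        zero_mul, sub_zero]
    have e1 := congrArg WeierstrassCurve.Δ hmap
    have e2 := congrArg WeierstrassCurve.c₄ hmap
    rw [map_Δ, map_Δ, eq_intCast, eq_intCast] at e1
    rw [map_c₄, map_c₄, eq_intCast, eq_intCast] at e2
    exact hW p hp ((ZMod.intCast_zmod_eq_zero_iff_dvd _ _).1
      (e1 ▸ (ZMod.intCast_zmod_eq_zero_iff_dvd _ _).2 hpΔ))
      ((ZMod.intCast_zmod_eq_zero_iff_dvd _ _).1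
        (e2 ▸ (ZMod.intCast_zmod_eq_zero_iff_dvd _ _).2 hpc))
  have rH : residue A (cA ^ 2) = ((9 * W'.c₄ : ℤ) : ResidueField A) :=
    residue_value eH hrH (x := sA) (by rw [SubmonoidClass.coe_pow]; exact hH0) hsres
      (by rw [hH]; push_cast; ring)
  have rT : residue A (cA ^ 3) = ((27 * W'.c₆ : ℤ) : ResidueField A) :=
    residue_value eT hrT (x := sA) (by rw [SubmonoidClass.coe_pow]; exact hT0) hsres
      (by rw [hT]; push_cast; ring)
  rw [map_pow, Int.cast_mul, Int.cast_ofNat] at rH rT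
  have hrΔ : (r : ℤ) ∣ W'.Δ := by
    have h := congrArg (fun z : ℤ => (z : ResidueField A)) W'.c_relation
    push_cast at h
    have h0 : (729 * 1728 : ResidueField A) * (W'.Δ : ResidueField A) = 0 := by
      have e : (residue A cA ^ 2) ^ 3 = (residue A cA ^ 3) ^ 2 := by ring
      rw [rH, rT] at e
      linear_combination 729 * h + e
    have h729 : ((729 * 1728 : ℕ) : ResidueField A) ≠ 0 := by
      rw [Ne, CharP.cast_eq_zero_iff (ResidueField A) r]
      intro h
      have : r ∣ 2 ^ 6 * 3 ^ 9 := by simpa using h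
      rcases (Nat.Prime.dvd_mul hr).1 this with h | h
      · exact hr2 ((Nat.prime_dvd_prime_iff_eq hr Nat.prime_two).1 (hr.dvd_of_dvd_pow h))
      · exact hr3 ((Nat.prime_dvd_prime_iff_eq hr Nat.prime_three).1 (hr.dvd_of_dvd_pow h))
    refine (CharP.intCast_eq_zero_iff (ResidueField A) r _).1 ((mul_eq_zero.1 h0).resolve_left ?_)
    norm_num at h729 ⊢
    exact h729
  exact ⟨W', r, A, τ, hΔ', hss, ⟨s, hH, hT⟩, hr, hr2, hr3, hA, hF, hτ3, hrΔ, residue A cA, hcres,
    rH.symm, rT.symm, fun y hy => nonsquare hr hr2 hr3 hF hτ3 (c := cA) (m := mA) hcres hm0 hmm hy⟩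

end FLTAgent.S52
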