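import Fermat.Agent.S52.Distinct
import Mathlib.FieldTheory.IsAlgClosed.AlgebraicClosure
import Mathlib.RingTheory.RootsOfUnity.AlgebraicallyClosed
import Mathlib.Algebra.Polynomial.Degree.SmallDegree

set_option autoImplicit false
set_option linter.all false

/-!
Base point of the family, and the forms on the canonical line.
-/

noncomputable section

namespace FLTAgent.S52

open Polynomial

variable {F : Type*} [Field F] [CharZero F] [IsAlgClosed F]

theorem nonempty_consts : Nonempty (Consts F) := by
  obtain ⟨z, hz⟩ := HasEnoughRootsOfUnity.exists_primitiveRoot F 5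
  obtain ⟨e, he⟩ := IsAlgClosed.exists_pow_nat_eq (3 * (3 + (z + z ^ 4))) (show 0 < 2 by norm_num)
  obtain ⟨k, hk⟩ := IsAlgClosed.exists_pow_nat_eq ((((z + z ^ 4) - 2) ^ 5)⁻¹) (show 0 < 2 by norm_num)
  refine ⟨⟨z, e, k, hz, he, ?_⟩⟩
  have hne : (z + z ^ 4) - 2 ≠ 0 := by
    intro h0
    have h := hz.geom_sum_eq_zero (by norm_num)
    simp only [Finset.sum_range_succ, Finset.sum_range_zero, pow_zero, pow_one, zero_add] at h
    have : (5 : F) = 0 := by
      linear_combination h - ((z + z ^ 4) + 3) * h0 + (z ^ 3 + 2) * hz.pow_eq_one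
    norm_num at this
  rw [hk, inv_mul_cancel₀ (pow_ne_zero _ hne)]

omit [CharZero F] [IsAlgClosed F] in
lemma kH_smul (u z : F) : kH u (u * z) = u ^ 20 * kH 1 z := by simp only [kH]; ring

omit [CharZero F] [IsAlgClosed F] in
lemma kT_smul (u z : F) : kT u (u * z) = u ^ 30 * kT 1 z := by simp only [kT]; ring

omit [IsAlgClosed F] in
lemma no_common_zero {z : F} (hf : kf 1 z = 0) (hH : kH 1 z = 0) : False := by
  simp only [kf, kH, one_pow, mul_one, one_mul] at hf hH
  rcases mul_eq_zero.1 hf with rfl | h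
  · norm_num at hH
  have hlin : 34375 * z ^ 5 + 3125 = 0 := by
    linear_combination hH + (z ^ 10 + 239 * z ^ 5 + 3124) * h
  have hz : z ^ 5 = -3125 / 34375 := by linear_combination (1 / 34375 : F) * hlin
  rw [show z ^ 10 = (z ^ 5) ^ 2 by ring, hz] at h
  norm_num at h

/-- every pair of invariants occurs -/
theorem exists_base {a b : F} (hab : a ^ 3 ≠ b ^ 2) :
    ∃ u v : F, u ≠ 0 ∧ kH u v = a ∧ kT u v = b ∧ kf u v ≠ 0 := by
  set p : F[X] := kH 1 X ^ 3 * Polynomial.C (b ^ 2) - kT 1 X ^ 2 * Polynomial.C (a ^ 3) with hp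
  have hdeg : p.natDegree ≠ 0 := by
    intro h0
    have hc : p.coeff 60 = b ^ 2 - a ^ 3 := by
      have hH : (kH 1 X : F[X]).natDegree ≤ 20 ∧ (kH 1 X : F[X]).coeff 20 = 1 := by
        constructor
        · simp only [kH, one_pow, one_mul, mul_one]; compute_degree
        · simp only [kH, one_pow, one_mul, mul_one]; compute_degree <;> norm_num
      have hT : (kT 1 X : F[X]).natDegree ≤ 30 ∧ (kT 1 X : F[X]).coeff 30 = 1 := by
        constructor
        · simp only [kT, one_pow, one_mul, mul_one]; compute_degree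
        · simp only [kT, one_pow, one_mul, mul_one]; compute_degree <;> norm_num
      rw [hp, coeff_sub, coeff_mul_C, coeff_mul_C, show (60 : ℕ) = 3 * 20 from rfl,
        coeff_pow_of_natDegree_le hH.1, hH.2, show 3 * 20 = 2 * 30 from rfl,
        coeff_pow_of_natDegree_le hT.1, hT.2]
      ring
    rw [coeff_eq_zero_of_natDegree_lt (by omega)] at hc
    exact hab (by linear_combination hc)
  obtain ⟨z, hz⟩ := IsAlgClosed.exists_root p (fun h => hdeg (natDegree_eq_of_degree_eq_some h))
  have hrel : kH 1 z ^ 3 * b ^ 2 = kT 1 z ^ 2 * a ^ 3 := by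
    have := hz
    rw [IsRoot, hp, eval_sub, eval_mul, eval_mul, eval_pow, eval_pow, eval_C, eval_C,
      ← coe_evalRingHom] at this
    simp [kH, kT] at this
    simp only [kH, kT]
    linear_combination this
  have hf : kf 1 z ≠ 0 := by
    intro hf
    have hk := klein_relation (1 : F) z
    rw [hf] at hk
    have e : kH 1 z ^ 3 = kT 1 z ^ 2 := by linear_combination hk
    rw [← e] at hrel
    have h0 : kH 1 z ^ 3 * (b ^ 2 - a ^ 3) = 0 := by linear_combination hrel
    rcases mul_eq_zero.1 h0 with h | h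
    · exact no_common_zero hf (pow_eq_zero_iff three_ne_zero |>.1 h)
    · exact hab (sub_eq_zero.1 h).symm
  have hne : kH 1 z ^ 3 ≠ kT 1 z ^ 2 := fun e => by
    have hk := klein_relation (1 : F) z
    rw [e, sub_self] at hk
    exact hf (pow_eq_zero_iff (n := 5) (by norm_num) |>.1
      ((mul_eq_zero.1 hk.symm).resolve_left (by norm_num)))
  obtain ⟨w, hw, h1, h2⟩ : ∃ w : F, w ≠ 0 ∧ w ^ 2 * kH 1 z = a ∧ w ^ 3 * kT 1 z = b := by
    by_cases ha : a = 0
    · have hb : b ≠ 0 := fun e => hab (by rw [ha, e]; ring)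
      have hH : kH 1 z = 0 := by
        rw [ha] at hrel
        have h0 : kH 1 z ^ 3 * b ^ 2 = 0 := by linear_combination hrel
        exact pow_eq_zero_iff three_ne_zero |>.1
          ((mul_eq_zero.1 h0).resolve_right (pow_ne_zero _ hb))
      have hT : kT 1 z ≠ 0 := fun e => hne (by rw [hH, e]; ring)
      obtain ⟨w, hw⟩ := IsAlgClosed.exists_pow_nat_eq (b / kT 1 z) (show 0 < 3 by norm_num)
      refine ⟨w, ?_, by rw [hH, ha, mul_zero], by rw [hw]; field_simp⟩
      rintro rfl
      rw [zero_pow three_ne_zero] at hw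
      exact div_ne_zero hb hT hw.symm
    have hH : kH 1 z ≠ 0 := fun e => by
      rw [e] at hrel
      have h0 : kT 1 z ^ 2 * a ^ 3 = 0 := by linear_combination -hrel
      exact hne (by
        rw [pow_eq_zero_iff two_ne_zero |>.1 ((mul_eq_zero.1 h0).resolve_right (pow_ne_zero _ ha)),
          e]
        ring)
    by_cases hb : b = 0
    · have hT : kT 1 z = 0 := by
        rw [hb] at hrel
        have h0 : kT 1 z ^ 2 * a ^ 3 = 0 := by linear_combination -hrel
        exact pow_eq_zero_iff two_ne_zero |>.1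
          ((mul_eq_zero.1 h0).resolve_right (pow_ne_zero _ ha))
      obtain ⟨w, hw⟩ := IsAlgClosed.exists_pow_nat_eq (a / kH 1 z) (show 0 < 2 by norm_num)
      refine ⟨w, ?_, by rw [hw]; field_simp, by rw [hT, hb, mul_zero]⟩
      rintro rfl
      rw [zero_pow two_ne_zero] at hw
      exact div_ne_zero ha hH hw.symm
    have hT : kT 1 z ≠ 0 := fun e => by
      rw [e] at hrel
      have h0 : kH 1 z ^ 3 * b ^ 2 = 0 := by linear_combination hrel
      exact mul_ne_zero (pow_ne_zero _ hH) (pow_ne_zero _ hb) h0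
    refine ⟨b * kH 1 z / (kT 1 z * a), div_ne_zero (mul_ne_zero hb hH) (mul_ne_zero hT ha), ?_, ?_⟩
    · field_simp
      linear_combination hrel
    · field_simp
      linear_combination hrel
  obtain ⟨u, hu⟩ := IsAlgClosed.exists_pow_nat_eq w (show 0 < 10 by norm_num)
  have hu0 : u ≠ 0 := fun e => hw (by rw [← hu, e, zero_pow (by norm_num)])
  refine ⟨u, u * z, hu0, ?_, ?_, ?_⟩
  · rw [kH_smul, show u ^ 20 = (u ^ 10) ^ 2 by ring, hu, h1]
  · rw [kT_smul, show u ^ 30 = (u ^ 10) ^ 3 by ring, hu, h2]
  · rw [show kf u (u * z) = u ^ 12 * kf 1 z by simp only [kf]; ring]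
    exact mul_ne_zero (pow_ne_zero _ hu0) hf

/-! ### the forms on the line -/

/-- `f` on the line, up to a constant -/
def lineP (h t : ℚ) : ℚ[X] := lineF (Polynomial.C h) (Polynomial.C t) X

/-- `H` on the line -/
def lineH (h t : ℚ) : ℚ[X] :=
  Polynomial.C (1 / 1584) *
    (11 * derivative (lineP h t) ^ 2 - 12 * lineP h t * derivative (derivative (lineP h t)))

/-- `T` on the line -/
def lineT (h t : ℚ) : ℚ[X] :=
  Polynomial.C (1 / 60) *
    (3 * lineP h t * derivative (lineH h t) - 5 * derivative (lineP h t) * lineH h t)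

variable {K : Type*} [Field K] [CharZero K]

lemma map_lineF {R S : Type*} [CommRing R] [CommRing S] (φ : R →+* S) (h t s : R) :
    φ (lineF h t s) = lineF (φ h) (φ t) (φ s) := by simp [lineF, map_ofNat]

lemma lineH_eval_zero (h t : ℚ) : (lineH h t).eval 0 = h ∧ (lineT h t).eval 0 = t := by
  constructor
  · simp [lineH, lineP, lineF, derivative_mul, derivative_pow, map_ofNat]; ring
  · simp [lineT, lineH, lineP, lineF, derivative_mul, derivative_pow, map_ofNat]; ring

/-- first coordinate of the line -/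
def lineU (u v : K) : K[X] := Polynomial.C u + X * Polynomial.C (kfv u v)

/-- second coordinate of the line -/
def lineV (u v : K) : K[X] := Polynomial.C v + X * Polynomial.C (-kfu u v)

lemma kf_lineU (u v : K) : kf (lineU u v) (lineV u v) =
    Polynomial.C (kf u v) * lineF (Polynomial.C (kH u v)) (Polynomial.C (kT u v)) X := by
  have h := kf_line (Polynomial.C u) (Polynomial.C v) (X : K[X])
  rw [map_kf Polynomial.C, map_kH Polynomial.C, map_kT Polynomial.C, ← h, lineU, lineV,
    show (Polynomial.C (kfv u v) : K[X]) = kfv (Polynomial.C u) (Polynomial.C v) by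
      simp [kfv, Polynomial.C_ofNat, map_ofNat],
    show (Polynomial.C (-kfu u v) : K[X]) = -kfu (Polynomial.C u) (Polynomial.C v) by
      simp [kfu, Polynomial.C_ofNat, map_ofNat]]
  congr 1
  ring

lemma det_line (u v : K) : u * (-kfu u v) - v * kfv u v = -12 * kf u v := by
  simp only [kfu, kfv, kf]; ring

theorem forms_on_line {u v : K} {h t : ℚ} (hh : kH u v = (h : K)) (ht : kT u v = (t : K))
    (hf : kf u v ≠ 0) :
    kH (lineU u v) (lineV u v) = (lineH h t).map (algebraMap ℚ K) ∧
      kT (lineU u v) (lineV u v) = (lineT h t).map (algebraMap ℚ K) := by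
  set P := (lineP h t).map (algebraMap ℚ K) with hP
  have hkf : kf (lineU u v) (lineV u v) = Polynomial.C (kf u v) * P := by
    rw [kf_lineU, hh, ht, hP, lineP, ← coe_mapRingHom, map_lineF]
    simp
  have hc : ∀ (r : ℚ) (n : ℕ) (q : K[X]), Polynomial.C (algebraMap ℚ K r) * q * n
      = Polynomial.C (algebraMap ℚ K (r * n)) * q := by
    intro r n q
    rw [map_mul, map_mul, map_natCast, map_natCast]
    ring
  have eH : (lineH h t).map (algebraMap ℚ K) * 1584 =
      11 * derivative P ^ 2 - 12 * P * derivative (derivative P) := by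
    rw [lineH, Polynomial.map_mul, map_C, show (1584 : K[X]) = ((1584 : ℕ) : K[X]) by norm_num, hc]
    simp [hP, derivative_map]
  have h1 := kH_line u v (kfv u v) (-kfu u v)
  rw [← lineU, ← lineV, det_line, hkf, derivative_C_mul, derivative_C_mul] at h1
  have H : kH (lineU u v) (lineV u v) = (lineH h t).map (algebraMap ℚ K) := by
    apply mul_right_cancel₀ (b := Polynomial.C (121 * (-12 * kf u v) ^ 2))
    · rw [Ne, C_eq_zero]
      exact mul_ne_zero (by norm_num) (pow_ne_zero _ (mul_ne_zero (by norm_num) hf))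
    · simp only [map_mul, map_pow, map_neg, map_ofNat] at h1 ⊢
      linear_combination h1 - 11 * Polynomial.C (kf u v) ^ 2 * eH
  refine ⟨H, ?_⟩
  have eT : (lineT h t).map (algebraMap ℚ K) * 60 =
      3 * P * derivative ((lineH h t).map (algebraMap ℚ K))
        - 5 * derivative P * (lineH h t).map (algebraMap ℚ K) := by
    rw [lineT, Polynomial.map_mul, map_C, show (60 : K[X]) = ((60 : ℕ) : K[X]) by norm_num, hc]
    simp [hP, derivative_map]
  have h2 := kT_line u v (kfv u v) (-kfu u v)
  rw [← lineU, ← lineV, det_line, hkf, H, derivative_C_mul] at h2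
  apply mul_right_cancel₀ (b := Polynomial.C (-20 * (-12 * kf u v)))
  · rw [Ne, C_eq_zero]
    exact mul_ne_zero (by norm_num) (mul_ne_zero (by norm_num) hf)
  · simp only [map_mul, map_pow, map_neg, map_ofNat] at h2 ⊢
    linear_combination h2 - 4 * Polynomial.C (kf u v) * eT

end FLTAgent.S52
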