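import Fermat.Agent.S52.Level
import Fermat.Agent.EllFrob.Reduction
import Fermat.Agent.Torsion.Count
import Mathlib.RingTheory.Valuation.LocalSubring
import Mathlib.Algebra.Polynomial.RingDivision
import Mathlib.RingTheory.Localization.FractionRing
import Mathlib.FieldTheory.IsAlgClosed.AlgebraicClosure

set_option autoImplicit false
set_option linter.all false

/-!
A family of curves with rational full `5`-torsion over `F[X]` has constant `5`-torsion.
-/

noncomputable section

namespace FLTAgent.S52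

open Polynomial WeierstrassCurve IsLocalRing FLTAgent.Local FLTAgent.EllFrob

attribute [local instance 2000] Classical.decEq

lemma lvlCurve_map {K L : Type*} [Field K] [Field L] (ι : K →+* L) (h t : K) :
    (lvlCurve h t).map ι = lvlCurve (ι h) (ι t) := by
  simp [WeierstrassCurve.map, lvlCurve, map_ofNat]

lemma lvlCurve_nonsingular_neg {K : Type*} [Field K] {h t x y : K}
    (hn : (lvlCurve h t).toAffine.Nonsingular x y) :
    (lvlCurve h t).toAffine.Nonsingular x (-y) := by
  have := (Affine.nonsingular_neg x y).2 hn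
  simpa [Affine.negY, lvlCurve] using this

lemma exists_lvlMap {K L : Type*} [Field K] [Field L] (ι : K →+* L) (h t : K) :
    ∃ f : (lvlCurve h t).toAffine.Point →+ (lvlCurve (ι h) (ι t)).toAffine.Point,
      Function.Injective f ∧ ∀ (x y : K) (hn : (lvlCurve h t).toAffine.Nonsingular x y),
        ∃ hn' : (lvlCurve (ι h) (ι t)).toAffine.Nonsingular (ι x) (ι y),
          f (.some x y hn) = .some (ι x) (ι y) hn' := by
  letI := ι.toAlgebra
  have e1 : lvlCurve h t = ((lvlCurve h t).baseChange K) := by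
    simp [WeierstrassCurve.baseChange, WeierstrassCurve.map]
  have e2 : ((lvlCurve h t).baseChange L) = lvlCurve (ι h) (ι t) := lvlCurve_map ι h t
  refine ⟨(pointCongr e2).toAddMonoidHom.comp ((Affine.Point.map (W' := (lvlCurve h t).toAffine)
    (Algebra.ofId K L)).comp (pointCongr e1).toAddMonoidHom), ?_, fun x y hn => ?_⟩
  · exact (pointCongr e2).injective.comp
      ((Affine.Point.map_injective (f := Algebra.ofId K L)).comp (pointCongr e1).injective)
  · have hn' : (lvlCurve (ι h) (ι t)).toAffine.Nonsingular (ι x) (ι y) := by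
      rw [← lvlCurve_map]
      exact ((lvlCurve h t).toAffine.map_nonsingular ι.injective x y).2 hn
    refine ⟨hn', ?_⟩
    show pointCongr e2 (Affine.Point.map (W' := (lvlCurve h t).toAffine) (Algebra.ofId K L)
      (pointCongr e1 (.some x y hn))) = _
    rw [pointCongr_some]
    show pointCongr e2 (.some _ _ _) = _
    rw [pointCongr_some]
    rfl

/-- points are carried to points by applying `σ` to coordinates -/
def CoordImage {K : Type*} [Field K] {W W' : WeierstrassCurve K} (σ : K → K)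
    (P : W.toAffine.Point) (Q : W'.toAffine.Point) : Prop :=
  (P = 0 ∧ Q = 0) ∨ ∃ x y h h', P = .some x y h ∧ Q = .some (σ x) (σ y) h'

lemma natCard_five_le {L : Type} [Field L] [CharZero L] (h t : L)
    (hΔ : (lvlCurve h t).Δ ≠ 0) :
    Finite {P : (lvlCurve h t).toAffine.Point // 5 • P = 0} ∧
      Nat.card {P : (lvlCurve h t).toAffine.Point // 5 • P = 0} ≤ 25 := by
  set ι := algebraMap L (AlgebraicClosure L)
  obtain ⟨f, hf, -⟩ := exists_lvlMap ι h t
  haveI : (lvlCurve (ι h) (ι t)).IsElliptic := by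
    constructor
    rw [← lvlCurve_map, map_Δ, isUnit_iff_ne_zero, Ne, map_eq_zero]
    exact hΔ
  have hc := FLTAgent.Torsion.card_nsmul_kernel (lvlCurve (ι h) (ι t)) 5 (by norm_num)
  haveI : Finite {P : (lvlCurve (ι h) (ι t)).toAffine.Point // 5 • P = 0} :=
    Nat.finite_of_card_ne_zero (by rw [hc]; norm_num)
  let g : {P : (lvlCurve h t).toAffine.Point // 5 • P = 0} →
      {P : (lvlCurve (ι h) (ι t)).toAffine.Point // 5 • P = 0} :=
    fun P => ⟨f P.1, by rw [← map_nsmul, P.2, map_zero]⟩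
  have hg : Function.Injective g := fun P Q e => Subtype.ext (hf (congrArg Subtype.val e))
  exact ⟨Finite.of_injective g hg, (Nat.card_le_card_of_injective g hg).trans_eq hc⟩

/-- a family of twelve pairs of points of order five over `F[X]` -/
structure Family (F : Type) [Field F] [CharZero F] (I : Type) where
  /-- coefficient -/
  H : F[X]
  /-- coefficient -/
  T : F[X]
  /-- x-coordinates -/
  xs : I → F[X]
  /-- y-coordinates -/
  ys : I → F[X]
  hD : H ^ 3 - T ^ 2 ≠ 0
  hxs : Function.Injective xs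
  hpt : ∀ (L : Type) [Field L] [CharZero L] (φ : F[X] →+* L), φ (H ^ 3 - T ^ 2) ≠ 0 → ∀ i,
    ∃ hn : (lvlCurve (φ H) (φ T)).toAffine.Nonsingular (φ (xs i)) (φ (ys i)),
      5 • Affine.Point.some _ _ hn = 0

variable {F : Type} [Field F] [CharZero F] {I : Type} (D : Family F I)

namespace Family

/-- index of all points of order dividing five -/
abbrev J (D : Family F I) : Type := Option (I × Bool)

variable {L : Type} [Field L] [CharZero L] (φ : F[X] →+* L)

lemma Δ_ne_zero (hφ : φ (D.H ^ 3 - D.T ^ 2) ≠ 0) : (lvlCurve (φ D.H) (φ D.T)).Δ ≠ 0 := by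
  rw [lvlCurve_Δ]
  rw [map_sub, map_pow, map_pow] at hφ
  exact mul_ne_zero (by norm_num) hφ

/-- signed y-coordinates -/
def yv (D : Family F I) (i : I) : Bool → F[X]
  | false => D.ys i
  | true => -D.ys i

/-- the points -/
def pt (hφ : φ (D.H ^ 3 - D.T ^ 2) ≠ 0) : D.J → (lvlCurve (φ D.H) (φ D.T)).toAffine.Point
  | none => 0
  | some (i, false) => Affine.Point.some _ _ (D.hpt L φ hφ i).choose
  | some (i, true) => -Affine.Point.some _ _ (D.hpt L φ hφ i).choose

variable (hφ : φ (D.H ^ 3 - D.T ^ 2) ≠ 0)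

lemma five_pt (j : D.J) : 5 • D.pt φ hφ j = 0 := by
  rcases j with _ | ⟨i, _ | _⟩
  · exact nsmul_zero _
  · exact (D.hpt L φ hφ i).choose_spec
  · show 5 • -_ = 0
    rw [neg_nsmul, (D.hpt L φ hφ i).choose_spec, neg_zero]

lemma pt_some (i : I) (b : Bool) :
    ∃ hn, D.pt φ hφ (some (i, b)) =
      .some (φ (D.xs i)) (φ (D.yv i b)) hn := by
  have h := (D.hpt L φ hφ i).choose
  cases b
  · exact ⟨h, rfl⟩
  · refine ⟨by simpa [yv] using lvlCurve_nonsingular_neg h, ?_⟩
    show -Affine.Point.some _ _ h = _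
    rw [Affine.Point.neg_some]
    simp [Affine.negY, lvlCurve, yv]

lemma pt_ne_zero (i : I) (b : Bool) : D.pt φ hφ (some (i, b)) ≠ 0 := by
  obtain ⟨hn, e⟩ := D.pt_some φ hφ i b
  rw [e]; exact Affine.Point.some_ne_zero _

lemma pt_injective (hinj : Function.Injective (fun i => φ (D.xs i))) :
    Function.Injective (D.pt φ hφ) := by
  intro j j' e
  rcases j with _ | ⟨i, b⟩ <;> rcases j' with _ | ⟨i', b'⟩
  · rfl
  · exact absurd e.symm (D.pt_ne_zero φ hφ i' b')
  · exact absurd e (D.pt_ne_zero φ hφ i b)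
  · obtain ⟨hn, he⟩ := D.pt_some φ hφ i b
    obtain ⟨hn', he'⟩ := D.pt_some φ hφ i' b'
    have e0 := e
    rw [he, he'] at e
    simp only [Affine.Point.some.injEq] at e
    obtain rfl := hinj e.1
    have hy : ∀ P : (lvlCurve (φ D.H) (φ D.T)).toAffine.Point, 5 • P = 0 → P = -P → P = 0 := by
      intro P h5 h2
      have h2' : 2 • P = 0 := by rw [two_nsmul]; exact eq_neg_iff_add_eq_zero.1 h2
      calc P = 5 • P - 2 • (2 • P) := by
            rw [← mul_nsmul, show (5 : ℕ) = 2 * 2 + 1 from rfl, add_nsmul, one_nsmul,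
              add_sub_cancel_left]
        _ = 0 := by rw [h5, h2', nsmul_zero, sub_zero]
    cases b <;> cases b' <;> try rfl
    · exact absurd (hy _ (D.five_pt φ hφ (some (i, false))) e0) (D.pt_ne_zero φ hφ i false)
    · exact absurd (hy _ (D.five_pt φ hφ (some (i, false))) e0.symm) (D.pt_ne_zero φ hφ i false)

/-- the points as elements of the kernel of five -/
def ptK (j : D.J) : {P : (lvlCurve (φ D.H) (φ D.T)).toAffine.Point // 5 • P = 0} :=
  ⟨D.pt φ hφ j, D.five_pt φ hφ j⟩

lemma ptK_bijective [Finite I] (hI : Nat.card I = 12)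
    (hinj : Function.Injective (D.pt φ hφ)) : Function.Bijective (D.ptK φ hφ) := by
  obtain ⟨hfin, hle⟩ := natCard_five_le _ _ (D.Δ_ne_zero φ hφ)
  haveI := Fintype.ofFinite I
  have hi : Function.Injective (D.ptK φ hφ) := fun a b e => hinj (congrArg Subtype.val e)
  refine hi.bijective_of_nat_card_le ?_
  have : Nat.card D.J = 25 := by
    rw [Nat.card_eq_fintype_card, Fintype.card_option, Fintype.card_prod, Fintype.card_bool,
      ← Nat.card_eq_fintype_card, hI]
  rw [this]
  exact hle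

/-- the generic point -/
abbrev gen (F : Type) [Field F] : F[X] →+* FractionRing F[X] :=
  algebraMap F[X] (FractionRing F[X])

lemma gen_ne (D : Family F I) : gen F (D.H ^ 3 - D.T ^ 2) ≠ 0 := by
  rw [Ne, IsFractionRing.to_map_eq_zero_iff]
  exact D.hD

instance : CharZero (FractionRing F[X]) :=
  charZero_of_injective_algebraMap (IsFractionRing.injective F[X] (FractionRing F[X]))

lemma eval_ne {s : F} (hs : (D.H ^ 3 - D.T ^ 2).eval s ≠ 0) :
    (evalRingHom s) (D.H ^ 3 - D.T ^ 2) ≠ 0 := hs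

/-- additive relations between the points specialise -/
theorem add_transfer {s : F} (hs : (D.H ^ 3 - D.T ^ 2).eval s ≠ 0) {i j l : D.J}
    (h : D.pt (gen F) D.gen_ne i + D.pt (gen F) D.gen_ne j = D.pt (gen F) D.gen_ne l) :
    D.pt (evalRingHom s) (D.eval_ne hs) i + D.pt (evalRingHom s) (D.eval_ne hs) j
      = D.pt (evalRingHom s) (D.eval_ne hs) l := by
  set K := FractionRing F[X]
  set M : Ideal F[X] := Ideal.span {X - C s} with hM
  have hMtop : M ≠ ⊤ := by
    rw [hM, Ne, Ideal.span_singleton_eq_top]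
    exact not_isUnit_X_sub_C s
  let S : Subring K := (gen F).range
  let e : F[X] ≃+* S := RingEquiv.ofBijective (gen F).rangeRestrict
    ⟨fun a b hab => IsFractionRing.injective F[X] K (congrArg Subtype.val hab),
      (gen F).rangeRestrict_surjective⟩
  have hne : M.map (e : F[X] →+* S) ≠ ⊤ := by
    intro htop
    apply hMtop
    have := congrArg (Ideal.map (e.symm : S →+* F[X])) htop
    rwa [Ideal.map_map, RingEquiv.symm_comp, Ideal.map_id, Ideal.map_top] at this
  obtain ⟨A, hA⟩ := Ideal.image_subset_nonunits_valuationSubring (K := K) (A := S) _ hne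
  have hmem : ∀ p : F[X], gen F p ∈ A := fun p => hA.1 ⟨p, rfl⟩
  let α : F[X] →+* A := (gen F).codRestrict A hmem
  let ι : F →+* ResidueField A := (residue A).comp (α.comp Polynomial.C)
  haveI : CharZero (ResidueField A) := charZero_of_injective_ringHom ι.injective
  let φk : F[X] →+* ResidueField A := (residue A).comp α
  have hφk : ∀ p : F[X], φk p = ι (p.eval s) := by
    intro p
    have hd : X - C s ∣ p - C (p.eval s) := by
      rw [dvd_iff_isRoot]; simp
    have hM' : p - C (p.eval s) ∈ M := by rw [hM, Ideal.mem_span_singleton]; exact hd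
    have hnu : gen F (p - C (p.eval s)) ∈ A.nonunits :=
      hA.2 ⟨e (p - C (p.eval s)), Ideal.mem_map_of_mem (e : F[X] →+* S) hM', rfl⟩
    have h0 : residue A (α (p - C (p.eval s))) = 0 := by
      rw [res_eq_zero]
      exact hnu
    rw [map_sub, map_sub, sub_eq_zero] at h0
    exact h0
  have hφk0 : φk (D.H ^ 3 - D.T ^ 2) ≠ 0 := by
    rw [hφk, Ne, map_eq_zero]; exact hs
  let W0 : WeierstrassCurve A :=
    { a₁ := 0, a₂ := 0, a₃ := 0, a₄ := α (-3 * D.H), a₆ := α (-2 * D.T) }
  have eg : lvlCurve (gen F D.H) (gen F D.T) = genFib W0 := by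
    ext
    any_goals simp [lvlCurve, genFib, W0]; done
    · show -3 * gen F D.H = gen F (-3 * D.H)
      rw [map_mul, map_neg, map_ofNat]
    · show -2 * gen F D.T = gen F (-2 * D.T)
      rw [map_mul, map_neg, map_ofNat]
  have es : specFib W0 = lvlCurve (φk D.H) (φk D.T) := by
    ext <;> simp [lvlCurve, specFib, W0, φk, map_ofNat]
  have hred : ∀ j : D.J, InE0 (pointCongr eg (D.pt (gen F) D.gen_ne j)) ∧
      pointCongr es (red (pointCongr eg (D.pt (gen F) D.gen_ne j))) = D.pt φk hφk0 j := by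
    intro j
    rcases j with _ | ⟨i, b⟩
    · show InE0 (pointCongr eg 0) ∧ pointCongr es (red (pointCongr eg 0)) = 0
      rw [map_zero, red_zero, map_zero]
      exact ⟨InE0.zero, rfl⟩
    · obtain ⟨hn, he⟩ := D.pt_some (gen F) D.gen_ne i b
      obtain ⟨hn', he'⟩ := D.pt_some φk hφk0 i b
      rw [he, he', pointCongr_some]
      have hns : (specFib W0).toAffine.Nonsingular (residue A ⟨_, hmem (D.xs i)⟩)
          (residue A ⟨_, hmem (D.yv i b)⟩) := by
        rw [es]; exact hn'
      refine ⟨Or.inr ⟨hmem _, hmem _, hns⟩, ?_⟩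
      rw [red_some (hmem _) (hmem _) hns, pointCongr_some]
      rfl
  have hk : D.pt φk hφk0 i + D.pt φk hφk0 j = D.pt φk hφk0 l := by
    rcases i with _ | ⟨i, bi⟩
    · change 0 + D.pt (gen F) D.gen_ne j = _ at h
      rw [zero_add] at h
      show 0 + _ = _
      rw [zero_add, ← (hred j).2, ← (hred l).2, h]
    rcases j with _ | ⟨j, bj⟩
    · change D.pt (gen F) D.gen_ne (some (i, bi)) + 0 = _ at h
      rw [add_zero] at h
      show _ + 0 = _
      rw [add_zero, ← (hred _).2, ← (hred l).2, h]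
    obtain ⟨ni, hi'⟩ := D.pt_some (gen F) D.gen_ne i bi
    obtain ⟨nj, hj'⟩ := D.pt_some (gen F) D.gen_ne j bj
    obtain ⟨mi, hmi⟩ := D.pt_some φk hφk0 i bi
    obtain ⟨mj, hmj⟩ := D.pt_some φk hφk0 j bj
    have n₁ : (specFib W0).toAffine.Nonsingular (residue A (α (D.xs i)))
        (residue A (α (D.yv i bi))) := by rw [es]; exact mi
    have n₂ : (specFib W0).toAffine.Nonsingular (residue A (α (D.xs j)))
        (residue A (α (D.yv j bj))) := by rw [es]; exact mj
    have hadd := (add_affine (h₁ := eg ▸ ni) (h₂ := eg ▸ nj) n₁ n₂).2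
    have e₁ : pointCongr eg (D.pt (gen F) D.gen_ne (some (i, bi)))
        = Affine.Point.some _ _ (eg ▸ ni) := by rw [hi', pointCongr_some]
    have e₂ : pointCongr eg (D.pt (gen F) D.gen_ne (some (j, bj)))
        = Affine.Point.some _ _ (eg ▸ nj) := by rw [hj', pointCongr_some]
    rw [← (hred (some (i, bi))).2, ← (hred (some (j, bj))).2, ← (hred l).2, ← h,
      map_add (pointCongr eg), e₁, e₂]
    exact (map_add (pointCongr es) _ _).symm.trans (congrArg (pointCongr es) hadd.symm)
  obtain ⟨f, hf, hfs⟩ := exists_lvlMap ι (evalRingHom s D.H) (evalRingHom s D.T)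
  have eι : lvlCurve (ι (evalRingHom s D.H)) (ι (evalRingHom s D.T)) = lvlCurve (φk D.H) (φk D.T) := by
    rw [hφk, hφk]; rfl
  have hmap : ∀ j : D.J,
      pointCongr eι (f (D.pt (evalRingHom s) (D.eval_ne hs) j)) = D.pt φk hφk0 j := by
    intro j
    rcases j with _ | ⟨i, b⟩
    · show pointCongr eι (f (0 : (lvlCurve (evalRingHom s D.H) (evalRingHom s D.T)).toAffine.Point)) = 0
      rw [map_zero, map_zero]
    · obtain ⟨hn, he⟩ := D.pt_some (evalRingHom s) (D.eval_ne hs) i b
      obtain ⟨hn', he'⟩ := D.pt_some φk hφk0 i b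
      obtain ⟨hn'', he''⟩ := hfs _ _ hn
      rw [he, he']
      refine (congrArg (pointCongr eι) he'').trans ?_
      rw [pointCongr_some]
      simp only [Affine.Point.some.injEq]
      exact ⟨(hφk _).symm, (hφk _).symm⟩
  apply hf
  apply (pointCongr eι).injective
  rw [← hmap i, ← hmap j, ← hmap l, ← map_add, ← map_add] at hk
  exact hk

lemma gen_pt_bijective [Finite I] (hI : Nat.card I = 12) :
    Function.Bijective (D.ptK (gen F) D.gen_ne) :=
  D.ptK_bijective _ _ hI (D.pt_injective _ _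
    (fun i j e => D.hxs (IsFractionRing.injective F[X] (FractionRing F[X]) e)))

lemma eval_pt_injective [Finite I] (hI : Nat.card I = 12) {s : F}
    (hs : (D.H ^ 3 - D.T ^ 2).eval s ≠ 0) :
    Function.Injective (D.pt (evalRingHom s) (D.eval_ne hs)) := by
  intro i j e
  obtain ⟨l, hl⟩ := (D.gen_pt_bijective hI).2
    ⟨D.pt (gen F) D.gen_ne i - D.pt (gen F) D.gen_ne j, by
      rw [nsmul_sub, D.five_pt, D.five_pt, sub_zero]⟩
  have hl' : D.pt (gen F) D.gen_ne l = D.pt (gen F) D.gen_ne i - D.pt (gen F) D.gen_ne j :=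
    congrArg Subtype.val hl
  have h1 := D.add_transfer hs (i := l) (j := j) (l := i) (by rw [hl', sub_add_cancel])
  rw [e, add_eq_right] at h1
  rcases l with _ | ⟨a, b⟩
  · exact congrArg id ((D.gen_pt_bijective hI).1 (Subtype.ext (sub_eq_zero.1 hl'.symm)))
  · exact absurd h1 (D.pt_ne_zero _ _ a b)

lemma conj_index [Finite I] (hI : Nat.card I = 12) (σ : F →+* F) (hH : D.H.map σ = D.H)
    (hT : D.T.map σ = D.T) (i : I) (b : Bool) :
    ∃ i' b', D.xs i' = (D.xs i).map σ ∧ D.yv i' b' = (D.yv i b).map σ := by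
  set ψ := (gen F).comp (Polynomial.mapRingHom σ) with hψ
  have eH : ψ D.H = gen F D.H := by simp [hψ, hH]
  have eT : ψ D.T = gen F D.T := by simp [hψ, hT]
  have hψ0 : ψ (D.H ^ 3 - D.T ^ 2) ≠ 0 := by
    rw [map_sub, map_pow, map_pow, eH, eT, ← map_pow, ← map_pow, ← map_sub]
    exact D.gen_ne
  obtain ⟨m', hm'⟩ := D.pt_some ψ hψ0 i b
  have eW : lvlCurve (ψ D.H) (ψ D.T) = lvlCurve (gen F D.H) (gen F D.T) := by rw [eH, eT]
  obtain ⟨l, hl⟩ := (D.gen_pt_bijective hI).2 ⟨pointCongr eW (D.pt ψ hψ0 (some (i, b))), by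
    rw [← map_nsmul, D.five_pt, map_zero]⟩
  have hl' : D.pt (gen F) D.gen_ne l = pointCongr eW (D.pt ψ hψ0 (some (i, b))) :=
    congrArg Subtype.val hl
  rcases l with _ | ⟨i', b'⟩
  · rw [hm', pointCongr_some] at hl'
    exact absurd hl'.symm (Affine.Point.some_ne_zero _)
  obtain ⟨m'', hm''⟩ := D.pt_some (gen F) D.gen_ne i' b'
  rw [hm'', hm', pointCongr_some] at hl'
  simp only [Affine.Point.some.injEq] at hl'
  exact ⟨i', b', IsFractionRing.injective F[X] _ hl'.1, IsFractionRing.injective F[X] _ hl'.2⟩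

/-- if `σ` negates every point at `s₀`, it fixes every coordinate polynomial up to the sign of y -/
lemma neg_fixed [Finite I] (hI : Nat.card I = 12) {s₀ : F}
    (h₀ : (D.H ^ 3 - D.T ^ 2).eval s₀ ≠ 0) (σ : F →+* F) (hH : D.H.map σ = D.H)
    (hT : D.T.map σ = D.T) (hs₀ : σ s₀ = s₀)
    (hneg : ∀ i, σ ((D.xs i).eval s₀) = (D.xs i).eval s₀ ∧
      σ ((D.ys i).eval s₀) = -(D.ys i).eval s₀) (i : I) :
    (D.xs i).map σ = D.xs i ∧ (D.ys i).map σ = -D.ys i := by
  obtain ⟨i', b', ex, ey⟩ := D.conj_index hI σ hH hT i false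
  have hev : ∀ p : F[X], (p.map σ).eval s₀ = σ (p.eval s₀) := by
    intro p
    conv_lhs => rw [← hs₀]
    rw [Polynomial.eval_map, Polynomial.eval₂_at_apply]
  have key : D.pt (evalRingHom s₀) (D.eval_ne h₀) (some (i', b'))
      = D.pt (evalRingHom s₀) (D.eval_ne h₀) (some (i, true)) := by
    obtain ⟨n1, e1⟩ := D.pt_some (evalRingHom s₀) (D.eval_ne h₀) i' b'
    obtain ⟨n2, e2⟩ := D.pt_some (evalRingHom s₀) (D.eval_ne h₀) i true
    rw [e1, e2]
    simp only [Affine.Point.some.injEq]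
    show (D.xs i').eval s₀ = (D.xs i).eval s₀ ∧ (D.yv i' b').eval s₀ = (-D.ys i).eval s₀
    rw [ex, ey, hev, hev, eval_neg, ← (hneg i).2, (hneg i).1]
    exact ⟨rfl, rfl⟩
  have := D.eval_pt_injective hI h₀ key
  simp only [Option.some.injEq, Prod.mk.injEq] at this
  obtain ⟨rfl, rfl⟩ := this
  exact ⟨ex.symm, ey.symm⟩

/-- the torsion of two specialisations is isomorphic, compatibly with coefficient automorphisms -/
theorem exists_torsion_equiv [Finite I] (hI : Nat.card I = 12) {s₀ s₁ : F}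
    (h₀ : (D.H ^ 3 - D.T ^ 2).eval s₀ ≠ 0) (h₁ : (D.H ^ 3 - D.T ^ 2).eval s₁ ≠ 0) :
    ∃ e : (lvlCurve (evalRingHom s₀ D.H) (evalRingHom s₀ D.T)).toAffine.Point →
        (lvlCurve (evalRingHom s₁ D.H) (evalRingHom s₁ D.T)).toAffine.Point,
      (∀ P, 5 • P = 0 → 5 • e P = 0) ∧
      (∀ P Q, 5 • P = 0 → 5 • Q = 0 → e (P + Q) = e P + e Q) ∧
      (∀ P, 5 • P = 0 → e P = 0 → P = 0) ∧
      (∀ i b, e (D.pt (evalRingHom s₀) (D.eval_ne h₀) (some (i, b)))
        = D.pt (evalRingHom s₁) (D.eval_ne h₁) (some (i, b))) ∧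
      ∀ σ : F →+* F, D.H.map σ = D.H → D.T.map σ = D.T → σ s₀ = s₀ → σ s₁ = s₁ →
        ∀ P Q, 5 • P = 0 → 5 • Q = 0 → CoordImage σ P Q → CoordImage σ (e P) (e Q) := by
  have b₀ := D.ptK_bijective _ (D.eval_ne h₀) hI (D.eval_pt_injective hI h₀)
  let idx : (lvlCurve (evalRingHom s₀ D.H) (evalRingHom s₀ D.T)).toAffine.Point → D.J := fun P =>
    if h : 5 • P = 0 then (b₀.2 ⟨P, h⟩).choose else none
  have hidx : ∀ P, 5 • P = 0 → D.pt (evalRingHom s₀) (D.eval_ne h₀) (idx P) = P := fun P h => by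
    simp only [idx, dif_pos h]
    exact congrArg Subtype.val (b₀.2 ⟨P, h⟩).choose_spec
  have hidx' : ∀ j, idx (D.pt (evalRingHom s₀) (D.eval_ne h₀) j) = j := fun j =>
    D.eval_pt_injective hI h₀ (hidx _ (D.five_pt _ _ j))
  refine ⟨fun P => D.pt (evalRingHom s₁) (D.eval_ne h₁) (idx P),
    fun P _ => D.five_pt _ _ _, ?_, ?_, ?_, ?_⟩
  · intro P Q hP hQ
    obtain ⟨l, hl⟩ := (D.gen_pt_bijective hI).2
      ⟨D.pt (gen F) D.gen_ne (idx P) + D.pt (gen F) D.gen_ne (idx Q), by
        rw [nsmul_add, D.five_pt, D.five_pt, add_zero]⟩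
    have hl' : D.pt (gen F) D.gen_ne (idx P) + D.pt (gen F) D.gen_ne (idx Q)
        = D.pt (gen F) D.gen_ne l := (congrArg Subtype.val hl).symm
    have h0 := D.add_transfer h₀ hl'
    rw [hidx P hP, hidx Q hQ] at h0
    show D.pt _ _ (idx (P + Q)) = _
    rw [h0, hidx']
    exact (D.add_transfer h₁ hl').symm
  · intro P hP h
    have hn : idx P = none := by
      rcases hj : idx P with _ | ⟨i, b⟩
      · rfl
      · simp only [hj] at h
        exact absurd h (D.pt_ne_zero _ _ i b)
    rw [← hidx P hP, hn]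
    rfl
  · intro i b
    show D.pt _ _ (idx _) = _
    rw [hidx']
  · intro σ hH hT hs₀ hs₁ P Q hP hQ hPQ
    rcases hPQ with ⟨rfl, rfl⟩ | ⟨x, y, hn, hn', rfl, rfl⟩
    · have h0 : idx (0 : (lvlCurve (evalRingHom s₀ D.H) (evalRingHom s₀ D.T)).toAffine.Point) = none := hidx' none
      exact Or.inl ⟨by show D.pt _ _ (idx _) = 0; rw [h0]; rfl,
        by show D.pt _ _ (idx _) = 0; rw [h0]; rfl⟩
    rcases hj : idx (Affine.Point.some x y hn) with _ | ⟨i, b⟩
    · have := hidx _ hP
      rw [hj] at this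
      exact absurd this.symm (Affine.Point.some_ne_zero _)
    have hP' := hidx _ hP
    rw [hj] at hP'
    obtain ⟨m, hm⟩ := D.pt_some (evalRingHom s₀) (D.eval_ne h₀) i b
    rw [hm] at hP'
    simp only [Affine.Point.some.injEq] at hP'
    obtain ⟨i', b', ex', ey'⟩ := D.conj_index hI σ hH hT i b
    have hev : ∀ (s : F), σ s = s → ∀ p : F[X], (p.map σ).eval s = σ (p.eval s) := by
      intro s hs p
      conv_lhs => rw [← hs]
      rw [Polynomial.eval_map, Polynomial.eval₂_at_apply]
    have hQidx : idx (Affine.Point.some (σ x) (σ y) hn') = some (i', b') := by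
      apply D.eval_pt_injective hI h₀
      rw [hidx _ hQ]
      obtain ⟨n1, hn1⟩ := D.pt_some (evalRingHom s₀) (D.eval_ne h₀) i' b'
      rw [hn1]
      simp only [Affine.Point.some.injEq]
      show σ x = Polynomial.eval s₀ (D.xs i') ∧ σ y = Polynomial.eval s₀ (D.yv i' b')
      rw [ex', ey', hev s₀ hs₀, hev s₀ hs₀, ← hP'.1, ← hP'.2]
      exact ⟨rfl, rfl⟩
    obtain ⟨n2, hn2⟩ := D.pt_some (evalRingHom s₁) (D.eval_ne h₁) i b
    obtain ⟨n3, hn3⟩ := D.pt_some (evalRingHom s₁) (D.eval_ne h₁) i' b'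
    refine Or.inr ⟨_, _, n2, ?_, by show D.pt _ _ (idx _) = _; rw [hj, hn2], ?_⟩
    · have := n3
      simp only [coe_evalRingHom] at this ⊢
      rwa [ex', ey', hev s₁ hs₁, hev s₁ hs₁] at this
    · show D.pt _ _ (idx _) = _
      rw [hQidx, hn3]
      simp only [Affine.Point.some.injEq, coe_evalRingHom]
      rw [ex', ey', hev s₁ hs₁, hev s₁ hs₁]
      exact ⟨rfl, rfl⟩

end Family

end FLTAgent.S52
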