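import Fermat.Agent.S52.Base
import Fermat.Agent.S52.Spec
import Fermat.Agent.S52.Short
import Fermat.Agent.EllFrob.Trace
import Fermat.Agent.Alg.Frobenius

set_option autoImplicit false
set_option linter.all false

/-!
The family through an integral curve, and the congruence of its members modulo five.
-/

noncomputable section

namespace FLTAgent.S52

open Polynomial WeierstrassCurve FLTAgent.Local FLTAgent.Torsion

local notation "Ω" => AlgebraicClosure ℚ

attribute [local instance 2000] Classical.decEq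

/-- a base point of the family over an integral curve -/
structure Base (W : WeierstrassCurve ℤ) where
  /-- first coordinate -/
  u : Ω
  /-- second coordinate -/
  v : Ω
  /-- constants -/
  c : Consts Ω
  hu : u ≠ 0
  hH : kH u v = 9 * (W.c₄ : Ω)
  hT : kT u v = 27 * (W.c₆ : Ω)
  hf : kf u v ≠ 0

theorem nonempty_base {W : WeierstrassCurve ℤ} (hΔ : W.Δ ≠ 0) : Nonempty (Base W) := by
  obtain ⟨c⟩ := nonempty_consts (F := Ω)
  obtain ⟨u, v, hu, hH, hT, hf⟩ := exists_base (F := Ω) (a := 9 * (W.c₄ : Ω))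
    (b := 27 * (W.c₆ : Ω)) (by
      intro e
      have hrel := congrArg (fun z : ℤ => (z : Ω)) W.c_relation
      push_cast at hrel
      have : (W.Δ : Ω) = 0 := by linear_combination (1 / 1728 / 729 : Ω) * e + (1 / 1728 : Ω) * hrel
      exact hΔ (by exact_mod_cast this))
  exact ⟨⟨u, v, c, hu, hH, hT, hf⟩⟩

/-- forms along the line, over `ℚ` -/
def famH (W : WeierstrassCurve ℤ) : ℚ[X] := lineH (9 * W.c₄) (27 * W.c₆)

/-- forms along the line, over `ℚ` -/
def famT (W : WeierstrassCurve ℤ) : ℚ[X] := lineT (9 * W.c₄) (27 * W.c₆)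

variable {W : WeierstrassCurve ℤ} (B : Base W)

namespace Base

/-- first coordinate along the line -/
def uP : (Polynomial Ω) := lineU B.u B.v

/-- second coordinate along the line -/
def vP : (Polynomial Ω) := lineV B.u B.v

lemma forms : kH B.uP B.vP = (famH W).map (algebraMap ℚ Ω) ∧
    kT B.uP B.vP = (famT W).map (algebraMap ℚ Ω) :=
  forms_on_line (by rw [B.hH]; push_cast; ring) (by rw [B.hT]; push_cast; ring) B.hf

lemma klein_map {L : Type} [Field L] [CharZero L] (φ : (Polynomial Ω) →+* L)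
    (h : φ (((famH W).map (algebraMap ℚ Ω)) ^ 3 - ((famT W).map (algebraMap ℚ Ω)) ^ 2) ≠ 0) :
    kf (φ B.uP) (φ B.vP) ≠ 0 := by
  intro e
  apply h
  rw [← B.forms.1, ← B.forms.2, klein_relation, map_mul, map_pow, map_kf, e,
    zero_pow (by norm_num), mul_zero]

/-- the family -/
def family : Family Ω Idx where
  H := (famH W).map (algebraMap ℚ Ω)
  T := (famT W).map (algebraMap ℚ Ω)
  xs := fun i => B.c.xR B.uP B.vP i
  ys := fun i => B.c.yR B.uP B.vP i
  hD := by
    intro e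
    have h := congrArg (evalRingHom (0 : Ω)) e
    rw [← B.forms.1, ← B.forms.2, klein_relation, map_zero, map_mul, map_pow, map_kf] at h
    have hu : evalRingHom (0 : Ω) B.uP = B.u := by simp [uP, lineU]
    have hv : evalRingHom (0 : Ω) B.vP = B.v := by simp [vP, lineV]
    rw [hu, hv] at h
    simp at h
    exact B.hf h
  hxs := xR_line_injective B.c B.hu (by
    rw [det_line]; exact mul_ne_zero (by norm_num) B.hf)
  hpt := by
    intro L _ _ φ hφ i
    obtain ⟨hn, h5⟩ := exists_torsion (B.c.map (φ.comp (algebraMap Ω (Polynomial Ω)))) (B.klein_map φ hφ) i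
    simp only [B.c.map_xR φ, B.c.map_yR φ]
    exact transport_five (by rw [← map_kH, B.forms.1]) (by rw [← map_kT, B.forms.2]) hn h5

lemma card_idx : Nat.card Idx = 12 := by
  simp [Idx, Nat.card_eq_fintype_card]

lemma eval_H (s : ℚ) : B.family.H.eval (algebraMap ℚ Ω s) = algebraMap ℚ Ω ((famH W).eval s) := by
  show ((famH W).map (algebraMap ℚ Ω)).eval _ = _
  rw [eval_map, eval₂_at_apply]

lemma eval_T (s : ℚ) : B.family.T.eval (algebraMap ℚ Ω s) = algebraMap ℚ Ω ((famT W).eval s) := by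
  show ((famT W).map (algebraMap ℚ Ω)).eval _ = _
  rw [eval_map, eval₂_at_apply]

lemma map_sigma (σ : Ω ≃ₐ[ℚ] Ω) :
    B.family.H.map (σ : Ω →+* Ω) = B.family.H ∧ B.family.T.map (σ : Ω →+* Ω) = B.family.T := by
  constructor <;>
  · show (Polynomial.map (algebraMap ℚ Ω) _).map _ = _
    rw [Polynomial.map_map]
    congr 1
    ext q
    simp

lemma good (s : ℚ) (W' : WeierstrassCurve ℤ) (hΔ : W'.Δ ≠ 0)
    (hH : (famH W).eval s = 9 * W'.c₄) (hT : (famT W).eval s = 27 * W'.c₆) :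
    (B.family.H ^ 3 - B.family.T ^ 2).eval (algebraMap ℚ Ω s) ≠ 0 := by
  rw [eval_sub, eval_pow, eval_pow, B.eval_H, B.eval_T, hH, hT]
  push_cast
  intro e
  simp only [map_mul, map_ofNat, map_intCast] at e
  have hrel := congrArg (fun z : ℤ => (z : Ω)) W'.c_relation
  push_cast at hrel
  have : (W'.Δ : Ω) = 0 := by linear_combination (1 / 1728 / 729 : Ω) * e + (1 / 1728 : Ω) * hrel
  exact hΔ (by exact_mod_cast this)

end Base

/-- `σ` sends `P` to `σ • P` coordinatewise in the short model -/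
lemma shortPt_coordImage (W : WeierstrassCurve ℤ) (σ : Ω ≃ₐ[ℚ] Ω) (P : QPoint W) :
    CoordImage (σ : Ω →+* Ω) (shortPt W P) (shortPt W (σ • P)) := by
  rcases eq_or_ne P 0 with rfl | hP
  · exact Or.inl ⟨map_zero _, by rw [Affine.Point.algEquiv_smul_def, map_zero, map_zero]⟩
  obtain ⟨x, y, h, e⟩ : ∃ x y h, shortPt W P = Affine.Point.some x y h := by
    rcases hR : shortPt W P with _ | ⟨x, y, h⟩
    · exact absurd (shortPt_injective W (hR.trans (map_zero _).symm)) hP
    · exact ⟨x, y, h, rfl⟩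
  obtain ⟨h', e'⟩ := shortPt_smul_some W σ P e
  exact Or.inr ⟨x, y, h, h', e, e'⟩

lemma shortPt_surj {W : WeierstrassCurve ℤ} (hΔ : W.Δ ≠ 0)
    (R : (lvlCurve (9 * (W.c₄ : Ω)) (27 * (W.c₆ : Ω))).toAffine.Point) (hR : 5 • R = 0) :
    ∃ x : Tors W 5, shortPt W (x : QPoint W) = R := by
  classical
  haveI := isElliptic_curveBar hΔ
  haveI : Fact (Nat.Prime 5) := ⟨by norm_num⟩
  have hΔ' : (lvlCurve (9 * (W.c₄ : Ω)) (27 * (W.c₆ : Ω))).Δ ≠ 0 := by
    rw [lvlCurve_Δ]
    intro e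
    have hrel := congrArg (fun z : ℤ => (z : Ω)) W.c_relation
    push_cast at hrel
    have : (W.Δ : Ω) = 0 := by
      linear_combination (1 / 1728 / 729 / 1728 : Ω) * e + (1 / 1728 : Ω) * hrel
    exact hΔ (by exact_mod_cast this)
  let f : Tors W 5 → {P : (lvlCurve (9 * (W.c₄ : Ω)) (27 * (W.c₆ : Ω))).toAffine.Point // 5 • P = 0} :=
    fun x => ⟨shortPt W (x : QPoint W), by rw [← map_nsmul, nsmul_tors, map_zero]⟩
  obtain ⟨hfin, hle⟩ := natCard_five_le (9 * (W.c₄ : Ω)) (27 * (W.c₆ : Ω)) hΔ'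
  have hinj : Function.Injective f := fun a b e =>
    Subtype.ext (shortPt_injective W (congrArg Subtype.val e))
  have hb : Function.Bijective f := hinj.bijective_of_nat_card_le (by
    rw [show Nat.card (Tors W 5) = 5 ^ 2 from natCard_torsionBy (curveBar W) 5 (by norm_num)]
    exact hle)
  obtain ⟨x, hx⟩ := hb.2 ⟨R, hR⟩
  exact ⟨x, congrArg Subtype.val hx⟩

/-- members of the family have isomorphic five-torsion -/
theorem exists_tors_equiv {W W' : WeierstrassCurve ℤ} (hΔ : W.Δ ≠ 0) (hΔ' : W'.Δ ≠ 0) (s : ℚ)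
    (hH : (famH W).eval s = 9 * W'.c₄) (hT : (famT W).eval s = 27 * W'.c₆) :
    ∃ ψ : Tors W 5 ≃ₗ[ZMod 5] Tors W' 5, ∀ (σ : Ω ≃ₐ[ℚ] Ω) x, ψ (σ • x) = σ • ψ x := by
  classical
  obtain ⟨B⟩ := nonempty_base hΔ
  have h0H : (famH W).eval 0 = 9 * W.c₄ := (lineH_eval_zero _ _).1
  have h0T : (famT W).eval 0 = 27 * W.c₆ := (lineH_eval_zero _ _).2
  have g0 := B.good 0 W hΔ h0H h0T
  have g1 := B.good s W' hΔ' hH hT
  obtain ⟨e, he5, hadd, hker, -, heq⟩ := B.family.exists_torsion_equiv Base.card_idx g0 g1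
  have e0 : lvlCurve (9 * (W.c₄ : Ω)) (27 * (W.c₆ : Ω)) =
      lvlCurve (evalRingHom (algebraMap ℚ Ω 0) B.family.H)
        (evalRingHom (algebraMap ℚ Ω 0) B.family.T) := by
    rw [coe_evalRingHom, B.eval_H, B.eval_T, h0H, h0T]; simp [map_ofNat]
  have e1 : lvlCurve (evalRingHom (algebraMap ℚ Ω s) B.family.H)
      (evalRingHom (algebraMap ℚ Ω s) B.family.T) = lvlCurve (9 * (W'.c₄ : Ω)) (27 * (W'.c₆ : Ω)) := by
    rw [coe_evalRingHom, B.eval_H, B.eval_T, hH, hT]; simp [map_ofNat]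
  let a : Tors W 5 → (lvlCurve (evalRingHom (algebraMap ℚ Ω 0) B.family.H)
      (evalRingHom (algebraMap ℚ Ω 0) B.family.T)).toAffine.Point :=
    fun x => FLTAgent.EllFrob.pointCongr e0 (shortPt W (x : QPoint W))
  have ha5 : ∀ x, 5 • a x = 0 := fun x =>
    ((map_nsmul (FLTAgent.EllFrob.pointCongr e0) 5 _).symm.trans (congrArg _
      ((map_nsmul (shortPt W) 5 _).symm.trans ((congrArg _ (nsmul_tors x)).trans (map_zero _))))).trans
      (map_zero _)
  have ha_add : ∀ x y, a (x + y) = a x + a y := fun x y => by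
    simp only [a, Submodule.coe_add, map_add]
  let b : Tors W 5 → (lvlCurve (9 * (W'.c₄ : Ω)) (27 * (W'.c₆ : Ω))).toAffine.Point :=
    fun x => FLTAgent.EllFrob.pointCongr e1 (e (a x))
  have hb5 : ∀ x, 5 • b x = 0 := fun x => by
    simp only [b]
    rw [← map_nsmul, he5 _ (ha5 x), map_zero]
  have hex : ∀ x, ∃ y : Tors W' 5, shortPt W' (y : QPoint W') = b x :=
    fun x => shortPt_surj hΔ' _ (hb5 x)
  choose f hf using hex
  let φ : Tors W 5 →+ Tors W' 5 := AddMonoidHom.mk' f (fun x y => by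
    apply Subtype.ext
    apply shortPt_injective W'
    rw [Submodule.coe_add, map_add, hf, hf, hf]
    simp only [b]
    rw [ha_add, hadd _ _ (ha5 x) (ha5 y), map_add])
  have hφ : Function.Injective φ := by
    rw [injective_iff_map_eq_zero]
    intro x hx
    have h1 : b x = 0 := by
      rw [← hf x, show f x = 0 from hx, Submodule.coe_zero, map_zero]
    have h2 : e (a x) = 0 := (FLTAgent.EllFrob.pointCongr e1).map_eq_zero_iff.1 h1
    have h3 := (FLTAgent.EllFrob.pointCongr e0).map_eq_zero_iff.1 (hker _ (ha5 x) h2)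
    exact Subtype.ext (shortPt_injective W (h3.trans (map_zero _).symm))
  haveI : Fact (Nat.Prime 5) := ⟨by norm_num⟩
  haveI := isElliptic_curveBar hΔ'
  haveI : Finite (Tors W' 5) := finite_torsionBy (curveBar W') 5 (by norm_num)
  have hbij : Function.Bijective φ := hφ.bijective_of_nat_card_le (by
    haveI := isElliptic_curveBar hΔ
    rw [show Nat.card (Tors W 5) = 5 ^ 2 from natCard_torsionBy (curveBar W) 5 (by norm_num),
      show Nat.card (Tors W' 5) = 5 ^ 2 from natCard_torsionBy (curveBar W') 5 (by norm_num)])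
  refine ⟨LinearEquiv.ofBijective (φ.toZModLinearMap 5) hbij, fun σ x => ?_⟩
  show f (σ • x) = σ • f x
  apply Subtype.ext
  apply shortPt_injective W'
  rw [hf, coe_smul]
  have hc : ∀ (W1 : WeierstrassCurve Ω) (W2 : WeierstrassCurve Ω) (h : W1 = W2)
      (P Q : W1.toAffine.Point), CoordImage (σ : Ω →+* Ω) P Q →
      CoordImage (σ : Ω →+* Ω) (FLTAgent.EllFrob.pointCongr h P) (FLTAgent.EllFrob.pointCongr h Q) := by
    rintro W1 W2 rfl P Q h; exact h
  have c0 := hc _ _ e0 _ _ (shortPt_coordImage W σ (x : QPoint W))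
  have c1 := hc _ _ e1 _ _ (heq (σ : Ω →+* Ω) (B.map_sigma σ).1 (B.map_sigma σ).2 (by simp) (by simp)
    _ _ (ha5 x) (ha5 (σ • x)) c0)
  have c2 := shortPt_coordImage W' σ (f x : QPoint W')
  rw [hf] at c2
  show b (σ • x) = _
  rcases c1 with ⟨p, q⟩ | ⟨X, Y, h, h', p, q⟩ <;> rcases c2 with ⟨p', q'⟩ | ⟨X', Y', k, k', p', q'⟩
  · rw [q']; exact q
  · exact absurd (p'.symm.trans p) (Affine.Point.some_ne_zero _)
  · exact absurd (p.symm.trans p') (Affine.Point.some_ne_zero _)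
  · obtain ⟨ex, ey⟩ := Affine.Point.some.inj (p.symm.trans p')
    rw [q']
    exact q.trans (some_congr _ _ (by rw [ex]) (by rw [ey]))

/-- the congruence modulo five -/
theorem dvd_apOfModel_sub {W W' : WeierstrassCurve ℤ} (hΔ : W.Δ ≠ 0) (hΔ' : W'.Δ ≠ 0) (s : ℚ)
    (hH : (famH W).eval s = 9 * W'.c₄) (hT : (famT W).eval s = 27 * W'.c₆) {ℓ : ℕ} (hℓ : ℓ.Prime)
    (h1 : ¬ (ℓ : ℤ) ∣ W.Δ) (h2 : ¬ (ℓ : ℤ) ∣ W'.Δ) (h5 : ℓ ≠ 5) :
    (5 : ℤ) ∣ (W'.apOfModel ℓ - W.apOfModel ℓ) := by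
  obtain ⟨ψ, hψ⟩ := exists_tors_equiv hΔ hΔ' s hH hT
  obtain ⟨A, σ, hA, hσ⟩ := FLTAgent.Alg.exists_place_frobenius ℓ hℓ
  have t1 := (FLTAgent.EllFrob.galois_charpoly hℓ h1 hA hσ (by norm_num : Nat.Prime 5) (Ne.symm h5)).1
  have t2 := (FLTAgent.EllFrob.galois_charpoly hℓ h2 hA hσ (by norm_num : Nat.Prime 5) (Ne.symm h5)).1
  rw [Affine.Point.galoisTrace_def] at t1 t2
  have hconj : Affine.Point.galoisRepModuleEnd ℚ (K := Ω) (W'.map (Int.castRingHom ℚ)) 5 σ =
      ψ.conj (Affine.Point.galoisRepModuleEnd ℚ (K := Ω) (W.map (Int.castRingHom ℚ)) 5 σ) := by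
    refine LinearMap.ext fun y => ?_
    rw [LinearEquiv.conj_apply_apply]
    show σ • y = ψ (σ • ψ.symm y)
    rw [hψ, LinearEquiv.apply_symm_apply]
  rw [hconj, LinearMap.trace_conj'] at t2
  rw [show (5 : ℤ) = ((5 : ℕ) : ℤ) from rfl, ← ZMod.intCast_zmod_eq_zero_iff_dvd]
  push_cast
  rw [← t1, ← t2, sub_self]

end FLTAgent.S52
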