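import Fermat.Agent.S52.Congr
import Fermat.Agent.EllFrob.DetCyc

set_option autoImplicit false
set_option linter.all false

/-!
A cusp of the family fixed by a Galois element acting as `-1` on the five-torsion.
-/

noncomputable section

namespace FLTAgent.S52

open Polynomial WeierstrassCurve FLTAgent.Local FLTAgent.Torsion FLTAgent.Attach

local notation "Ω" => AlgebraicClosure ℚ



lemma cyc_five_of_neg {W : WeierstrassCurve ℤ} (hΔ : W.Δ ≠ 0) {τ : Ω ≃ₐ[ℚ] Ω}
    (hτ : ∀ x : Tors W 5, τ • x = -x) : cyc 5 τ = 1 := by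
  haveI : Fact (Nat.Prime 5) := ⟨by norm_num⟩
  rw [← FLTAgent.EllFrob.repDet_eq_cyc hΔ 5, FLTAgent.EllFrob.repDet]
  obtain ⟨hfin, hrank⟩ := finrank_tors hΔ 5
  have e : Affine.Point.galoisRepModuleEnd ℚ (K := Ω) (W.map (Int.castRingHom ℚ)) 5 τ =
      (-1 : ZMod 5) • LinearMap.id := by
    refine LinearMap.ext fun x => ?_
    rw [LinearMap.smul_apply, neg_one_smul]
    exact hτ x
  rw [e, LinearMap.det_smul, LinearMap.det_id, mul_one, hrank]
  exact neg_one_sq

namespace Base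

variable {W : WeierstrassCurve ℤ} (B : Base W)

/-- fixed constants -/
lemma fix_const (hΔ : W.Δ ≠ 0) {τ : Ω ≃ₐ[ℚ] Ω} (hτ : ∀ x : Tors W 5, τ • x = -x) :
    τ B.c.z = B.c.z ∧ τ B.c.g = B.c.g := by
  have h : τ B.c.z = B.c.z := by
    rw [cyc_spec τ B.c.hz.pow_eq_one, cyc_five_of_neg hΔ hτ]
    exact pow_one _
  refine ⟨h, ?_⟩
  rw [Consts.g, map_add, map_pow, h]

lemma coords_fixed (hΔ : W.Δ ≠ 0) {τ : Ω ≃ₐ[ℚ] Ω} (hτ : ∀ x : Tors W 5, τ • x = -x) (i : Idx) :
    (B.family.xs i).map (τ : Ω →+* Ω) = B.family.xs i ∧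
      (B.family.ys i).map (τ : Ω →+* Ω) = -B.family.ys i := by
  have h0H : (famH W).eval 0 = 9 * W.c₄ := (lineH_eval_zero _ _).1
  have h0T : (famT W).eval 0 = 27 * W.c₆ := (lineH_eval_zero _ _).2
  have g0 := B.good 0 W hΔ h0H h0T
  refine B.family.neg_fixed card_idx g0 (τ : Ω →+* Ω) (B.map_sigma τ).1 (B.map_sigma τ).2
    (τ.commutes 0) (fun j => ?_) i
  obtain ⟨hn, hP⟩ := B.family.pt_some (evalRingHom (algebraMap ℚ Ω 0)) (B.family.eval_ne g0) j false
  have e0 : lvlCurve (evalRingHom (algebraMap ℚ Ω 0) B.family.H)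
      (evalRingHom (algebraMap ℚ Ω 0) B.family.T) =
      lvlCurve (9 * (W.c₄ : Ω)) (27 * (W.c₆ : Ω)) := by
    rw [coe_evalRingHom, B.eval_H, B.eval_T, h0H, h0T]; simp [map_ofNat]
  obtain ⟨x, hx⟩ := shortPt_surj hΔ (FLTAgent.EllFrob.pointCongr e0
    (B.family.pt (evalRingHom (algebraMap ℚ Ω 0)) (B.family.eval_ne g0) (some (j, false))))
    (((map_nsmul (FLTAgent.EllFrob.pointCongr e0) 5 _).symm.trans
      (congrArg _ (B.family.five_pt _ _ _))).trans (map_zero _))
  rw [hP, FLTAgent.EllFrob.pointCongr_some] at hx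
  obtain ⟨h', e'⟩ := shortPt_smul_some W τ _ hx
  rw [← coe_smul, hτ x, Submodule.coe_neg, map_neg, hx, Affine.Point.neg_some,
    Affine.Point.some.injEq] at e'
  obtain ⟨a, b⟩ := e'
  refine ⟨a.symm, b.symm.trans ?_⟩
  simp [Affine.negY, lvlCurve, Family.yv]

lemma kf_ne : kf B.uP B.vP ≠ 0 := by
  intro e
  apply B.family.hD
  show ((famH W).map (algebraMap ℚ Ω)) ^ 3 - ((famT W).map (algebraMap ℚ Ω)) ^ 2 = 0
  rw [← B.forms.1, ← B.forms.2, klein_relation, e, zero_pow (by norm_num), mul_zero]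

lemma pow_ten_fixed (hΔ : W.Δ ≠ 0) {τ : Ω ≃ₐ[ℚ] Ω} (hτ : ∀ x : Tors W 5, τ • x = -x) :
    (B.uP ^ 10).map (τ : Ω →+* Ω) = B.uP ^ 10 ∧ (B.vP ^ 10).map (τ : Ω →+* Ω) = B.vP ^ 10 := by
  set t : Polynomial Ω →+* Polynomial Ω := Polynomial.mapRingHom (τ : Ω →+* Ω) with ht
  have hg : τ B.c.g = B.c.g := (B.fix_const hΔ hτ).2
  have hC : t (Polynomial.C B.c.g) = Polynomial.C B.c.g := by
    rw [ht, coe_mapRingHom, map_C]; exact congrArg Polynomial.C hg
  set g := Polynomial.C B.c.g with hgdef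
  set U := B.uP ^ 5 with hU
  set V := B.vP ^ 5 with hV
  have e1 : t (B.family.xs (none, false)) = B.family.xs (none, false) :=
    (B.coords_fixed hΔ hτ (none, false)).1
  have e2 : t (B.family.xs (none, true)) = B.family.xs (none, true) :=
    (B.coords_fixed hΔ hτ (none, true)).1
  have xf : B.family.xs (none, false) = (Polynomial.C (31/5) + Polynomial.C (12/5) * g) * U ^ 2
      + (Polynomial.C (66/5) + Polynomial.C (132/5) * g) * (U * V)
      + (Polynomial.C (19/5) - Polynomial.C (12/5) * g) * V ^ 2 := by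
    show B.c.xR B.uP B.vP (none, false) = _
    simp only [Consts.xR, Consts.par, Consts.scale, xcoef, one_pow, map_one, one_mul,
      Polynomial.algebraMap_eq, hgdef, hU, hV, map_add, map_sub, map_mul]
    ring
  have xt : B.family.xs (none, true) = (Polynomial.C (19/5) - Polynomial.C (12/5) * g) * U ^ 2
      + (-Polynomial.C (66/5) - Polynomial.C (132/5) * g) * (U * V)
      + (Polynomial.C (31/5) + Polynomial.C (12/5) * g) * V ^ 2 := by
    show B.c.xR B.uP B.vP (none, true) = _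
    simp only [Consts.xR, Consts.par, Consts.scale, xcoef, one_pow, map_one, one_mul,
      Polynomial.algebraMap_eq, hgdef, hU, hV, map_add, map_sub, map_mul, map_neg, neg_div]
    ring
  have hq : ∀ n : ℚ, t (Polynomial.C (n : Ω)) = Polynomial.C (n : Ω) := fun n => by
    rw [ht, coe_mapRingHom, map_C, map_ratCast]
  have c1 := hq (31/5); have c2 := hq (12/5); have c3 := hq (66/5); have c4 := hq (132/5)
  have c5 := hq (19/5)
  push_cast at c1 c2 c3 c4 c5
  rw [xf] at e1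
  rw [xt] at e2
  simp only [map_add, map_sub, map_mul, map_pow, map_neg, hC, c1, c2, c3, c4, c5] at e1 e2
  have k1 : (Polynomial.C (31/5 : Ω) + Polynomial.C (19/5)) = Polynomial.C (10 : Ω) := by
    rw [← map_add]; norm_num
  have k0 : (Polynomial.C (31/5 : Ω) - Polynomial.C (19/5)) = Polynomial.C (12/5 : Ω) := by
    rw [← map_sub]; norm_num
  have k3 : Polynomial.C (66/5 : Ω) * 2 = 11 * Polynomial.C (12/5) := by
    rw [show (2 : Polynomial Ω) = Polynomial.C 2 from (map_ofNat _ _).symm,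
      show (11 : Polynomial Ω) = Polynomial.C 11 from (map_ofNat _ _).symm, ← map_mul, ← map_mul]
    norm_num
  have k4 : Polynomial.C (132/5 : Ω) = 11 * Polynomial.C (12/5) := by
    rw [show (11 : Polynomial Ω) = Polynomial.C 11 from (map_ofNat _ _).symm, ← map_mul]
    norm_num
  have hne : Polynomial.C (12/5 : Ω) * (2 * g + 1) ≠ 0 := by
    refine mul_ne_zero (by simp) ?_
    rw [hgdef, show (2 : Polynomial Ω) * Polynomial.C B.c.g + 1 = Polynomial.C (2 * B.c.g + 1) by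
      simp [map_ofNat], Ne, C_eq_zero]
    intro e
    have : (5 : Ω) = 0 := by linear_combination (2 * B.c.g + 1) * e - 4 * B.c.hg
    norm_num at this
  have hQ : t U ^ 2 + 11 * (t U * t V) - t V ^ 2 = U ^ 2 + 11 * (U * V) - V ^ 2 := by
    refine mul_left_cancel₀ hne ?_
    linear_combination e1 - e2 - (t U ^ 2 - t V ^ 2 - U ^ 2 + V ^ 2) * k0
      - (t U * t V - U * V) * k3 - (2 * g * (t U * t V - U * V)) * k4
  have hS : t U ^ 2 + t V ^ 2 = U ^ 2 + V ^ 2 := by
    refine mul_left_cancel₀ (show Polynomial.C (10 : Ω) ≠ 0 by simp) ?_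
    linear_combination e1 + e2 - (t U ^ 2 + t V ^ 2 - U ^ 2 - V ^ 2) * k1
  have hQne : U ^ 2 + 11 * (U * V) - V ^ 2 ≠ 0 := fun e => B.kf_ne (by
    have : kf B.uP B.vP = B.uP * B.vP * (U ^ 2 + 11 * (U * V) - V ^ 2) := by
      simp only [kf, hU, hV]; ring
    rw [this, e, mul_zero])
  have h5 : t (kf B.uP B.vP ^ 5) = kf B.uP B.vP ^ 5 := by
    have hm : t (kH B.uP B.vP ^ 3 - kT B.uP B.vP ^ 2) = kH B.uP B.vP ^ 3 - kT B.uP B.vP ^ 2 := by
      rw [B.forms.1, B.forms.2, map_sub, map_pow, map_pow]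
      have h := B.map_sigma τ
      rw [ht, coe_mapRingHom]
      exact congrArg₂ (fun a b => a ^ 3 - b ^ 2) h.1 h.2
    rw [klein_relation, map_mul, map_neg, map_ofNat] at hm
    exact mul_left_cancel₀ (by norm_num) hm
  have hid : kf B.uP B.vP ^ 5 = U * V * (U ^ 2 + 11 * (U * V) - V ^ 2) ^ 5 := by
    simp only [kf, hU, hV]; ring
  rw [hid] at h5
  simp only [map_mul, map_pow, map_add, map_sub, map_ofNat] at h5
  rw [hQ] at h5
  have hUV : t U * t V = U * V := mul_right_cancel₀ (pow_ne_zero 5 hQne) h5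
  have two : (2 : Polynomial Ω) ≠ 0 := two_ne_zero
  constructor
  · show t (B.uP ^ 10) = _
    have h : t U ^ 2 = U ^ 2 := mul_left_cancel₀ two (by linear_combination hQ + hS - 11 * hUV)
    simp only [hU, map_pow] at h ⊢
    linear_combination h
  · show t (B.vP ^ 10) = _
    have h : t V ^ 2 = V ^ 2 := mul_left_cancel₀ two (by linear_combination hS - hQ + 11 * hUV)
    simp only [hV, map_pow] at h ⊢
    linear_combination h

lemma eval_moved (p : Polynomial Ω) (τ : Ω ≃ₐ[ℚ] Ω) (s : Ω) :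
    (p.map (τ : Ω →+* Ω)).eval (τ s) = τ (p.eval s) := by
  rw [eval_map]
  exact eval₂_at_apply (τ : Ω →+* Ω) s

include B in
/-- the cusp -/
theorem exists_cusp (hΔ : W.Δ ≠ 0) :
    ∃ s c m : Ω, c ≠ 0 ∧ m ^ 2 = -3 * c ∧ aeval s (famH W) = c ^ 2 ∧ aeval s (famT W) = c ^ 3 ∧
      ∀ τ : Ω ≃ₐ[ℚ] Ω, (∀ x : Tors W 5, τ • x = -x) → τ s = s ∧ τ c = c ∧ τ m = -m := by
  have hdet : B.u * (-kfu B.u B.v) - B.v * kfv B.u B.v ≠ 0 := by
    rw [det_line]; exact mul_ne_zero (by norm_num) B.hf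
  have hae : ∀ s, aeval s (famH W) = kH (B.uP.eval s) (B.vP.eval s) ∧
      aeval s (famT W) = kT (B.uP.eval s) (B.vP.eval s) := fun s => by
    simp only [← coe_evalRingHom, ← map_kH, ← map_kT]
    rw [coe_evalRingHom, B.forms.1, B.forms.2, eval_map, eval_map]
    exact ⟨rfl, rfl⟩
  have eu : ∀ s, B.uP.eval s = B.u + s * kfv B.u B.v := fun s => by simp [uP, lineU]; ring
  have ev : ∀ s, B.vP.eval s = B.v - s * kfu B.u B.v := fun s => by
    simp [vP, lineV]; ring
  set ι := B.c.z - B.c.z ^ 4 with hι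
  have hι2 : ι ^ 2 = -(3 + B.c.g) := by
    have h := B.c.hz.geom_sum_eq_zero (by norm_num)
    simp only [Finset.sum_range_succ, Finset.sum_range_zero, pow_zero, pow_one, zero_add] at h
    rw [hι, Consts.g]
    linear_combination h + (B.c.z ^ 3 - 2) * B.c.hz.pow_eq_one
  have h3 : (3 + B.c.g) ≠ 0 := fun e => by
    have : (5 : Ω) = 0 := by linear_combination B.c.hg - (B.c.g - 2) * e
    norm_num at this
  have hι0 : ι ≠ 0 := fun e => h3 (by rw [e] at hι2; linear_combination hι2)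
  have h2g : 12 / 5 * (2 + B.c.g) ≠ 0 := mul_ne_zero (by norm_num) fun e => by
    have : (1 : Ω) = 0 := by linear_combination B.c.hg - (B.c.g - 1) * e
    norm_num at this
  have h53 : (-3 + 5 * B.c.g) ≠ 0 := fun e => by
    have : (1 : Ω) = 0 := by linear_combination (5 * B.c.g + 8) * e - 25 * B.c.hg
    norm_num at this
  have key : ∀ (s w a : Ω), w ≠ 0 →
      aeval s (famH W) = (w ^ 10) ^ 2 → aeval s (famT W) = (w ^ 10) ^ 3 → a ≠ 0 →
      (∀ τ : Ω ≃ₐ[ℚ] Ω, (∀ x : Tors W 5, τ • x = -x) → τ a = a ∧ τ s = s ∧ τ (w ^ 10) = w ^ 10) →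
      (B.family.ys (none, false)).eval s = a * (B.c.e * w ^ 15) →
      ∃ s c m : Ω, c ≠ 0 ∧ m ^ 2 = -3 * c ∧ aeval s (famH W) = c ^ 2 ∧ aeval s (famT W) = c ^ 3 ∧
        ∀ τ : Ω ≃ₐ[ℚ] Ω, (∀ x : Tors W 5, τ • x = -x) → τ s = s ∧ τ c = c ∧ τ m = -m := by
    intro s w a hw hH hT ha hfix hy
    refine ⟨s, w ^ 10, B.c.e * w ^ 5 / ι, pow_ne_zero _ hw, ?_, hH, hT, fun τ hτ => ?_⟩
    · rw [div_pow, mul_pow, B.c.he, hι2, ← Consts.g]
      field_simp
    · obtain ⟨f1, f2, f3⟩ := hfix τ hτ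
      refine ⟨f2, f3, ?_⟩
      have e := eval_moved (B.family.ys (none, false)) τ s
      rw [(B.coords_fixed hΔ hτ (none, false)).2, f2, eval_neg, hy,
        show B.c.e * w ^ 15 = (B.c.e * w ^ 5) * w ^ 10 by ring, map_mul, map_mul τ (B.c.e * w ^ 5),
        f1, f3] at e
      have e' : τ (B.c.e * w ^ 5) = -(B.c.e * w ^ 5) := by
        refine mul_left_cancel₀ (mul_ne_zero ha (pow_ne_zero 10 hw)) ?_
        linear_combination -e
      have hfι : τ ι = ι := by
        rw [hι, map_sub, map_pow, (B.fix_const hΔ hτ).1]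
      rw [map_div₀, e', hfι, neg_div]
  have hfa : ∀ τ : Ω ≃ₐ[ℚ] Ω, (∀ x : Tors W 5, τ • x = -x) →
      τ (12 / 5 * (2 + B.c.g)) = 12 / 5 * (2 + B.c.g) ∧ τ (-3 + 5 * B.c.g) = -3 + 5 * B.c.g := by
    intro τ hτ
    simp [(B.fix_const hΔ hτ).2, map_ofNat]
  have hroot : ∀ (P : Polynomial Ω) (s : Ω) (τ : Ω ≃ₐ[ℚ] Ω),
      (P ^ 10).map (τ : Ω →+* Ω) = P ^ 10 → P.eval s = 0 → P.eval (τ s) = 0 := by
    intro P s τ hP hs
    have := eval_moved (P ^ 10) τ s
    rw [hP, eval_pow, eval_pow, hs, zero_pow (by norm_num), map_zero] at this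
    exact pow_eq_zero_iff (by norm_num) |>.1 this
  by_cases hA : kfv B.u B.v = 0
  · have hB : kfu B.u B.v ≠ 0 := fun e => hdet (by rw [e, hA]; ring)
    set s := B.v / kfu B.u B.v with hs
    have hv : B.vP.eval s = 0 := by rw [ev, hs]; field_simp; ring
    have hu : B.uP.eval s ≠ 0 := by rw [eu, hA, mul_zero, add_zero]; exact B.hu
    refine key s (B.uP.eval s) (12 / 5 * (2 + B.c.g)) hu ?_ ?_ h2g (fun τ hτ => ?_) ?_
    · rw [(hae s).1, hv]; simp only [kH]; ring
    · rw [(hae s).2, hv]; simp only [kT]; ring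
    · have hp := B.pow_ten_fixed hΔ hτ
      have h1 := hroot _ s τ hp.2 hv
      rw [ev] at h1
      have hts : τ s = s := by
        rw [hs, eq_div_iff hB]
        rw [hs] at h1
        linear_combination -h1
      refine ⟨(hfa τ hτ).1, hts, ?_⟩
      have := eval_moved (B.uP ^ 10) τ s
      rwa [hp.1, hts, eval_pow, eq_comm] at this
    · show (B.c.yR B.uP B.vP (none, false)).eval s = _
      simp [Consts.yR, Consts.par, Consts.scale, ycoef, wConst, hv, Polynomial.algebraMap_eq]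
      ring
  · set s := -B.u / kfv B.u B.v with hs
    have hu : B.uP.eval s = 0 := by rw [eu, hs]; field_simp; ring
    have hv : B.vP.eval s ≠ 0 := by
      rw [ev, hs]
      intro e
      apply hdet
      field_simp at e
      linear_combination -e
    refine key s (B.vP.eval s) (12 / 5 * (2 + B.c.g) * (-3 + 5 * B.c.g)) hv ?_ ?_
      (mul_ne_zero h2g h53) (fun τ hτ => ?_) ?_
    · rw [(hae s).1, hu]; simp only [kH]; ring
    · rw [(hae s).2, hu]; simp only [kT]; ring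
    · have hp := B.pow_ten_fixed hΔ hτ
      have h1 := hroot _ s τ hp.1 hu
      rw [eu] at h1
      have hts : τ s = s := by
        rw [hs, eq_div_iff hA]
        rw [hs] at h1
        linear_combination h1
      refine ⟨by rw [map_mul, (hfa τ hτ).1, (hfa τ hτ).2], hts, ?_⟩
      have := eval_moved (B.vP ^ 10) τ s
      rwa [hp.2, hts, eval_pow, eq_comm] at this
    · show (B.c.yR B.uP B.vP (none, false)).eval s = _
      simp [Consts.yR, Consts.par, Consts.scale, ycoef, wConst, hu, Polynomial.algebraMap_eq]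
      ring

end Base

end FLTAgent.S52
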