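import Fermat.Agent.S52.Pts
import Mathlib.Algebra.Polynomial.Roots
import Mathlib.Data.Set.Finite.Basic

set_option autoImplicit false
set_option linter.all false

/-!
The twelve x-coordinates are distinct along the canonical line.
-/

noncomputable section

namespace FLTAgent.S52

open Polynomial

variable {F : Type*} [Field F] [CharZero F]

lemma Consts.map_id (c : Consts F) (ψ : F →+* F) (h : ∀ x, ψ x = x) : c.map ψ = c := by
  cases c
  simp only [Consts.map, h]

lemma eval_xR (c : Consts F) (U V : F[X]) (t : F) (i : Idx) :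
    (c.xR U V i).eval t = c.xR (U.eval t) (V.eval t) i := by
  rw [← coe_evalRingHom, c.map_xR (evalRingHom t), c.map_id]
  intro x; simp

lemma eval_yR (c : Consts F) (U V : F[X]) (t : F) (i : Idx) :
    (c.yR U V i).eval t = c.yR (U.eval t) (V.eval t) i := by
  rw [← coe_evalRingHom, c.map_yR (evalRingHom t), c.map_id]
  intro x; simp

lemma xR_homog (c : Consts F) (a z : F) (i : Idx) :
    c.xR a (a * z) i = a ^ 10 * c.xR (1 : F) z i := by
  obtain ⟨i, b⟩ := i
  rcases i with _ | j <;>
    simp only [Consts.xR, Consts.par, Algebra.algebraMap_self, RingHom.id_apply] <;> ring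

/-- coefficient tags separating the twelve polynomials -/
theorem xR_std_injective (c : Consts F) :
    Function.Injective (fun i : Idx => c.xR (Polynomial.C 1 : F[X]) (X : F[X]) i) := by
  have hz5 : c.z ^ 5 = 1 := c.hz.pow_eq_one
  have hz0 : c.z ≠ 0 := c.hz.ne_zero (by norm_num)
  have hg := c.hg
  have hsome : ∀ (j : Fin 5) (b : Bool), c.xR (Polynomial.C 1 : F[X]) X (some j, b)
      = (c.phi b).comp (Polynomial.C ((c.z ^ (j : ℕ))⁻¹) * X) := by
    intro j b
    set a := c.z ^ (j : ℕ) with ha
    have ha5 : (Polynomial.C a : F[X]) ^ 5 = 1 := by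
      rw [← map_pow, ha, ← pow_mul, mul_comm, pow_mul, hz5, one_pow, map_one]
    have hai : (Polynomial.C a : F[X]) * Polynomial.C a⁻¹ = 1 := by
      rw [← map_mul, mul_inv_cancel₀ (pow_ne_zero _ hz0), map_one]
    have e1 : Polynomial.C c.g * (Polynomial.C a * 1) + X
        = Polynomial.C a * (Polynomial.C c.g + Polynomial.C a⁻¹ * X) := by
      linear_combination (-X) * hai
    have e2 : Polynomial.C a * 1 - Polynomial.C c.g * X
        = Polynomial.C a * (1 - Polynomial.C c.g * (Polynomial.C a⁻¹ * X)) := by
      linear_combination (Polynomial.C c.g * X) * hai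
    simp only [phi_eq, Consts.xR, Consts.par, Consts.scale, Polynomial.algebraMap_eq, map_one,
      map_neg, ← ha, e1, e2, mul_pow (Polynomial.C a), ha5, one_mul, mul_comp, add_comp, pow_comp,
      C_comp, X_comp, neg_mul, sub_eq_add_neg, neg_comp, one_comp]
  have c0some : ∀ j b, (c.xR (Polynomial.C 1 : F[X]) X (some j, b)).coeff 0 = -1 := by
    intro j b
    rw [hsome, comp_C_mul_X_coeff, pow_zero, mul_one]
    cases b
    exacts [(phi_coeff_false c).1, (phi_coeff_true c).1]
  have c0none : ∀ b, (c.xR (Polynomial.C 1 : F[X]) X (none, b)).coeff 0 = (xcoef c.g b).1 := by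
    intro b
    rw [Polynomial.coeff_zero_eq_eval_zero, eval_xR]
    simp [Consts.xR, Consts.par, Consts.scale]
  have hne : ∀ b, (xcoef c.g b).1 ≠ -1 := by
    intro b e
    cases b <;> simp only [xcoef] at e
    · have : (5 : F) = 0 := by
        linear_combination hg - (c.g - 2) * (5 / 12 : F) * e
      norm_num at this
    · have : (5 : F) = 0 := by
        linear_combination hg + (c.g + 3) * (5 / 12 : F) * e
      norm_num at this
  rintro ⟨i, b⟩ ⟨i', b'⟩ h
  simp only at h
  have h0 := congrArg (fun p => Polynomial.coeff p 0) h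
  rcases i with _ | j <;> rcases i' with _ | j'
  · simp only [c0none] at h0
    cases b <;> cases b' <;> try rfl
    all_goals
      exfalso
      simp only [xcoef] at h0
      have h1 : (2 * c.g + 1) * (12 / 5 : F) = 0 := by
        first
          | linear_combination h0
          | linear_combination -h0
      have h2 : 2 * c.g + 1 = 0 := (mul_eq_zero.1 h1).resolve_right (by norm_num)
      have : (5 : F) = 0 := by linear_combination (2 * c.g + 1) * h2 - 4 * hg
      norm_num at this
  · simp only [c0none, c0some] at h0; exact absurd h0 (hne b)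
  · simp only [c0none, c0some] at h0; exact absurd h0.symm (hne b')
  · have key : ∀ n, (c.phi b).coeff n * ((c.z ^ (j : ℕ))⁻¹) ^ n
        = (c.phi b').coeff n * ((c.z ^ (j' : ℕ))⁻¹) ^ n := fun n => by
      rw [← comp_C_mul_X_coeff, ← comp_C_mul_X_coeff, ← hsome, ← hsome, h]
    have k1 := key 1
    have k2 := key 2
    have inj : ∀ m, (m = 1 ∨ m = 2) → (c.z ^ (j : ℕ)) ^ m = (c.z ^ (j' : ℕ)) ^ m → j = j' := by
      intro m hm e
      rw [← pow_mul, ← pow_mul] at e
      rw [pow_eq_pow_mod _ hz5, pow_eq_pow_mod (↑j' * m) hz5] at e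
      have := c.hz.pow_inj (Nat.mod_lt _ (by norm_num)) (Nat.mod_lt _ (by norm_num)) e
      apply Fin.ext
      have h1 := j.isLt
      have h2 := j'.isLt
      rcases hm with rfl | rfl <;> omega
    cases b <;> cases b'
    · rw [(phi_coeff_false c).2.2] at k2
      rw [mul_right_inj' (by norm_num), inv_pow, inv_pow, inv_inj] at k2
      rw [inj 2 (Or.inr rfl) k2]
    · rw [(phi_coeff_false c).2.1, (phi_coeff_true c).2.1] at k1
      simp [hz0] at k1
    · rw [(phi_coeff_false c).2.1, (phi_coeff_true c).2.1] at k1
      simp [hz0] at k1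
    · rw [(phi_coeff_true c).2.1, mul_right_inj' (by norm_num), inv_pow, inv_pow, inv_inj] at k1
      rw [inj 1 (Or.inl rfl) k1]

/-- along a line not through the origin the x-coordinates stay distinct -/
theorem xR_line_injective (c : Consts F) {u v a b : F} (hu : u ≠ 0) (hdet : u * b - v * a ≠ 0) :
    Function.Injective (fun i : Idx =>
      c.xR (Polynomial.C u + X * Polynomial.C a) (Polynomial.C v + X * Polynomial.C b) i) := by
  intro i i' h
  apply xR_std_injective c
  simp only at h ⊢
  rw [← sub_eq_zero]
  apply eq_zero_of_infinite_isRoot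
  haveI : Infinite F := Infinite.of_injective (fun n : ℕ => (n : F)) Nat.cast_injective
  let ζf : F → F := fun t => (v + t * b) / (u + t * a)
  have hfin : {t : F | u + t * a = 0}.Finite := by
    refine Set.Subsingleton.finite fun s hs t ht => ?_
    simp only [Set.mem_setOf_eq] at hs ht
    have : (s - t) * a = 0 := by linear_combination hs - ht
    rcases mul_eq_zero.1 this with e | e
    · exact sub_eq_zero.1 e
    · rw [e, mul_zero, add_zero] at hs; exact absurd hs hu
  have hinj : Set.InjOn ζf {t : F | u + t * a = 0}ᶜ := by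
    intro s hs t ht e
    simp only [Set.mem_compl_iff, Set.mem_setOf_eq] at hs ht
    simp only [ζf, div_eq_div_iff hs ht] at e
    have : (s - t) * (u * b - v * a) = 0 := by linear_combination e
    exact sub_eq_zero.1 ((mul_eq_zero.1 this).resolve_right hdet)
  refine (hfin.infinite_compl.image hinj).mono ?_
  rintro _ ⟨t, ht, rfl⟩
  simp only [Set.mem_compl_iff, Set.mem_setOf_eq] at ht
  have ht' := congrArg (Polynomial.eval t) h
  simp only [eval_xR, eval_add, eval_mul, eval_C, eval_X] at ht'
  rw [show v + t * b = (u + t * a) * ζf t by simp only [ζf]; field_simp, xR_homog, xR_homog,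
    mul_right_inj' (pow_ne_zero _ ht)] at ht'
  simp only [Set.mem_setOf_eq, IsRoot, eval_sub, eval_xR, eval_C, eval_X, ht', sub_self]

end FLTAgent.S52
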