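import Fermat.Agent.S52.Klein
import Mathlib.Algebra.CharZero.Defs
import Mathlib.Tactic.FieldSimp

set_option autoImplicit false
set_option linter.all false

/-!
The universal point of order five over the icosahedral family.
-/

noncomputable section

namespace FLTAgent.S52

variable {K : Type*} [Field K]

/-- degree 4 in `U, V` -/
def formH (U V : K) : K := U ^ 4 - 228 * U ^ 3 * V + 494 * U ^ 2 * V ^ 2 + 228 * U * V ^ 3 + V ^ 4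

/-- degree 6 in `U, V` -/
def formT (U V : K) : K :=
  U ^ 6 + 522 * U ^ 5 * V - 10005 * U ^ 4 * V ^ 2 - 10005 * U ^ 2 * V ^ 4 - 522 * U * V ^ 5 + V ^ 6

lemma kH_eq (u v : K) : kH u v = formH (u ^ 5) (v ^ 5) := by simp only [kH, formH]; ring

lemma kT_eq (u v : K) : kT u v = formT (u ^ 5) (v ^ 5) := by simp only [kT, formT]; ring

/-- the square of the y-scaling -/
def wSq (g : K) : K := 7776 / 25 + 4752 / 25 * g

/-- x-coordinate of the point -/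
def X1 (g U V : K) : K :=
  ((31/5) + (12/5) * g) * U ^ 2 + ((66/5) + (132/5) * g) * U * V + ((19/5) + (-12/5) * g) * V ^ 2

/-- x-coordinate of the double -/
def X2 (g U V : K) : K :=
  ((19/5) + (-12/5) * g) * U ^ 2 + ((-66/5) + (-132/5) * g) * U * V + ((31/5) + (12/5) * g) * V ^ 2

/-- scaled y-coordinate of the point -/
def Y1 (g U V : K) : K :=
  ((1) + (0) * g) * U ^ 3 + ((14) + (-5) * g) * U ^ 2 * V + ((32) + (-55) * g) * U * V ^ 2 + ((-3) + (5) * g) * V ^ 3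

/-- scaled y-coordinate of the double -/
def Y2 (g U V : K) : K :=
  ((-3) + (5) * g) * U ^ 3 + ((-32) + (55) * g) * U ^ 2 * V + ((14) + (-5) * g) * U * V ^ 2 + ((-1) + (0) * g) * V ^ 3

/-- scaled slope at the point -/
def L1 (g U V : K) : K :=
  ((2/3) + (-3/4) * g) * U + ((-1/2) + (13/12) * g) * V

/-- scaled slope at the double -/
def L2 (g U V : K) : K :=
  ((-1/2) + (13/12) * g) * U + ((-2/3) + (3/4) * g) * V

lemma point_equation [CharZero K] {g : K} (hg : g ^ 2 + g - 1 = 0) (U V : K) :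
    X1 g U V ^ 3 - 3 * formH U V * X1 g U V - 2 * formT U V = wSq g * Y1 g U V ^ 2 := by
  simp only [formH, formT, wSq, X1, X2, Y1, Y2, L1, L2]
  linear_combination (((344736/125)*V^6 + (-595728/125)*V^6*g + (-7337088/125)*U*V^5 + (13125024/125)*U*V^5*g + (7119792/25)*U^2*V^4 + (-14261616/25)*U^2*V^4*g + (7346592/25)*U^3*V^3 + (-2176416/25)*U^3*V^3*g + (1433808/25)*U^4*V^2 + (5616/25)*U^4*V^2*g + (503712/125)*U^5*V + (57024/125)*U^5*V*g + (11664/125)*U^6 + (1728/125)*U^6*g)) * hg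

lemma point_slope [CharZero K] {g : K} (hg : g ^ 2 + g - 1 = 0) (U V : K) :
    3 * X1 g U V ^ 2 - 3 * formH U V = 2 * wSq g * Y1 g U V * L1 g U V := by
  simp only [formH, formT, wSq, X1, X2, Y1, Y2, L1, L2]
  linear_combination (((4464/5)*V^4 + (-10296/5)*V^4*g + (-54072/5)*U*V^3 + (120384/5)*U*V^3*g + (48672/5)*U^2*V^2 + (-68112/5)*U^2*V^2*g + (4320)*U^3*V + (-7128/5)*U^3*V*g + (1512/5)*U^4)) * hg

lemma point_double_x [CharZero K] {g : K} (hg : g ^ 2 + g - 1 = 0) (U V : K) :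
    wSq g * L1 g U V ^ 2 = 2 * X1 g U V + X2 g U V := by
  simp only [formH, formT, wSq, X1, X2, Y1, Y2, L1, L2]
  linear_combination (((-1599/25)*V^2 + (5577/25)*V^2*g + (5514/25)*U*V + (-7722/25)*U*V*g + (-3051/25)*U^2 + (2673/25)*U^2*g)) * hg

lemma point_double_y [CharZero K] {g : K} (hg : g ^ 2 + g - 1 = 0) (U V : K) :
    -(Y1 g U V + L1 g U V * (X2 g U V - X1 g U V)) = Y2 g U V := by
  simp only [formH, formT, wSq, X1, X2, Y1, Y2, L1, L2]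
  linear_combination (((-26/5)*V^3 + (304/5)*U*V^2 + (-172/5)*U^2*V + (-18/5)*U^3)) * hg

lemma double_slope [CharZero K] {g : K} (hg : g ^ 2 + g - 1 = 0) (U V : K) :
    3 * X2 g U V ^ 2 - 3 * formH U V = 2 * wSq g * Y2 g U V * L2 g U V := by
  simp only [formH, formT, wSq, X1, X2, Y1, Y2, L1, L2]
  linear_combination (((1512/5)*V^4 + (-4320)*U*V^3 + (7128/5)*U*V^3*g + (48672/5)*U^2*V^2 + (-68112/5)*U^2*V^2*g + (54072/5)*U^3*V + (-120384/5)*U^3*V*g + (4464/5)*U^4 + (-10296/5)*U^4*g)) * hg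

lemma double_double_x [CharZero K] {g : K} (hg : g ^ 2 + g - 1 = 0) (U V : K) :
    wSq g * L2 g U V ^ 2 = 2 * X2 g U V + X1 g U V := by
  simp only [formH, formT, wSq, X1, X2, Y1, Y2, L1, L2]
  linear_combination (((-3051/25)*V^2 + (2673/25)*V^2*g + (-5514/25)*U*V + (7722/25)*U*V*g + (-1599/25)*U^2 + (5577/25)*U^2*g)) * hg

lemma X2_sub_X1 [CharZero K] (g U V : K) :
    X2 g U V - X1 g U V = -12 / 5 * (2 * g + 1) * (U ^ 2 + 11 * U * V - V ^ 2) := by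
  simp only [formH, formT, wSq, X1, X2, Y1, Y2, L1, L2]
  ring

lemma wSq_eq [CharZero K] {g : K} (hg : g ^ 2 + g - 1 = 0) :
    wSq g = 3 * (3 + g) * (12 / 5 * (2 + g)) ^ 2 := by
  simp only [wSq]
  linear_combination (((-2592/25) + (-432/25)*g)) * hg

lemma kf_subst {S : Type*} [CommRing S] {g : S} (hg : g ^ 2 + g - 1 = 0) (u v : S) :
    kf (g * u + v) (u - g * v) = (g - 2) ^ 6 * kf u v := by
  simp only [kf]
  linear_combination (((1)*v^12*g + (1)*v^12*g^2 + (2)*v^12*g^3 + (3)*v^12*g^4 + (5)*v^12*g^5 + (-3)*v^12*g^6 + (2)*v^12*g^7 + (-1)*v^12*g^8 + (1)*v^12*g^9 + (-65)*u*v^11 + (127)*u*v^11*g + (-167)*u*v^11*g^2 + (120)*u*v^11*g^3 + (-107)*u*v^11*g^4 + (91)*u*v^11*g^5 + (-17)*u*v^11*g^6 + (8)*u*v^11*g^7 + (-9)*u*v^11*g^8 + (-1)*u*v^11*g^9 + (1)*u*v^11*g^10 + (-11)*u^2*v^10*g + (-11)*u^2*v^10*g^2 + (33)*u^2*v^10*g^3 + (-143)*u^2*v^10*g^4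 + (-110)*u^2*v^10*g^5 + (143)*u^2*v^10*g^6 + (33)*u^2*v^10*g^7 + (11)*u^2*v^10*g^8 + (-11)*u^2*v^10*g^9 + (-55)*u^3*v^9*g^2 + (165)*u^3*v^9*g^3 + (275)*u^3*v^9*g^4 + (-550)*u^3*v^9*g^5 + (-275)*u^3*v^9*g^6 + (165)*u^3*v^9*g^7 + (55)*u^3*v^9*g^8 + (-165)*u^4*v^8*g^2 + (-330)*u^4*v^8*g^3 + (825)*u^4*v^8*g^4 + (825)*u^4*v^8*g^5 + (-825)*u^4*v^8*g^6 + (-330)*u^4*v^8*g^7 + (165)*u^4*v^8*g^8 + (66)*u^5*v^7*g + (66)*u^5*v^7*g^2 + (-858)*u^5*v^7*g^3 + (-1122)*u^5*v^7*g^4 + (1320)*u^5*v^7*g^5 + (1122)*u^5*v^7*g^6 + (-858)*u^5*v^7*g^7 + (-66)*u^5*v^7*g^8 + (66)*u^5*v^7*g^9 + (693)*u^6*v^6 + (-1419)*u^6*v^6*g + (2310)*u^6*v^6*g^2 + (-869)*u^6*v^6*g^3 + (-374)*u^6*v^6*g^4 + (-2299)*u^6*v^6*g^5 + (1738)*u^6*v^6*g^6 + (363)*u^6*v^6*g^7 + (-374)*u^6*v^6*g^8 + (-11)*u^6*v^6*g^9 + (11)*u^6*v^6*g^10 + (-66)*u^7*v^5*g + (-66)*u^7*v^5*g^2 + (858)*u^7*v^5*g^3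 + (1122)*u^7*v^5*g^4 + (-1320)*u^7*v^5*g^5 + (-1122)*u^7*v^5*g^6 + (858)*u^7*v^5*g^7 + (66)*u^7*v^5*g^8 + (-66)*u^7*v^5*g^9 + (-165)*u^8*v^4*g^2 + (-330)*u^8*v^4*g^3 + (825)*u^8*v^4*g^4 + (825)*u^8*v^4*g^5 + (-825)*u^8*v^4*g^6 + (-330)*u^8*v^4*g^7 + (165)*u^8*v^4*g^8 + (55)*u^9*v^3*g^2 + (-165)*u^9*v^3*g^3 + (-275)*u^9*v^3*g^4 + (550)*u^9*v^3*g^5 + (275)*u^9*v^3*g^6 + (-165)*u^9*v^3*g^7 + (-55)*u^9*v^3*g^8 + (-11)*u^10*v^2*g + (-11)*u^10*v^2*g^2 + (33)*u^10*v^2*g^3 + (-143)*u^10*v^2*g^4 + (-110)*u^10*v^2*g^5 + (143)*u^10*v^2*g^6 + (33)*u^10*v^2*g^7 + (11)*u^10*v^2*g^8 + (-11)*u^10*v^2*g^9 + (65)*u^11*v + (-127)*u^11*v*g + (167)*u^11*v*g^2 + (-120)*u^11*v*g^3 + (107)*u^11*v*g^4 + (-91)*u^11*v*g^5 + (17)*u^11*v*g^6 + (-8)*u^11*v*g^7 + (9)*u^11*v*g^8 + (1)*u^11*v*g^9 + (-1)*u^11*v*g^10 + (1)*u^12*g + (1)*u^12*g^2 + (2)*u^12*g^3 + (3)*u^12*g^4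 + (5)*u^12*g^5 + (-3)*u^12*g^6 + (2)*u^12*g^7 + (-1)*u^12*g^8 + (1)*u^12*g^9)) * hg

end FLTAgent.S52
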