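import Fermat.Agent.S52.KleinLine

set_option autoImplicit false
set_option linter.all false

/-!
Covariance of Klein's forms.
-/

noncomputable section

namespace FLTAgent.S52

open Polynomial

variable {R : Type*} [CommRing R]

lemma kH_covariant (x y A B : R) :
    kH x y * (121 * (x * B - y * A) ^ 2) =
      121 * (A * kfu x y + B * kfv x y) ^ 2 - 132 * kf x y *
        (A ^ 2 * (110 * x ^ 9 * y + 330 * x ^ 4 * y ^ 6)
          + 2 * A * B * (11 * x ^ 10 + 396 * x ^ 5 * y ^ 5 - 11 * y ^ 10)
          + B ^ 2 * (330 * x ^ 6 * y ^ 4 - 110 * x * y ^ 9)) := by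
  simp only [kH, kfu, kfv, kf]; ring

lemma kT_covariant (x y A B : R) :
    kT x y * (-20 * (x * B - y * A)) =
      12 * kf x y *
        (A * (20 * x ^ 19 - 3420 * x ^ 14 * y ^ 5 + 4940 * x ^ 9 * y ^ 10 + 1140 * x ^ 4 * y ^ 15)
          + B * (-1140 * x ^ 15 * y ^ 4 + 4940 * x ^ 10 * y ^ 9 + 3420 * x ^ 5 * y ^ 14
            + 20 * y ^ 19))
      - 20 * (A * kfu x y + B * kfv x y) * kH x y := by
  simp only [kT, kH, kfu, kfv, kf]; ring

variable {R : Type*} [CommRing R]

lemma deriv_kf (x y : R[X]) :
    derivative (kf x y) = kfu x y * derivative x + kfv x y * derivative y := by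
  simp [kf, kfu, kfv, derivative_mul, derivative_pow, Polynomial.C_ofNat, map_ofNat]; ring

lemma deriv_kfu (x y : R[X]) :
    derivative (kfu x y) = (110 * x ^ 9 * y + 330 * x ^ 4 * y ^ 6) * derivative x
      + (11 * x ^ 10 + 396 * x ^ 5 * y ^ 5 - 11 * y ^ 10) * derivative y := by
  simp [kfu, derivative_mul, derivative_pow, Polynomial.C_ofNat, map_ofNat]; ring

lemma deriv_kfv (x y : R[X]) :
    derivative (kfv x y) = (11 * x ^ 10 + 396 * x ^ 5 * y ^ 5 - 11 * y ^ 10) * derivative x
      + (330 * x ^ 6 * y ^ 4 - 110 * x * y ^ 9) * derivative y := by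
  simp [kfv, derivative_mul, derivative_pow, Polynomial.C_ofNat, map_ofNat]; ring

lemma deriv_kH (x y : R[X]) :
    derivative (kH x y) =
      (20 * x ^ 19 - 3420 * x ^ 14 * y ^ 5 + 4940 * x ^ 9 * y ^ 10 + 1140 * x ^ 4 * y ^ 15)
          * derivative x
        + (-1140 * x ^ 15 * y ^ 4 + 4940 * x ^ 10 * y ^ 9 + 3420 * x ^ 5 * y ^ 14
            + 20 * y ^ 19) * derivative y := by
  simp [kH, derivative_mul, derivative_pow, Polynomial.C_ofNat, map_ofNat]; ring

/-- `f` restricted to a line determines `H` on it -/
lemma kH_line (u v a b : R) :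
    kH (C u + X * C a) (C v + X * C b) * C (121 * (u * b - v * a) ^ 2)
      = 121 * derivative (kf (C u + X * C a) (C v + X * C b)) ^ 2
        - 132 * kf (C u + X * C a) (C v + X * C b)
          * derivative (derivative (kf (C u + X * C a) (C v + X * C b))) := by
  set x := C u + X * C a with hx
  set y := C v + X * C b with hy
  have dx : derivative x = C a := by simp [hx]
  have dy : derivative y = C b := by simp [hy]
  have hdet : x * C b - y * C a = C (u * b - v * a) := by simp [hx, hy]; ring
  have h := kH_covariant x y (C a) (C b)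
  rw [hdet] at h
  rw [deriv_kf, dx, dy, map_add derivative, derivative_mul, derivative_mul, deriv_kfu, deriv_kfv,
    derivative_C, derivative_C, dx, dy, mul_zero, mul_zero, add_zero, add_zero, map_mul, map_pow,
    map_ofNat]
  linear_combination h

/-- `f` and `H` restricted to a line determine `T` on it -/
lemma kT_line (u v a b : R) :
    kT (C u + X * C a) (C v + X * C b) * C (-20 * (u * b - v * a))
      = 12 * kf (C u + X * C a) (C v + X * C b)
          * derivative (kH (C u + X * C a) (C v + X * C b))
        - 20 * derivative (kf (C u + X * C a) (C v + X * C b))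
          * kH (C u + X * C a) (C v + X * C b) := by
  set x := C u + X * C a with hx
  set y := C v + X * C b with hy
  have dx : derivative x = C a := by simp [hx]
  have dy : derivative y = C b := by simp [hy]
  have hdet : x * C b - y * C a = C (u * b - v * a) := by simp [hx, hy]; ring
  have h := kT_covariant x y (C a) (C b)
  rw [hdet] at h
  rw [deriv_kf, deriv_kH, dx, dy, map_mul, map_neg, map_ofNat]
  linear_combination h

end FLTAgent.S52
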