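import Mathlib.Tactic.Ring
import Mathlib.Tactic.LinearCombination
import Mathlib.Algebra.Polynomial.Derivative

set_option autoImplicit false
set_option linter.all false

/-!
Klein's icosahedral forms and the line through a point of the family.
-/

namespace FLTAgent.S52

variable {R : Type*} [CommRing R]

/-- Klein's form of degree 12 -/
def kf (u v : R) : R := u * v * (u ^ 10 + 11 * u ^ 5 * v ^ 5 - v ^ 10)

/-- ∂f/∂u -/
def kfu (u v : R) : R := 11 * u ^ 10 * v + 66 * u ^ 5 * v ^ 6 - v ^ 11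

/-- ∂f/∂v -/
def kfv (u v : R) : R := u ^ 11 + 66 * u ^ 6 * v ^ 5 - 11 * u * v ^ 10

/-- the form of degree 20 -/
def kH (u v : R) : R :=
  u ^ 20 - 228 * u ^ 15 * v ^ 5 + 494 * u ^ 10 * v ^ 10 + 228 * u ^ 5 * v ^ 15 + v ^ 20

/-- the form of degree 30 -/
def kT (u v : R) : R :=
  u ^ 30 + 522 * u ^ 25 * v ^ 5 - 10005 * u ^ 20 * v ^ 10 - 10005 * u ^ 10 * v ^ 20
    - 522 * u ^ 5 * v ^ 25 + v ^ 30

theorem klein_relation (u v : R) : kH u v ^ 3 - kT u v ^ 2 = -1728 * kf u v ^ 5 := by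
  simp only [kH, kT, kf]; ring

/-- the universal polynomial of `f` on the canonical line -/
def lineF (h t s : R) : R :=
  1 - 66 * h * s ^ 2 - 440 * t * s ^ 3 - 1485 * h ^ 2 * s ^ 4 - 3168 * h * t * s ^ 5
    + (-10560 * t ^ 2 + 5940 * h ^ 3) * s ^ 6 - 4752 * h ^ 2 * t * s ^ 7
    + (63360 * h * t ^ 2 - 66825 * h ^ 4) * s ^ 8
    + (140800 * t ^ 3 - 142560 * h ^ 3 * t) * s ^ 9
    + (133056 * h ^ 2 * t ^ 2 - 133650 * h ^ 5) * s ^ 10
    + (61440 * h * t ^ 3 - 61560 * h ^ 4 * t) * s ^ 11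
    + (102400 * t ^ 4 - 193536 * h ^ 3 * t ^ 2 + 91125 * h ^ 6) * s ^ 12

theorem kf_line (u v s : R) :
    kf (u + s * kfv u v) (v - s * kfu u v) = kf u v * lineF (kH u v) (kT u v) s := by
  simp only [kf, kfu, kfv, kH, kT, lineF]; ring

end FLTAgent.S52
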