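import Fermat.Agent.S52.Forms
import Mathlib.AlgebraicGeometry.EllipticCurve.Affine.Point

set_option autoImplicit false
set_option linter.all false

/-!
Points of order five on the icosahedral family.
-/

noncomputable section

namespace FLTAgent.S52

open WeierstrassCurve

variable {K : Type*} [Field K]

/-- `y² = x³ - 3 h x - 2 t` -/
def lvlCurve (h t : K) : WeierstrassCurve K :=
  { a₁ := 0, a₂ := 0, a₃ := 0, a₄ := -3 * h, a₆ := -2 * t }

lemma lvlCurve_Δ (h t : K) : (lvlCurve h t).Δ = 1728 * (h ^ 3 - t ^ 2) := by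
  simp [lvlCurve, WeierstrassCurve.Δ, b₂, b₄, b₆, b₈]; ring

lemma lvlCurve_Δ_klein (κ u v : K) :
    (lvlCurve (κ ^ 4 * kH u v) (κ ^ 6 * kT u v)).Δ = -(1728 ^ 2 * κ ^ 12 * kf u v ^ 5) := by
  rw [lvlCurve_Δ]
  linear_combination (1728 * κ ^ 12) * klein_relation u v

/-- the constant scaling y-coordinates -/
def wConst (g e : K) : K := e * (12 / 5 * (2 + g))

lemma wConst_sq [CharZero K] {g e : K} (hg : g ^ 2 + g - 1 = 0) (he : e ^ 2 = 3 * (3 + g)) :
    wConst g e ^ 2 = wSq g := by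
  rw [wSq_eq hg, wConst, mul_pow, he]

lemma lvlCurve_equation {h t x y : K} :
    (lvlCurve h t).toAffine.Equation x y ↔ y ^ 2 = x ^ 3 - 3 * h * x - 2 * t := by
  rw [Affine.equation_iff]
  simp [lvlCurve]
  constructor <;> intro e <;> linear_combination e

variable [DecidableEq K]

lemma double_of_slope [CharZero K] {h t x y l x' y' : K} (hΔ : (lvlCurve h t).Δ ≠ 0)
    (hn : (lvlCurve h t).toAffine.Nonsingular x y) (hs : 3 * x ^ 2 - 3 * h = 2 * y * l)
    (hx' : l ^ 2 = 2 * x + x') (hy' : -(y + l * (x' - x)) = y') :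
    ∃ hn' : (lvlCurve h t).toAffine.Nonsingular x' y',
      Affine.Point.some x y hn + Affine.Point.some x y hn = Affine.Point.some x' y' hn' ∧ y ≠ 0 := by
  have hneg : (lvlCurve h t).toAffine.negY x y = -y := by simp [lvlCurve, Affine.negY]
  have hy : y ≠ 0 := by
    intro hy
    apply hΔ
    have he := lvlCurve_equation.1 hn.1
    subst hy
    have hxh : h = x ^ 2 := by linear_combination (-1 / 3 : K) * hs
    have htx : t = -x ^ 3 := by linear_combination (1 / 2 : K) * he + (-3 / 2 * x : K) * hxh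
    rw [lvlCurve_Δ, hxh, htx]; ring
  have hne : y ≠ (lvlCurve h t).toAffine.negY x y := by
    rw [hneg]; intro e; exact hy (by linear_combination (1 / 2 : K) * e)
  have hsl : (lvlCurve h t).toAffine.slope x x y y = l := by
    rw [Affine.slope_of_Y_ne rfl hne, hneg, div_eq_iff (by
      intro e; exact hy (by linear_combination (1 / 2 : K) * e))]
    simp [lvlCurve]
    linear_combination hs
  have hX : (lvlCurve h t).toAffine.addX x x ((lvlCurve h t).toAffine.slope x x y y) = x' := by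
    rw [hsl]; simp [Affine.addX, lvlCurve]; linear_combination hx'
  have hY : (lvlCurve h t).toAffine.addY x x y ((lvlCurve h t).toAffine.slope x x y y) = y' := by
    rw [Affine.addY, Affine.negAddY, hX, hsl]; simp [Affine.negY, lvlCurve]
    linear_combination hy'
  have hsum := Affine.Point.add_self_of_Y_ne (h₁ := hn) hne
  refine ⟨?_, ?_, hy⟩
  · have := Affine.nonsingular_add hn hn (fun ⟨_, e⟩ => hne e)
    rwa [hX, hY] at this
  · rw [hsum]
    simp only [Affine.Point.some.injEq]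
    exact ⟨hX, hY⟩

/-- the point of order five -/
theorem exists_point_five [CharZero K] {g e κ u v : K} (hg : g ^ 2 + g - 1 = 0)
    (he : e ^ 2 = 3 * (3 + g)) (hκ : κ ≠ 0) (hf : kf u v ≠ 0) :
    ∃ (h1 : (lvlCurve (κ ^ 4 * kH u v) (κ ^ 6 * kT u v)).toAffine.Nonsingular
          (κ ^ 2 * X1 g (u ^ 5) (v ^ 5)) (κ ^ 3 * wConst g e * Y1 g (u ^ 5) (v ^ 5)))
      (h2 : (lvlCurve (κ ^ 4 * kH u v) (κ ^ 6 * kT u v)).toAffine.Nonsingular
          (κ ^ 2 * X2 g (u ^ 5) (v ^ 5)) (κ ^ 3 * wConst g e * Y2 g (u ^ 5) (v ^ 5))),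
      2 • Affine.Point.some _ _ h1 = Affine.Point.some _ _ h2 ∧
      5 • Affine.Point.some _ _ h1 = 0 ∧
      κ ^ 3 * wConst g e * Y1 g (u ^ 5) (v ^ 5) ≠ 0 ∧
      κ ^ 3 * wConst g e * Y2 g (u ^ 5) (v ^ 5) ≠ 0 := by
  have hw := wConst_sq hg he
  set U := u ^ 5 with hU
  set V := v ^ 5 with hV
  have hΔ : (lvlCurve (κ ^ 4 * kH u v) (κ ^ 6 * kT u v)).Δ ≠ 0 := by
    rw [lvlCurve_Δ_klein]
    exact neg_ne_zero.2 (mul_ne_zero (mul_ne_zero (by norm_num) (pow_ne_zero _ hκ))
      (pow_ne_zero _ hf))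
  have hH : kH u v = formH U V := kH_eq u v
  have hT : kT u v = formT U V := kT_eq u v
  have h1 : (lvlCurve (κ ^ 4 * kH u v) (κ ^ 6 * kT u v)).toAffine.Nonsingular
      (κ ^ 2 * X1 g U V) (κ ^ 3 * wConst g e * Y1 g U V) := by
    refine (Affine.equation_iff_nonsingular_of_Δ_ne_zero hΔ).1 (lvlCurve_equation.2 ?_)
    rw [hH, hT]
    linear_combination (-κ ^ 6) * point_equation hg U V + (κ ^ 6 * Y1 g U V ^ 2) * hw
  obtain ⟨h2, e2, hy1⟩ := double_of_slope hΔ h1 (l := κ * wConst g e * L1 g U V)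
    (x' := κ ^ 2 * X2 g U V) (y' := κ ^ 3 * wConst g e * Y2 g U V)
    (by rw [hH]; linear_combination κ ^ 4 * point_slope hg U V
          - (2 * κ ^ 4 * Y1 g U V * L1 g U V) * hw)
    (by linear_combination κ ^ 2 * point_double_x hg U V + (κ ^ 2 * L1 g U V ^ 2) * hw)
    (by linear_combination (κ ^ 3 * wConst g e) * point_double_y hg U V)
  obtain ⟨h4, e4, hy2⟩ := double_of_slope hΔ h2 (l := κ * wConst g e * L2 g U V)
    (x' := κ ^ 2 * X1 g U V)
    (y' := -(κ ^ 3 * wConst g e * Y2 g U V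
      + κ * wConst g e * L2 g U V * (κ ^ 2 * X1 g U V - κ ^ 2 * X2 g U V)))
    (by rw [hH]; linear_combination κ ^ 4 * double_slope hg U V
          - (2 * κ ^ 4 * Y2 g U V * L2 g U V) * hw)
    (by linear_combination κ ^ 2 * double_double_x hg U V + (κ ^ 2 * L2 g U V ^ 2) * hw)
    rfl
  refine ⟨h1, h2, (two_nsmul _).trans e2, ?_, hy1, hy2⟩
  set P := Affine.Point.some _ _ h1 with hP
  have h4P : 4 • P = Affine.Point.some _ _ h4 := by
    have h22 : (2 * 2) • P = Affine.Point.some _ _ h4 := by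
      rw [mul_nsmul, (two_nsmul P).trans e2, two_nsmul, e4]
    exact h22
  have hsplit := Affine.Y_eq_of_X_eq h4.1 h1.1 rfl
  rcases hsplit with hy | hy
  · exfalso
    have h43 : 4 • P = P := by
      rw [h4P, hP]; simp only [Affine.Point.some.injEq]; exact ⟨trivial, hy⟩
    have h3 : 3 • P = 0 := by
      have h31 : (3 + 1) • P = P := h43
      rw [add_nsmul, one_nsmul] at h31
      exact add_eq_right.1 h31
    have h2P : 2 • P = -P := eq_neg_of_add_eq_zero_left (by rw [← succ_nsmul]; exact h3)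
    rw [(two_nsmul P).trans e2, hP, Affine.Point.neg_some] at h2P
    simp only [Affine.Point.some.injEq] at h2P
    have hX : X2 g U V - X1 g U V = 0 := by
      rw [sub_eq_zero]; exact mul_left_cancel₀ (pow_ne_zero 2 hκ) h2P.1
    rw [X2_sub_X1] at hX
    have hr : (2 * g + 1 : K) ≠ 0 := by
      intro e0
      have : (5 : K) = 0 := by linear_combination (2 * g + 1) * e0 - 4 * hg
      norm_num at this
    have hd : U ^ 2 + 11 * U * V - V ^ 2 = 0 :=
      (mul_eq_zero.1 hX).resolve_left (mul_ne_zero (by norm_num) hr)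
    apply hf
    rw [kf, show u ^ 10 + 11 * u ^ 5 * v ^ 5 - v ^ 10 = U ^ 2 + 11 * U * V - V ^ 2 by
      rw [hU, hV]; ring, hd, mul_zero]
  · have h4n : 4 • P = -P := by
      rw [h4P, hP, Affine.Point.neg_some]; simp only [Affine.Point.some.injEq]; exact ⟨trivial, hy⟩
    show (4 + 1) • P = 0
    rw [add_nsmul, one_nsmul, h4n, neg_add_cancel]

end FLTAgent.S52
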