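import Fermat.Agent.S52.Subst
import Mathlib.Algebra.Polynomial.Coeff
import Mathlib.Algebra.Polynomial.Eval.Degree
import Mathlib.RingTheory.RootsOfUnity.PrimitiveRoots

set_option autoImplicit false
set_option linter.all false

/-!
The twelve x-coordinates of the points of order five, as polynomials.
-/

noncomputable section

namespace FLTAgent.S52

open Polynomial WeierstrassCurve

/-- the constants: roots of unity, golden section and square roots -/
structure Consts (F : Type*) [Field F] where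
  /-- primitive fifth root of unity -/
  z : F
  /-- square root for the y-coordinates -/
  e : F
  /-- scaling of the second family -/
  k : F
  hz : IsPrimitiveRoot z 5
  he : e ^ 2 = 3 * (3 + (z + z ^ 4))
  hk : k ^ 2 * ((z + z ^ 4) - 2) ^ 5 = 1

variable {F : Type*} [Field F] [CharZero F]

/-- the golden section -/
def Consts.g (c : Consts F) : F := c.z + c.z ^ 4

omit [CharZero F] in
lemma Consts.hg (c : Consts F) : c.g ^ 2 + c.g - 1 = 0 := by
  have h := c.hz.geom_sum_eq_zero (by norm_num)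
  simp only [Finset.sum_range_succ, Finset.sum_range_zero, pow_zero, pow_one, zero_add] at h
  have h5 : c.z ^ 5 = 1 := c.hz.pow_eq_one
  simp only [Consts.g]
  linear_combination h + (c.z ^ 3 + 2) * h5

/-- index of a nonzero point of order five up to sign -/
abbrev Idx : Type := Option (Fin 5) × Bool

/-- coefficients of the x-coordinate -/
def xcoef (g : F) : Bool → F × F × F
  | false => (31 / 5 + 12 / 5 * g, 66 / 5 + 132 / 5 * g, 19 / 5 - 12 / 5 * g)
  | true => (19 / 5 - 12 / 5 * g, -66 / 5 - 132 / 5 * g, 31 / 5 + 12 / 5 * g)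

/-- coefficients of the y-coordinate -/
def ycoef (g : F) : Bool → F × F × F × F
  | false => (1, 14 - 5 * g, 32 - 55 * g, -3 + 5 * g)
  | true => (-3 + 5 * g, -32 + 55 * g, 14 - 5 * g, -1)

variable {R : Type*} [CommRing R] [Algebra F R]

/-- scale of a family -/
def Consts.scale (c : Consts F) : Option (Fin 5) → F
  | none => 1
  | some _ => c.k

/-- parameters of a family -/
def Consts.par (c : Consts F) (u v : R) : Option (Fin 5) → R × R
  | none => (u, v)
  | some j => (algebraMap F R c.g * (algebraMap F R (c.z ^ (j : ℕ)) * u) + v,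
      algebraMap F R (c.z ^ (j : ℕ)) * u - algebraMap F R c.g * v)

/-- x-coordinates -/
def Consts.xR (c : Consts F) (u v : R) (i : Idx) : R :=
  algebraMap F R (c.scale i.1 ^ 2) *
    (algebraMap F R (xcoef c.g i.2).1 * ((c.par u v i.1).1 ^ 5) ^ 2
      + algebraMap F R (xcoef c.g i.2).2.1 * ((c.par u v i.1).1 ^ 5) * ((c.par u v i.1).2 ^ 5)
      + algebraMap F R (xcoef c.g i.2).2.2 * ((c.par u v i.1).2 ^ 5) ^ 2)

/-- y-coordinates -/
def Consts.yR (c : Consts F) (u v : R) (i : Idx) : R :=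
  algebraMap F R (c.scale i.1 ^ 3 * wConst c.g c.e) *
    (algebraMap F R (ycoef c.g i.2).1 * ((c.par u v i.1).1 ^ 5) ^ 3
      + algebraMap F R (ycoef c.g i.2).2.1 * ((c.par u v i.1).1 ^ 5) ^ 2 * ((c.par u v i.1).2 ^ 5)
      + algebraMap F R (ycoef c.g i.2).2.2.1 * ((c.par u v i.1).1 ^ 5) * ((c.par u v i.1).2 ^ 5) ^ 2
      + algebraMap F R (ycoef c.g i.2).2.2.2 * ((c.par u v i.1).2 ^ 5) ^ 3)

/-- the constants in an extension field -/
def Consts.map {L : Type*} [Field L] [CharZero L] (c : Consts F) (ι : F →+* L) : Consts L where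
  z := ι c.z
  e := ι c.e
  k := ι c.k
  hz := c.hz.map_of_injective ι.injective
  he := by rw [← map_pow, c.he]; simp [map_ofNat]
  hk := by
    rw [show (ι c.z + ι c.z ^ 4) - 2 = ι ((c.z + c.z ^ 4) - 2) by simp [map_ofNat],
      ← map_pow, ← map_pow, ← map_mul, c.hk, map_one]

lemma Consts.map_g {L : Type*} [Field L] [CharZero L] (c : Consts F) (ι : F →+* L) :
    (c.map ι).g = ι c.g := by simp [Consts.g, Consts.map]

lemma Consts.map_xR {L : Type*} [Field L] [CharZero L] (c : Consts F) (φ : R →+* L) (u v : R)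
    (i : Idx) : φ (c.xR u v i) = (c.map (φ.comp (algebraMap F R))).xR (φ u) (φ v) i := by
  have hg := c.map_g (φ.comp (algebraMap F R))
  have hψ : ∀ x, φ (algebraMap F R x) = φ.comp (algebraMap F R) x := fun _ => rfl
  obtain ⟨i, b⟩ := i
  generalize φ.comp (algebraMap F R) = ψ at hg hψ ⊢
  rcases i with _ | j <;> cases b <;>
    simp only [Consts.xR, Consts.par, Consts.scale, xcoef, Consts.map, Consts.g, hψ, map_mul, map_add,
      map_sub, map_pow, map_neg, map_one, map_div₀, map_ofNat, Algebra.algebraMap_self,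
      RingHom.id_apply]

lemma Consts.map_yR {L : Type*} [Field L] [CharZero L] (c : Consts F) (φ : R →+* L) (u v : R)
    (i : Idx) : φ (c.yR u v i) = (c.map (φ.comp (algebraMap F R))).yR (φ u) (φ v) i := by
  have hg := c.map_g (φ.comp (algebraMap F R))
  have hψ : ∀ x, φ (algebraMap F R x) = φ.comp (algebraMap F R) x := fun _ => rfl
  obtain ⟨i, b⟩ := i
  generalize φ.comp (algebraMap F R) = ψ at hg hψ ⊢
  rcases i with _ | j <;> cases b <;>
    simp only [Consts.yR, Consts.par, Consts.scale, ycoef, wConst, Consts.map, Consts.g, hψ, map_mul,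
      map_add, map_sub, map_pow, map_neg, map_one, map_div₀, map_ofNat, Algebra.algebraMap_self,
      RingHom.id_apply]

lemma xR_eq (c : Consts F) (u v : F) (i : Idx) :
    c.xR u v i = c.scale i.1 ^ 2 * (if i.2 then X2 c.g ((c.par u v i.1).1 ^ 5) ((c.par u v i.1).2 ^ 5)
      else X1 c.g ((c.par u v i.1).1 ^ 5) ((c.par u v i.1).2 ^ 5)) := by
  obtain ⟨i, b⟩ := i
  cases b <;> simp only [Consts.xR, xcoef, X1, X2, Algebra.algebraMap_self, RingHom.id_apply, if_true,
    Bool.false_eq_true, if_false] <;> ring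

lemma yR_eq (c : Consts F) (u v : F) (i : Idx) :
    c.yR u v i = c.scale i.1 ^ 3 * wConst c.g c.e *
      (if i.2 then Y2 c.g ((c.par u v i.1).1 ^ 5) ((c.par u v i.1).2 ^ 5)
      else Y1 c.g ((c.par u v i.1).1 ^ 5) ((c.par u v i.1).2 ^ 5)) := by
  obtain ⟨i, b⟩ := i
  cases b <;> simp only [Consts.yR, ycoef, Y1, Y2, Algebra.algebraMap_self, RingHom.id_apply, if_true,
    Bool.false_eq_true, if_false] <;> ring

theorem exists_torsion [DecidableEq F] (c : Consts F) {u v : F} (hf : kf u v ≠ 0) (i : Idx) :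
    ∃ hn : (lvlCurve (kH u v) (kT u v)).toAffine.Nonsingular (c.xR u v i) (c.yR u v i),
      5 • Affine.Point.some _ _ hn = 0 := by
  obtain ⟨i, b⟩ := i
  rw [xR_eq, yR_eq]
  rcases i with _ | j
  · obtain ⟨h1, h2, hd, h5, -, -⟩ := exists_point_five c.hg c.he (one_ne_zero (α := F)) hf
    have a1 := transport_five (h' := kH u v) (t' := kT u v) (by ring) (by ring) h1 h5
    have a2 := transport_five (h' := kH u v) (t' := kT u v) (by ring) (by ring) h2 (five_double hd h5)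
    cases b
    · simpa [Consts.scale, Consts.par] using a1
    · simpa [Consts.scale, Consts.par] using a2
  · obtain ⟨h1, h2, a1, a2⟩ := exists_second_point c.hg c.he c.hk
      (ζ := c.z ^ (j : ℕ)) (by rw [← pow_mul, mul_comm, pow_mul, c.hz.pow_eq_one, one_pow]) hf
    cases b
    · simpa [Consts.scale, Consts.par] using ⟨h1, a1⟩
    · simpa [Consts.scale, Consts.par] using ⟨h2, a2⟩

/-! ### distinctness -/

lemma coeff_low (p r : F[X]) :
    (p * r).coeff 0 = p.coeff 0 * r.coeff 0 ∧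
      (p * r).coeff 1 = p.coeff 0 * r.coeff 1 + p.coeff 1 * r.coeff 0 ∧
      (p * r).coeff 2 = p.coeff 0 * r.coeff 2 + p.coeff 1 * r.coeff 1 + p.coeff 2 * r.coeff 0 := by
  refine ⟨mul_coeff_zero p r, mul_coeff_one p r, ?_⟩
  rw [Polynomial.coeff_mul, Finset.Nat.sum_antidiagonal_eq_sum_range_succ
    (f := fun i j => p.coeff i * r.coeff j)]
  simp [Finset.sum_range_succ]

lemma coeff_pow5 (a b : F) :
    ((Polynomial.C a + Polynomial.C b * X) ^ 5).coeff 0 = a ^ 5 ∧
      ((Polynomial.C a + Polynomial.C b * X) ^ 5).coeff 1 = 5 * a ^ 4 * b ∧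
      ((Polynomial.C a + Polynomial.C b * X) ^ 5).coeff 2 = 10 * a ^ 3 * b ^ 2 := by
  have h : (Polynomial.C a + Polynomial.C b * X) ^ 5 = Polynomial.C (a ^ 5)
      + Polynomial.C (5 * a ^ 4 * b) * X ^ 1 + Polynomial.C (10 * a ^ 3 * b ^ 2) * X ^ 2
      + Polynomial.C (10 * a ^ 2 * b ^ 3) * X ^ 3 + Polynomial.C (5 * a * b ^ 4) * X ^ 4
      + Polynomial.C (b ^ 5) * X ^ 5 := by
    simp only [map_mul, map_pow, map_ofNat]; ring
  rw [h]
  simp only [coeff_add, coeff_C_mul_X_pow, coeff_C]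
  norm_num

lemma coeff_qform (a b c U0 U1 U2 V0 V1 V2 : F) (U V : F[X]) (hU0 : U.coeff 0 = U0)
    (hU1 : U.coeff 1 = U1) (hU2 : U.coeff 2 = U2) (hV0 : V.coeff 0 = V0) (hV1 : V.coeff 1 = V1)
    (hV2 : V.coeff 2 = V2) :
    (Polynomial.C a * U ^ 2 + Polynomial.C b * U * V + Polynomial.C c * V ^ 2).coeff 0
        = a * U0 * U0 + b * U0 * V0 + c * V0 * V0 ∧
      (Polynomial.C a * U ^ 2 + Polynomial.C b * U * V + Polynomial.C c * V ^ 2).coeff 1
        = a * 2 * U0 * U1 + b * (U0 * V1 + U1 * V0) + c * 2 * V0 * V1 ∧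
      (Polynomial.C a * U ^ 2 + Polynomial.C b * U * V + Polynomial.C c * V ^ 2).coeff 2
        = a * (U1 * U1 + 2 * U0 * U2) + b * (U0 * V2 + U1 * V1 + U2 * V0)
          + c * (V1 * V1 + 2 * V0 * V2) := by
  obtain ⟨p0, p1, p2⟩ := coeff_low U U
  obtain ⟨r0, r1, r2⟩ := coeff_low U V
  obtain ⟨s0, s1, s2⟩ := coeff_low V V
  subst hU0 hU1 hU2 hV0 hV1 hV2
  simp only [sq, mul_assoc (Polynomial.C b), coeff_add, coeff_C_mul, p0, p1, p2, r0, r1, r2, s0, s1, s2]
  refine ⟨?_, ?_, ?_⟩ <;> ring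

/-- the common x-coordinate of the collapsing families near the cusp -/
def Consts.phi (c : Consts F) (b : Bool) : F[X] :=
  c.xR (Polynomial.C 1 : F[X]) (X : F[X]) (some 0, b)

lemma phi_eq (c : Consts F) (b : Bool) : c.phi b = Polynomial.C (c.k ^ 2) *
    (Polynomial.C (xcoef c.g b).1 * ((Polynomial.C c.g + Polynomial.C 1 * X) ^ 5) ^ 2
      + Polynomial.C (xcoef c.g b).2.1 * ((Polynomial.C c.g + Polynomial.C 1 * X) ^ 5)
        * ((Polynomial.C 1 + Polynomial.C (-c.g) * X) ^ 5)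
      + Polynomial.C (xcoef c.g b).2.2 * ((Polynomial.C 1 + Polynomial.C (-c.g) * X) ^ 5) ^ 2) := by
  simp only [Consts.phi, Consts.xR, Consts.par, Consts.scale, Polynomial.algebraMap_eq,
    Fin.val_zero, pow_zero, map_one, map_neg, one_mul, mul_one]
  ring

lemma phi_coeff_false (c : Consts F) :
    (c.phi false).coeff 0 = -1 ∧ (c.phi false).coeff 1 = 0 ∧ (c.phi false).coeff 2 = -12 := by
  obtain ⟨u0, u1, u2⟩ := coeff_pow5 c.g (1 : F)
  obtain ⟨v0, v1, v2⟩ := coeff_pow5 (1 : F) (-c.g)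
  obtain ⟨h0, h1, h2⟩ := coeff_qform (xcoef c.g false).1 (xcoef c.g false).2.1 (xcoef c.g false).2.2
    _ _ _ _ _ _ _ _ u0 u1 u2 v0 v1 v2
  have hk : c.k ^ 2 * (c.g - 2) ^ 5 = 1 := c.hk
  have hg := c.hg
  set g := c.g
  rw [phi_eq, coeff_C_mul, coeff_C_mul, coeff_C_mul, h0, h1, h2]
  simp only [xcoef]
  refine ⟨?_, ?_, ?_⟩
  · linear_combination (c.k ^ 2 * ((141/5) + (-247/5)*g + (294/5)*g^2 + (-153/5)*g^3 + (191/5)*g^4 + (-33/5)*g^5 + (26/5)*g^6 + (-7/5)*g^7 + (19/5)*g^8 + (12/5)*g^9)) * hg + (-1) * hk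
  · linear_combination (c.k ^ 2 * ((38)*g + (14)*g^2 + (52)*g^3 + (-80)*g^5 + (-14)*g^6 + (38)*g^7 + (24)*g^8)) * hg + (0) * hk
  · linear_combination (c.k ^ 2 * ((384) + (-576)*g + (597)*g^2 + (-483)*g^3 + (-30)*g^4 + (-195)*g^5 + (435)*g^6 + (108)*g^7)) * hg + (-12) * hk

lemma phi_coeff_true (c : Consts F) :
    (c.phi true).coeff 0 = -1 ∧ (c.phi true).coeff 1 = 12 ∧ (c.phi true).coeff 2 = -24 := by
  obtain ⟨u0, u1, u2⟩ := coeff_pow5 c.g (1 : F)
  obtain ⟨v0, v1, v2⟩ := coeff_pow5 (1 : F) (-c.g)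
  obtain ⟨h0, h1, h2⟩ := coeff_qform (xcoef c.g true).1 (xcoef c.g true).2.1 (xcoef c.g true).2.2
    _ _ _ _ _ _ _ _ u0 u1 u2 v0 v1 v2
  have hk : c.k ^ 2 * (c.g - 2) ^ 5 = 1 := c.hk
  have hg := c.hg
  set g := c.g
  rw [phi_eq, coeff_C_mul, coeff_C_mul, coeff_C_mul, h0, h1, h2]
  simp only [xcoef]
  refine ⟨?_, ?_, ?_⟩
  · linear_combination (c.k ^ 2 * ((129/5) + (-283/5)*g + (246/5)*g^2 + (-237/5)*g^3 + (59/5)*g^4 + (-117/5)*g^5 + (74/5)*g^6 + (-43/5)*g^7 + (31/5)*g^8 + (-12/5)*g^9)) * hg + (-1) * hk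
  · linear_combination (c.k ^ 2 * ((-384) + (638)*g + (-682)*g^2 + (436)*g^3 + (-300)*g^4 + (280)*g^5 + (-86)*g^6 + (62)*g^7 + (-24)*g^8)) * hg + (12) * hk
  · linear_combination (c.k ^ 2 * ((768) + (-1152)*g + (1257)*g^2 + (-831)*g^3 + (930)*g^4 + (-255)*g^5 + (15)*g^6 + (-108)*g^7)) * hg + (-24) * hk

end FLTAgent.S52
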