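import Fermat.Agent.S52.Level
import Mathlib.Algebra.Polynomial.Eval.Defs
import Mathlib.Algebra.Polynomial.Roots

set_option autoImplicit false
set_option linter.all false

/-!
The involution of the icosahedral group and the second family of points of order five.
-/

noncomputable section

namespace FLTAgent.S52

open Polynomial

variable {K : Type*} [Field K]

lemma map_kf {R S : Type*} [CommRing R] [CommRing S] (φ : R →+* S) (u v : R) :
    φ (kf u v) = kf (φ u) (φ v) := by simp [kf, map_ofNat]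

lemma map_kH {R S : Type*} [CommRing R] [CommRing S] (φ : R →+* S) (u v : R) :
    φ (kH u v) = kH (φ u) (φ v) := by simp [kH, map_ofNat]

lemma map_kT {R S : Type*} [CommRing R] [CommRing S] (φ : R →+* S) (u v : R) :
    φ (kT u v) = kT (φ u) (φ v) := by simp [kT, map_ofNat]

lemma kHT_subst [CharZero K] {g : K} (hg : g ^ 2 + g - 1 = 0) (u v : K) :
    kH (g * u + v) (u - g * v) = (g - 2) ^ 10 * kH u v ∧
      kT (g * u + v) (u - g * v) = (g - 2) ^ 15 * kT u v := by
  by_cases h0 : u = 0 ∧ v = 0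
  · obtain ⟨rfl, rfl⟩ := h0
    simp [kH, kT]
  obtain ⟨a, b, hdet⟩ : ∃ a b : K, u * b - v * a ≠ 0 := by
    by_cases hu : u = 0
    · exact ⟨1, 0, by simpa using fun hv => h0 ⟨hu, hv⟩⟩
    · exact ⟨0, 1, by simpa using hu⟩
  have hd : g - 2 ≠ 0 := by
    intro e
    have : (5 : K) = 0 := by linear_combination hg - (g + 3) * e
    norm_num at this
  set x := C u + X * C a with hx
  set y := C v + X * C b with hy
  set x' := C (g * u + v) + X * C (g * a + b) with hx'
  set y' := C (u - g * v) + X * C (a - g * b) with hy'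
  have hgC : C g ^ 2 + C g - 1 = (0 : K[X]) := by
    rw [← map_pow, ← map_add, ← map_one C, ← map_sub, hg, map_zero]
  have hex : x' = C g * x + y := by simp [hx, hx', hy]; ring
  have hey : y' = x - C g * y := by simp [hx, hy, hy']; ring
  have hdet' : (g * u + v) * (a - g * b) - (u - g * v) * (g * a + b)
      = (g - 2) * (u * b - v * a) := by
    linear_combination (-(u * b - v * a)) * hg
  have hf : kf x' y' = C ((g - 2) ^ 6) * kf x y := by
    rw [hex, hey, kf_subst hgC, map_pow, map_sub, map_ofNat]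
  have h1 := kH_line (g * u + v) (u - g * v) (g * a + b) (a - g * b)
  have h2 := kH_line u v a b
  rw [← hx', ← hy', hdet', hf, derivative_C_mul, derivative_C_mul] at h1
  rw [← hx, ← hy] at h2
  have hH : kH x' y' = C ((g - 2) ^ 10) * kH x y := by
    apply mul_right_cancel₀ (b := C (121 * ((g - 2) * (u * b - v * a)) ^ 2))
    · rw [Ne, C_eq_zero]
      exact mul_ne_zero (by norm_num) (pow_ne_zero _ (mul_ne_zero hd hdet))
    · simp only [map_mul, map_pow, map_ofNat] at h1 h2 ⊢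
      linear_combination h1 - C (g - 2) ^ 12 * h2
  have h3 := kT_line (g * u + v) (u - g * v) (g * a + b) (a - g * b)
  have h4 := kT_line u v a b
  rw [← hx', ← hy', hdet', hf, hH, derivative_C_mul, derivative_C_mul] at h3
  rw [← hx, ← hy] at h4
  have hT : kT x' y' = C ((g - 2) ^ 15) * kT x y := by
    apply mul_right_cancel₀ (b := C (-20 * ((g - 2) * (u * b - v * a))))
    · rw [Ne, C_eq_zero]
      exact mul_ne_zero (by norm_num) (mul_ne_zero hd hdet)
    · simp only [map_mul, map_pow, map_ofNat, map_neg] at h3 h4 ⊢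
      linear_combination h3 - C (g - 2) ^ 16 * h4
  have e1 := congrArg (Polynomial.evalRingHom (0 : K)) hH
  have e2 := congrArg (Polynomial.evalRingHom (0 : K)) hT
  simp only [coe_evalRingHom, ← coe_evalRingHom, map_mul, map_kH, map_kT] at e1 e2
  simp [hx, hy, hx', hy'] at e1 e2
  exact ⟨e1, e2⟩

lemma kf_zeta {S : Type*} [CommRing S] {ζ : S} (hζ : ζ ^ 5 = 1) (u v : S) :
    kf (ζ * u) v = ζ * kf u v ∧ kH (ζ * u) v = kH u v ∧ kT (ζ * u) v = kT u v := by
  have h10 : ζ ^ 10 = 1 := by rw [show 10 = 5 * 2 from rfl, pow_mul, hζ, one_pow]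
  have h15 : ζ ^ 15 = 1 := by rw [show 15 = 5 * 3 from rfl, pow_mul, hζ, one_pow]
  have h20 : ζ ^ 20 = 1 := by rw [show 20 = 5 * 4 from rfl, pow_mul, hζ, one_pow]
  have h25 : ζ ^ 25 = 1 := by rw [show 25 = 5 * 5 from rfl, pow_mul, hζ, one_pow]
  have h30 : ζ ^ 30 = 1 := by rw [show 30 = 5 * 6 from rfl, pow_mul, hζ, one_pow]
  refine ⟨?_, ?_, ?_⟩
  · simp only [kf, mul_pow, h10, hζ, one_mul]; ring
  · simp only [kH, mul_pow, h10, h15, h20, hζ, one_mul]
  · simp only [kT, mul_pow, h10, h20, h25, h30, hζ, one_mul]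

lemma transport_five [DecidableEq K] {h t h' t' x y : K} (eh : h = h') (et : t = t')
    (hn : (lvlCurve h t).toAffine.Nonsingular x y)
    (h5 : 5 • WeierstrassCurve.Affine.Point.some _ _ hn = 0) :
    ∃ hn' : (lvlCurve h' t').toAffine.Nonsingular x y,
      5 • WeierstrassCurve.Affine.Point.some _ _ hn' = 0 := by
  subst eh; subst et; exact ⟨hn, h5⟩

lemma five_double {A : Type*} [AddMonoid A] {P Q : A} (h : 2 • P = Q) (h5 : 5 • P = 0) :
    5 • Q = 0 := by
  rw [← h, ← mul_nsmul, mul_comm, mul_nsmul, h5, nsmul_zero]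

/-- the second point on the same curve: the first one at the image of `(u, v)` -/
theorem exists_second_point [CharZero K] [DecidableEq K] {g e κ ζ u v : K}
    (hg : g ^ 2 + g - 1 = 0) (he : e ^ 2 = 3 * (3 + g)) (hκ : κ ^ 2 * (g - 2) ^ 5 = 1)
    (hζ : ζ ^ 5 = 1) (hf : kf u v ≠ 0) :
    ∃ (h1 : (lvlCurve (kH u v) (kT u v)).toAffine.Nonsingular
          (κ ^ 2 * X1 g ((g * (ζ * u) + v) ^ 5) ((ζ * u - g * v) ^ 5))
          (κ ^ 3 * wConst g e * Y1 g ((g * (ζ * u) + v) ^ 5) ((ζ * u - g * v) ^ 5)))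
      (h2 : (lvlCurve (kH u v) (kT u v)).toAffine.Nonsingular
          (κ ^ 2 * X2 g ((g * (ζ * u) + v) ^ 5) ((ζ * u - g * v) ^ 5))
          (κ ^ 3 * wConst g e * Y2 g ((g * (ζ * u) + v) ^ 5) ((ζ * u - g * v) ^ 5))),
      5 • WeierstrassCurve.Affine.Point.some _ _ h1 = 0 ∧
      5 • WeierstrassCurve.Affine.Point.some _ _ h2 = 0 := by
  have hκ0 : κ ≠ 0 := by rintro rfl; simp at hκ
  have hg2 : g - 2 ≠ 0 := by intro e0; rw [e0] at hκ; simp at hκ
  have hζ0 : ζ ≠ 0 := by rintro rfl; simp at hζ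
  obtain ⟨zf, zH, zT⟩ := kf_zeta hζ u v
  obtain ⟨sH, sT⟩ := kHT_subst hg (ζ * u) v
  have hf' : kf (g * (ζ * u) + v) (ζ * u - g * v) ≠ 0 := by
    rw [kf_subst hg, zf]
    exact mul_ne_zero (pow_ne_zero _ hg2) (mul_ne_zero hζ0 hf)
  obtain ⟨h1, h2, hd, h5, -, -⟩ := exists_point_five hg he hκ0 hf'
  have eH : κ ^ 4 * kH (g * (ζ * u) + v) (ζ * u - g * v) = kH u v := by
    rw [sH, zH]; linear_combination (κ ^ 2 * (g - 2) ^ 5 + 1) * kH u v * hκ
  have eT : κ ^ 6 * kT (g * (ζ * u) + v) (ζ * u - g * v) = kT u v := by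
    rw [sT, zT]
    linear_combination (κ ^ 4 * (g - 2) ^ 10 + κ ^ 2 * (g - 2) ^ 5 + 1) * kT u v * hκ
  have hd2 := five_double hd h5
  obtain ⟨n1, k1⟩ := transport_five eH eT h1 h5
  obtain ⟨n2, k2⟩ := transport_five eH eT h2 hd2
  exact ⟨n1, n2, k1, k2⟩

end FLTAgent.S52
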